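/-
Galois action on parabolic homomorphisms of congruence subgroups: definitions.
-/
import Mathlib
import Fermat.Agent.GalRep.Datum
import Fermat.Prelude.Def_ExtCitation_AdmissibleExtension

set_option autoImplicit false

noncomputable section

namespace Fermat.Agent.GalRep.Level

open CongruenceSubgroup UpperHalfPlane
open Fermat.Agent.Galois (GQ)
open scoped MatrixGroups Manifold

/-! ## `g ↦ diag(a,1) g diag(a,1)⁻¹` modulo `M` -/

/-- Reduction modulo `M`. -/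
def red (M : ℕ) : SL(2, ℤ) →* SL(2, ZMod M) :=
  Matrix.SpecialLinearGroup.map (Int.castRingHom (ZMod M))

@[simp] theorem red_apply (M : ℕ) (g : SL(2, ℤ)) (i j : Fin 2) :
    red M g i j = (g i j : ZMod M) := rfl

theorem red_eq_one_iff {M : ℕ} {g : SL(2, ℤ)} : red M g = 1 ↔ g ∈ Gamma M := Iff.rfl

/-- Conjugation by `diag(a,1)`. -/
def conjA {R : Type*} [CommRing R] (a : Rˣ) : SL(2, R) →* SL(2, R) where
  toFun g := ⟨!![g 0 0, (a : R) * g 0 1; ((a⁻¹ : Rˣ) : R) * g 1 0, g 1 1], by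
    have h : g 0 0 * g 1 1 - g 0 1 * g 1 0 = 1 := by
      rw [← Matrix.det_fin_two]; exact g.2
    rw [Matrix.det_fin_two_of, mul_mul_mul_comm, Units.mul_inv, one_mul, h]⟩
  map_one' := by
    ext i j; fin_cases i <;> fin_cases j <;> simp
  map_mul' g h := by
    ext i j
    show _ = (!![g 0 0, (a : R) * g 0 1; ((a⁻¹ : Rˣ) : R) * g 1 0, g 1 1] *
      !![h 0 0, (a : R) * h 0 1; ((a⁻¹ : Rˣ) : R) * h 1 0, h 1 1] : Matrix (Fin 2) (Fin 2) R) i j
    fin_cases i <;> fin_cases j <;>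
      simp [Matrix.mul_apply, Fin.sum_univ_two, mul_add]
    · linear_combination (-(g 0 1 * h 1 0)) * Units.mul_inv a
    · ring
    · ring
    · linear_combination (-(g 1 0 * h 0 1)) * Units.inv_mul a

/-- `g' ≡ g^a := diag(a,1) g diag(a,1)⁻¹` modulo `M`. -/
def ConjEq (M : ℕ) (a : (ZMod M)ˣ) (g g' : SL(2, ℤ)) : Prop :=
  red M g' = conjA a (red M g)

theorem conjEq_iff {M : ℕ} {a : (ZMod M)ˣ} {g g' : SL(2, ℤ)} :
    ConjEq M a g g' ↔ (g' 0 0 : ZMod M) = g 0 0 ∧ (g' 0 1 : ZMod M) = a * g 0 1 ∧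
      (g' 1 0 : ZMod M) = ((a⁻¹ : (ZMod M)ˣ) : ZMod M) * g 1 0 ∧ (g' 1 1 : ZMod M) = g 1 1 := by
  rw [ConjEq, Matrix.SpecialLinearGroup.ext_iff]
  simp only [Fin.forall_fin_two, and_assoc]
  rfl

/-! ## The cyclotomic exponent -/

/-- `σ ζ = ζ ^ a` on `M`-th roots of unity. -/
def cycM (M : ℕ) [NeZero M] : GQ →* (ZMod M)ˣ :=
  (modularCyclotomicCharacter (AlgebraicClosure ℚ) (IsAlgClosed.card_rootsOfUnity_eq _ M)).comp
    (MulSemiringAction.toRingAut GQ (AlgebraicClosure ℚ))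

/-- `σ ζ = ζ ^ a` on complex `M`-th roots of unity. -/
def cycC (M : ℕ) [NeZero M] : (ℂ ≃+* ℂ) →* (ZMod M)ˣ :=
  modularCyclotomicCharacter ℂ (IsAlgClosed.card_rootsOfUnity_eq _ M)

/-! ## Levels, homomorphisms, representatives -/

/-- `G` is a congruence subgroup of level dividing `M`, stable under `g ↦ g^a`. -/
structure IsLevel (M : ℕ) (G : Subgroup SL(2, ℤ)) : Prop where
  gamma_le : Gamma M ≤ G
  conj_mem : ∀ (a : (ZMod M)ˣ) (g g' : SL(2, ℤ)), ConjEq M a g g' → g ∈ G → g' ∈ G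

/-- Homomorphisms killing the elements of trace `±2`. -/
abbrev ParG (G : Subgroup SL(2, ℤ)) (A : Type) [AddCommGroup A] :
    Submodule ℤ (Additive G →+ A) :=
  ModularCurve.Period.parabolicHoms ℤ G A

/-- A nonzero holomorphic function, meromorphic at the cusps, transforming under `G` by
`exp(2πi χ/n)`. -/
structure IsRepG (G : Subgroup SL(2, ℤ)) (n : ℕ) [NeZero n] (χ : ParG G (ZMod n))
    (F : ℍ → ℂ) : Prop where
  holo : MDifferentiable 𝓘(ℂ) 𝓘(ℂ) F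
  ne_zero : F ≠ 0
  equivariant : ∀ (γ : G) (τ : ℍ), F ((γ : SL(2, ℤ)) • τ) =
    ZMod.stdAddChar ((χ : Additive G →+ ZMod n) (Additive.ofMul γ)) * F τ
  cusps : HasSeriesAtCusps F

/-- `χ'` on `G'` is the transfer of `χ` on `G` along the matrices `β`. This covers restriction,
corestriction, pullback by a matrix, `T_ℓ`, `U_q` and `W_q`. -/
def IsTransfer {ι : Type} [Fintype ι] (G G' : Subgroup SL(2, ℤ))
    (β : ι → Matrix (Fin 2) (Fin 2) ℤ) {A : Type} [AddCommGroup A]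
    (χ : Additive G →+ A) (χ' : Additive G' →+ A) : Prop :=
  ∀ γ : G', ∃ (e : Equiv.Perm ι) (g : ι → G),
    (∀ i, β i * ((γ : SL(2, ℤ)) : Matrix (Fin 2) (Fin 2) ℤ) =
      ((g i : SL(2, ℤ)) : Matrix (Fin 2) (Fin 2) ℤ) * β (e i)) ∧
    χ' (Additive.ofMul γ) = ∑ i, χ (Additive.ofMul (g i))

/-- An element of `SL(2,ℤ)` congruent to `diag(1/ℓ, ℓ)` modulo `M`. -/
def IsDiamond (M ℓ : ℕ) (R : SL(2, ℤ)) : Prop :=
  (ℓ : ZMod M) * R 0 0 = 1 ∧ (R 0 1 : ZMod M) = 0 ∧ (R 1 0 : ZMod M) = 0 ∧ (R 1 1 : ZMod M) = ℓ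

/-- Representatives of the double coset of `diag(1,ℓ)` at level `M`. -/
def heckeRepG (M ℓ : ℕ) (R : SL(2, ℤ)) : Option (Fin ℓ) → Matrix (Fin 2) (Fin 2) ℤ
  | none => (R : Matrix (Fin 2) (Fin 2) ℤ) * !![(ℓ : ℤ), 0; 0, 1]
  | some b => !![1, (b : ℤ) * M; 0, (ℓ : ℤ)]

/-- `β'` is the conjugate of `β = g·(α b; 0 δ)` for the cyclotomic exponent `a` at level `K`,
a multiple of `M δ`: `β' = g'·(α b'; 0 δ)` with `g' ≡ g^a` and `b' ≡ a b`. -/
def ConjRep (M K : ℕ) (a : (ZMod K)ˣ) (β β' : Matrix (Fin 2) (Fin 2) ℤ) : Prop :=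
  ∃ (g g' : SL(2, ℤ)) (α δ : ℕ) (b b' : ℤ), 0 < α ∧ 0 < δ ∧ M * δ ∣ K ∧
    (∀ h : M ∣ K, ConjEq M (Units.map (ZMod.castHom h (ZMod M)).toMonoidHom a) g g') ∧
    (b' : ZMod K) = a * b ∧
    β = (g : Matrix (Fin 2) (Fin 2) ℤ) * !![(α : ℤ), b; 0, (δ : ℤ)] ∧
    β' = (g' : Matrix (Fin 2) (Fin 2) ℤ) * !![(α : ℤ), b'; 0, (δ : ℤ)]

/-- A Kummer function whose `n`-th power is congruent to an `n`-th power has a class killed by a
constant independent of `n` (series of width `M`). -/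
def KummerReductionG (M : ℕ) (G : Subgroup SL(2, ℤ)) : Prop :=
  ∀ ℓ : ℕ, ℓ.Prime → ¬ ℓ ∣ M → ∃ D : ℕ, 0 < D ∧
    ∀ (n : ℕ) [NeZero n], ¬ ℓ ∣ n →
    ∀ A : ValuationSubring (AlgebraicClosure ℚ), A.LiesOverPrime ℓ →
    ∀ (χ : ParG G (ZMod n)) (h v : ℍ → ℂ) (hq vq : LaurentSeries (AlgebraicClosure ℚ)),
      IsRepG G n χ h → HasQSeries M h (seriesToC hq) →
      IsModFun G v → HasQSeries M v (seriesToC vq) →
      SeriesIntegral A (hq ^ n) → SeriesIntegral A vq → (∃ m, vq.coeff m ∉ A.nonunits) →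
      SeriesCongr A (hq ^ n) (vq ^ n) → D • χ = 0

end Fermat.Agent.GalRep.Level
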