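/-
Reduction of `SL(2,ℤ)` modulo `M`, the twist `g ↦ g^a`, levels, cyclotomic exponents.
-/
import Fermat.Agent.GalRep.Level.Defs
import Fermat.Agent.GalRep.KummerGalois

set_option autoImplicit false

noncomputable section

namespace Fermat.Agent.GalRep.Level

open CongruenceSubgroup UpperHalfPlane
open Fermat.Agent.Galois (GQ)
open scoped MatrixGroups Manifold

variable {M : ℕ}

theorem det_entries {R : Type*} [CommRing R] (g : SL(2, R)) :
    g 0 0 * g 1 1 - g 0 1 * g 1 0 = 1 := by rw [← Matrix.det_fin_two]; exact g.2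

/-! ## Surjectivity of the reduction -/

theorem exists_coprime_shift {c d M : ℤ} (hc : c ≠ 0)
    (h : ∀ p : ℕ, p.Prime → (p : ℤ) ∣ c → (p : ℤ) ∣ d → ¬ (p : ℤ) ∣ M) :
    ∃ t : ℤ, IsCoprime c (d + t * M) := by
  classical
  set s : Finset ℕ := c.natAbs.primeFactors.filter fun p => ¬ (p : ℤ) ∣ d
  refine ⟨∏ p ∈ s, (p : ℤ), Int.isCoprime_iff_gcd_eq_one.mpr ?_⟩
  by_contra hg
  obtain ⟨p, hp, hpd⟩ := Nat.exists_prime_and_dvd hg
  have hpc : (p : ℤ) ∣ c := (Int.natCast_dvd_natCast.mpr hpd).trans (Int.gcd_dvd_left _ _)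
  have hp' : (p : ℤ) ∣ d + (∏ q ∈ s, (q : ℤ)) * M :=
    (Int.natCast_dvd_natCast.mpr hpd).trans (Int.gcd_dvd_right _ _)
  have hpp : Prime (p : ℤ) := Nat.prime_iff_prime_int.mp hp
  by_cases hd : (p : ℤ) ∣ d
  · have h1 := (dvd_add_right hd).mp hp'
    rcases hpp.dvd_or_dvd h1 with h2 | h2
    · obtain ⟨q, hq, hq'⟩ := hpp.exists_mem_finset_dvd h2
      have hqp : q.Prime := Nat.prime_of_mem_primeFactors (Finset.mem_filter.mp hq).1
      have : p = q := (Nat.prime_dvd_prime_iff_eq hp hqp).mp (Int.natCast_dvd_natCast.mp hq')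
      exact (Finset.mem_filter.mp hq).2 (this ▸ hd)
    · exact h p hp hpc hd h2
  · refine hd ((dvd_add_left (Dvd.dvd.mul_right (Finset.dvd_prod_of_mem _ ?_) M)).mp hp')
    exact Finset.mem_filter.mpr ⟨Nat.mem_primeFactors.mpr ⟨hp, Int.natCast_dvd.mp hpc,
      Int.natAbs_ne_zero.mpr hc⟩, hd⟩

theorem red_surjective (M : ℕ) [NeZero M] : Function.Surjective (red M) := by
  intro x
  obtain ⟨a, ha⟩ := ZMod.intCast_surjective (x 0 0)
  obtain ⟨b, hb⟩ := ZMod.intCast_surjective (x 0 1)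
  obtain ⟨c₀, hc₀⟩ := ZMod.intCast_surjective (x 1 0)
  obtain ⟨d₀, hd₀⟩ := ZMod.intCast_surjective (x 1 1)
  obtain ⟨c, hc, hc0⟩ : ∃ c : ℤ, (c : ZMod M) = x 1 0 ∧ c ≠ 0 := by
    by_cases h : c₀ = 0
    · exact ⟨M, by rw [← hc₀, h]; simp, by exact_mod_cast NeZero.ne M⟩
    · exact ⟨c₀, hc₀, h⟩
  have hdet := det_entries x
  have hM : (M : ℤ) ∣ a * d₀ - b * c - 1 := by
    rw [← ZMod.intCast_zmod_eq_zero_iff_dvd]
    push_cast
    rw [ha, hb, hc, hd₀, hdet, sub_self]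
  obtain ⟨t, ht⟩ := exists_coprime_shift (d := d₀) (M := (M : ℤ)) hc0 fun p hp h1 h2 h3 => by
    have : (p : ℤ) ∣ 1 := by
      have h4 := dvd_sub (dvd_sub (h2.mul_left a) (h1.mul_left b)) (h3.trans hM)
      simpa using h4
    exact hp.not_dvd_one (by exact_mod_cast this)
  obtain ⟨u, v, huv⟩ := ht
  obtain ⟨k, hk⟩ : (M : ℤ) ∣ 1 - (a * (d₀ + t * M) - b * c) := by
    have : 1 - (a * (d₀ + t * M) - b * c) = -(a * d₀ - b * c - 1) - (M : ℤ) * (a * t) := by ring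
    rw [this]
    exact dvd_sub hM.neg_right (dvd_mul_right _ _)
  refine ⟨⟨!![a + M * k * v, b - M * k * u; c, d₀ + t * M], ?_⟩, ?_⟩
  · rw [Matrix.det_fin_two_of]
    linear_combination ((M : ℤ) * k) * huv - hk
  · ext i j
    show ((!![a + M * k * v, b - M * k * u; c, d₀ + t * M] i j : ℤ) : ZMod M) = x i j
    fin_cases i <;> fin_cases j <;> simp [ha, hb, hc, hd₀]

/-- A lift to `SL(2,ℤ)`. -/
def lift [NeZero M] (x : SL(2, ZMod M)) : SL(2, ℤ) := Function.surjInv (red_surjective M) x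

@[simp] theorem red_lift [NeZero M] (x : SL(2, ZMod M)) : red M (lift x) = x :=
  Function.surjInv_eq _ x

theorem inv_mul_mem_gamma {g h : SL(2, ℤ)} (e : red M g = red M h) : g⁻¹ * h ∈ Gamma M := by
  rw [← red_eq_one_iff, map_mul, map_inv, e, inv_mul_cancel]

theorem mul_inv_mem_gamma {g h : SL(2, ℤ)} (e : red M g = red M h) : g * h⁻¹ ∈ Gamma M := by
  rw [← red_eq_one_iff, map_mul, map_inv, e, mul_inv_cancel]

/-! ## The twist -/

section conjA

variable {R : Type*} [CommRing R]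

theorem conjA_apply (a : Rˣ) (g : SL(2, R)) :
    (conjA a g : Matrix (Fin 2) (Fin 2) R) =
      !![g 0 0, (a : R) * g 0 1; ((a⁻¹ : Rˣ) : R) * g 1 0, g 1 1] := rfl

theorem conjA_one (g : SL(2, R)) : conjA 1 g = g := by
  ext i j; rw [conjA_apply]; fin_cases i <;> fin_cases j <;> simp

theorem conjA_conjA (a b : Rˣ) (g : SL(2, R)) : conjA a (conjA b g) = conjA (a * b) g := by
  ext i j; simp only [conjA_apply]
  fin_cases i <;> fin_cases j <;> simp <;> ring

end conjA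

namespace ConjEq

variable {a b : (ZMod M)ˣ} {g g' g'' h h' : SL(2, ℤ)}

theorem one_one (a : (ZMod M)ˣ) : ConjEq M a 1 1 := by simp [ConjEq]

theorem refl_one (g : SL(2, ℤ)) : ConjEq M 1 g g := (conjA_one _).symm

theorem mul (h₁ : ConjEq M a g g') (h₂ : ConjEq M a h h') : ConjEq M a (g * h) (g' * h') := by
  rw [ConjEq, map_mul, map_mul, map_mul, h₁, h₂]

theorem inv (h₁ : ConjEq M a g g') : ConjEq M a g⁻¹ g'⁻¹ := by
  rw [ConjEq, map_inv, map_inv, map_inv, h₁]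

theorem conj (h₁ : ConjEq M a g g') (h₂ : ConjEq M a h h') :
    ConjEq M a (g * h * g⁻¹) (g' * h' * g'⁻¹) := (h₁.mul h₂).mul h₁.inv

theorem symm (h₁ : ConjEq M a g g') : ConjEq M a⁻¹ g' g := by
  rw [ConjEq, h₁, conjA_conjA, inv_mul_cancel, conjA_one]

theorem trans (h₁ : ConjEq M a g g') (h₂ : ConjEq M b g' g'') : ConjEq M (b * a) g g'' := by
  rw [ConjEq, h₂, h₁, conjA_conjA]

theorem red_eq (h₁ : ConjEq M a g g') (h₂ : ConjEq M a g g'') : red M g' = red M g'' :=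
  Eq.trans h₁ (Eq.symm h₂)

theorem neg (h₁ : ConjEq M a g g') : ConjEq M a (-g) (-g') := by
  rw [conjEq_iff] at *
  obtain ⟨h00, h01, h10, h11⟩ := h₁
  simp [h00, h01, h10, h11]

end ConjEq

theorem exists_conjEq [NeZero M] (a : (ZMod M)ˣ) (g : SL(2, ℤ)) : ∃ g', ConjEq M a g g' :=
  red_surjective M _

theorem conjEq_T_zpow (a : (ZMod M)ˣ) {k m : ℤ} (h : (m : ZMod M) = a * k) :
    ConjEq M a (ModularGroup.T ^ k) (ModularGroup.T ^ m) := by
  rw [conjEq_iff]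
  simp [ModularGroup.coe_T_zpow, h]

theorem ConjEq.of_dvd {M M' : ℕ} (hd : M ∣ M') {a : (ZMod M')ˣ} {g g' : SL(2, ℤ)}
    (h : ConjEq M' a g g') :
    ConjEq M (Units.map (ZMod.castHom hd (ZMod M)).toMonoidHom a) g g' := by
  rw [conjEq_iff] at *
  obtain ⟨h00, h01, h10, h11⟩ := h
  refine ⟨?_, ?_, ?_, ?_⟩
  · simpa only [map_intCast] using congrArg (ZMod.castHom hd (ZMod M)) h00
  · simpa only [map_intCast, map_mul, Units.coe_map, RingHom.toMonoidHom_eq_coe, MonoidHom.coe_coe]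
      using congrArg (ZMod.castHom hd (ZMod M)) h01
  · rw [← map_inv]
    simpa only [map_intCast, map_mul, Units.coe_map, RingHom.toMonoidHom_eq_coe, MonoidHom.coe_coe]
      using congrArg (ZMod.castHom hd (ZMod M)) h10
  · simpa only [map_intCast] using congrArg (ZMod.castHom hd (ZMod M)) h11

/-! ## Levels -/

namespace IsLevel

variable {G G' : Subgroup SL(2, ℤ)}

theorem mem_of_red_eq (hG : IsLevel M G) {g h : SL(2, ℤ)} (e : red M g = red M h) (hg : g ∈ G) :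
    h ∈ G := by
  have := G.mul_mem hg (hG.gamma_le (inv_mul_mem_gamma e))
  rwa [mul_inv_cancel_left] at this

theorem conj_iff (hG : IsLevel M G) {a : (ZMod M)ˣ} {g g' : SL(2, ℤ)} (h : ConjEq M a g g') :
    g ∈ G ↔ g' ∈ G :=
  ⟨hG.conj_mem a g g' h, hG.conj_mem a⁻¹ g' g h.symm⟩

theorem inf (hG : IsLevel M G) (hG' : IsLevel M G') : IsLevel M (G ⊓ G') :=
  ⟨le_inf hG.gamma_le hG'.gamma_le,
    fun a g g' h hg => ⟨hG.conj_mem a g g' h hg.1, hG'.conj_mem a g g' h hg.2⟩⟩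

theorem of_dvd {M' : ℕ} (hd : M ∣ M') (hG : IsLevel M G) : IsLevel M' G where
  gamma_le := fun γ hγ => hG.gamma_le <| by
    rw [Gamma_mem] at hγ ⊢
    obtain ⟨h00, h01, h10, h11⟩ := hγ
    refine ⟨?_, ?_, ?_, ?_⟩
    · simpa only [map_intCast, map_one] using congrArg (ZMod.castHom hd (ZMod M)) h00
    · simpa only [map_intCast, map_zero] using congrArg (ZMod.castHom hd (ZMod M)) h01
    · simpa only [map_intCast, map_zero] using congrArg (ZMod.castHom hd (ZMod M)) h10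
    · simpa only [map_intCast, map_one] using congrArg (ZMod.castHom hd (ZMod M)) h11
  conj_mem := fun _ g g' h hg => hG.conj_mem _ g g' (h.of_dvd hd) hg

theorem T_zpow_mem (hG : IsLevel M G) (k : ℤ) : ModularGroup.T ^ ((M : ℤ) * k) ∈ G :=
  hG.gamma_le (by simp [Gamma_mem, ModularGroup.coe_T_zpow])

theorem conjugate_T_mem (hG : IsLevel M G) (δ : SL(2, ℤ)) :
    δ * ModularGroup.T ^ (M : ℤ) * δ⁻¹ ∈ G :=
  hG.gamma_le ((Gamma_normal M).conj_mem _ (ModularGroup_T_pow_mem_Gamma M M dvd_rfl) δ)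

end IsLevel

theorem isLevel_gamma (M : ℕ) : IsLevel M (Gamma M) :=
  ⟨le_rfl, fun a g g' h hg => by
    rw [← red_eq_one_iff] at hg ⊢
    rw [h, hg, map_one]⟩

theorem isLevel_gamma0 (M : ℕ) : IsLevel M (Gamma0 M) where
  gamma_le := fun γ hγ => Gamma0_mem.mpr (Gamma_mem.mp hγ).2.2.1
  conj_mem := fun a g g' h hg => by
    rw [Gamma0_mem] at hg ⊢
    rw [(conjEq_iff.mp h).2.2.1, hg, mul_zero]

theorem isLevel_gamma1 (M : ℕ) : IsLevel M (Gamma1 M) where
  gamma_le := fun γ hγ => by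
    obtain ⟨h00, -, h10, h11⟩ := Gamma_mem.mp hγ
    exact (Gamma1_mem M γ).mpr ⟨h00, h11, h10⟩
  conj_mem := fun a g g' h hg => by
    obtain ⟨h00, -, h10, h11⟩ := conjEq_iff.mp h
    obtain ⟨g00, g11, g10⟩ := (Gamma1_mem M g).mp hg
    exact (Gamma1_mem M g').mpr ⟨by rw [h00, g00], by rw [h11, g11], by rw [h10, g10, mul_zero]⟩

/-! ## Cyclotomic exponents -/

variable [NeZero M]

theorem cycC_spec (σ : ℂ ≃+* ℂ) {z : ℂ} (hz : z ^ M = 1) : σ z = z ^ (cycC M σ : ZMod M).val := by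
  have hz0 : z ≠ 0 := fun h => by simp [h, zero_pow (NeZero.ne M)] at hz
  have ht : Units.mk0 z hz0 ∈ rootsOfUnity M ℂ := by
    rw [mem_rootsOfUnity]; exact Units.ext (by simpa using hz)
  have := modularCyclotomicCharacter.spec ℂ (IsAlgClosed.card_rootsOfUnity_eq ℂ M) σ ht
  simpa [cycC] using this

theorem cycM_spec (s : GQ) {z : AlgebraicClosure ℚ} (hz : z ^ M = 1) :
    s z = z ^ (cycM M s : ZMod M).val := by
  have hz0 : z ≠ 0 := fun h => by simp [h, zero_pow (NeZero.ne M)] at hz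
  have ht : Units.mk0 z hz0 ∈ rootsOfUnity M (AlgebraicClosure ℚ) := by
    rw [mem_rootsOfUnity]; exact Units.ext (by simpa using hz)
  have := modularCyclotomicCharacter.spec (AlgebraicClosure ℚ)
    (IsAlgClosed.card_rootsOfUnity_eq _ M)
    (MulSemiringAction.toRingAut GQ (AlgebraicClosure ℚ) s) ht
  simpa [cycM] using this

theorem isPrimitiveRoot_zetaC (M : ℕ) [NeZero M] :
    IsPrimitiveRoot (Complex.exp (2 * Real.pi * Complex.I / M)) M :=
  Complex.isPrimitiveRoot_exp M (NeZero.ne M)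

/-- The exponent is determined by one primitive root. -/
theorem cycC_eq_of_root (σ : ℂ ≃+* ℂ) {z : ℂ} (hz : IsPrimitiveRoot z M) {a : (ZMod M)ˣ}
    (h : σ z = z ^ (a : ZMod M).val) : cycC M σ = a := by
  refine Units.ext (ZMod.val_injective M (hz.pow_inj (ZMod.val_lt _) (ZMod.val_lt _) ?_))
  rw [← cycC_spec σ hz.pow_eq_one, h]

theorem cycM_eq_of_root (s : GQ) {z : AlgebraicClosure ℚ} (hz : IsPrimitiveRoot z M)
    {a : (ZMod M)ˣ} (h : s z = z ^ (a : ZMod M).val) : cycM M s = a := by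
  refine Units.ext (ZMod.val_injective M (hz.pow_inj (ZMod.val_lt _) (ZMod.val_lt _) ?_))
  rw [← cycM_spec s hz.pow_eq_one, h]

theorem cycC_liftAut (s : GQ) : cycC M (liftAut s) = cycM M s := by
  obtain ⟨z, hz⟩ := HasEnoughRootsOfUnity.exists_primitiveRoot (AlgebraicClosure ℚ) M
  refine cycC_eq_of_root _ (hz.map_of_injective qbarToC_injective) ?_
  rw [liftAut_spec, cycM_spec s hz.pow_eq_one, map_pow]

omit [NeZero M] in
theorem pow_val_cast {K : Type*} [Field K] {M' : ℕ} [NeZero M'] (hd : M ∣ M') {z : K}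
    (hz : z ^ M = 1) (a : ZMod M') : z ^ a.val = z ^ (ZMod.castHom hd (ZMod M) a).val := by
  rw [ZMod.castHom_apply, ZMod.cast_eq_val, ZMod.val_natCast, ← pow_eq_pow_mod a.val hz]

theorem cycC_castHom {M' : ℕ} [NeZero M'] (hd : M ∣ M') (σ : ℂ ≃+* ℂ) :
    Units.map (ZMod.castHom hd (ZMod M)).toMonoidHom (cycC M' σ) = cycC M σ := by
  symm
  refine cycC_eq_of_root σ (isPrimitiveRoot_zetaC M) ?_
  have h1 := (isPrimitiveRoot_zetaC M).pow_eq_one
  rw [cycC_spec σ (show Complex.exp (2 * Real.pi * Complex.I / M) ^ M' = 1 by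
    obtain ⟨k, rfl⟩ := hd; rw [pow_mul, h1, one_pow]), pow_val_cast hd h1]
  rfl

theorem cycM_castHom {M' : ℕ} [NeZero M'] (hd : M ∣ M') (s : GQ) :
    Units.map (ZMod.castHom hd (ZMod M)).toMonoidHom (cycM M' s) = cycM M s := by
  rw [← cycC_liftAut, ← cycC_liftAut, cycC_castHom]

end Fermat.Agent.GalRep.Level
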