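/-
The ring of modular functions of level `Γ(M)` over `ℂ[j]`: conjugates, orbit polynomials,
interpolation.
-/
import Fermat.Agent.GalRep.Level.SL2
import Fermat.Agent.GalRep.FieldLemma

set_option autoImplicit false

noncomputable section

namespace Fermat.Agent.GalRep.Level

open UpperHalfPlane CongruenceSubgroup Polynomial
open Fermat.Agent.Period (jFun)
open scoped MatrixGroups Manifold

variable (M : ℕ)

/-- Modular functions of level `Γ(M)`. -/
abbrev MF : Subalgebra ℂ (ℍ → ℂ) := modFuns (Gamma M)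

variable {M}

theorem shift_one (φ : MF M) : shift M 1 φ = φ := by ext τ; simp

theorem shift_injective (g : SL(2, ℤ)) : Function.Injective (shift M g) := fun φ ψ h => by
  have := congrArg (shift M g⁻¹) h
  rwa [shift_shift, shift_shift, mul_inv_cancel, shift_one, shift_one] at this

theorem shift_of_mem_gamma {g : SL(2, ℤ)} (hg : g ∈ Gamma M) (φ : MF M) : shift M g φ = φ :=
  Subtype.ext (funext fun τ => φ.2.invariant g hg τ)

theorem shift_eq_of_red_eq {g h : SL(2, ℤ)} (e : red M g = red M h) (φ : MF M) :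
    shift M g φ = shift M h φ := by
  conv_rhs => rw [← inv_mul_cancel_right h g]
  rw [show h * g⁻¹ * g = g * (g⁻¹ * h) * (g⁻¹ * g) by group, inv_mul_cancel, mul_one,
    ← shift_shift, shift_of_mem_gamma (inv_mul_mem_gamma e)]

theorem shift_neg (g : SL(2, ℤ)) (φ : MF M) : shift M (-g) φ = shift M g φ := by
  ext τ; rw [shift_apply, shift_apply, ModularGroup.SL_neg_smul]

/-- `r` is fixed only by `±Γ(M)`. -/
def Gen (r : MF M) : Prop :=
  ∀ g : SL(2, ℤ), shift M g r = r → red M g = 1 ∨ red M (-g) = 1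

theorem Gen.shift_eq {r : MF M} (hr : Gen r) {g : SL(2, ℤ)} (h : shift M g r = r) (φ : MF M) :
    shift M g φ = φ := by
  rcases hr g h with h1 | h1
  · exact shift_of_mem_gamma (red_eq_one_iff.mp h1) φ
  · rw [← shift_neg]; exact shift_of_mem_gamma (red_eq_one_iff.mp h1) φ

theorem Gen.shift_congr {r : MF M} (hr : Gen r) {g h : SL(2, ℤ)}
    (e : shift M g r = shift M h r) (φ : MF M) : shift M g φ = shift M h φ := by
  have h1 : shift M (g * h⁻¹) r = r := by
    rw [← shift_shift, e, shift_shift, mul_inv_cancel, shift_one]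
  have h2 := congrArg (shift M h) (hr.shift_eq h1 φ)
  rwa [shift_shift, inv_mul_cancel_right] at h2

variable [NeZero M]

attribute [local instance] Classical.decEq

local instance instFintypeSLModLevel : Fintype SL(2, ZMod M) := Fintype.ofFinite _

/-- The conjugate attached to a class modulo `M`. -/
def shiftX (x : SL(2, ZMod M)) : MF M →ₐ[ℂ] MF M := shift M (lift x)

theorem shiftX_red (g : SL(2, ℤ)) (φ : MF M) : shiftX (red M g) φ = shift M g φ :=
  shift_eq_of_red_eq (red_lift _) φ

theorem shift_shiftX (g : SL(2, ℤ)) (x : SL(2, ZMod M)) (φ : MF M) :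
    shift M g (shiftX x φ) = shiftX (x * red M g) φ := by
  rw [shiftX, shift_shift, ← shiftX_red, map_mul, red_lift]

theorem map_shift_orbitM (φ : MF M) (g : SL(2, ℤ)) :
    (∏ x : SL(2, ZMod M), (X - C (shiftX x φ))).map (shift M g).toRingHom =
      ∏ x : SL(2, ZMod M), (X - C (shiftX x φ)) := by
  rw [Polynomial.map_prod]
  exact Fintype.prod_equiv (Equiv.mulRight (red M g)) _ _ fun x => by simp [shift_shiftX]

theorem exists_charP (φ : MF M) : ∃ P : ℂ[X][X],
    P.map (evJ (Gamma M)).toRingHom = ∏ x : SL(2, ZMod M), (X - C (shiftX x φ)) :=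
  exists_map_evJ_eq (map_shift_orbitM φ)

/-- The monic polynomial whose roots are all conjugates of `φ`. -/
def charP (φ : MF M) : ℂ[X][X] := (exists_charP φ).choose

theorem map_charP (φ : MF M) :
    (charP φ).map (evJ (Gamma M)).toRingHom = ∏ x : SL(2, ZMod M), (X - C (shiftX x φ)) :=
  (exists_charP φ).choose_spec

theorem charP_monic (φ : MF M) : (charP φ).Monic :=
  Polynomial.monic_of_injective (f := (evJ (Gamma M)).toRingHom) (evJ_injective _)
    (by rw [map_charP]; exact Polynomial.monic_prod_of_monic _ _ fun x _ => monic_X_sub_C _)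

theorem natDegree_charP (φ : MF M) : (charP φ).natDegree = Nat.card SL(2, ZMod M) := by
  rw [← Polynomial.natDegree_map_eq_of_injective (f := (evJ (Gamma M)).toRingHom) (evJ_injective _),
    map_charP, Polynomial.natDegree_prod _ _ fun x _ => X_sub_C_ne_zero _]
  simp [Nat.card_eq_fintype_card]

/-- The distinct conjugates. -/
def orbitF (r : MF M) : Finset (MF M) := Finset.univ.image fun x => shiftX x r

theorem mem_orbitF {r y : MF M} : y ∈ orbitF r ↔ ∃ g, shift M g r = y := by
  simp only [orbitF, Finset.mem_image, Finset.mem_univ, true_and]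
  exact ⟨fun ⟨x, hx⟩ => ⟨_, hx⟩, fun ⟨g, hg⟩ => ⟨red M g, by rw [shiftX_red, hg]⟩⟩

theorem self_mem_orbitF (r : MF M) : r ∈ orbitF r := mem_orbitF.mpr ⟨1, shift_one r⟩

theorem image_shift_orbitF (r : MF M) (g : SL(2, ℤ)) :
    (orbitF r).image (shift M g) = orbitF r := by
  ext y
  simp only [Finset.mem_image, mem_orbitF]
  constructor
  · rintro ⟨z, ⟨h, rfl⟩, rfl⟩
    exact ⟨h * g, by rw [shift_shift]⟩
  · rintro ⟨h, rfl⟩
    exact ⟨_, ⟨h * g⁻¹, rfl⟩, by rw [shift_shift, inv_mul_cancel_right]⟩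

theorem map_shift_minP (r : MF M) (g : SL(2, ℤ)) :
    (∏ y ∈ orbitF r, (X - C y)).map (shift M g).toRingHom = ∏ y ∈ orbitF r, (X - C y) := by
  conv_rhs => rw [← image_shift_orbitF r g, Finset.prod_image fun a _ b _ h => shift_injective g h]
  rw [Polynomial.map_prod]
  exact Finset.prod_congr rfl fun y _ => by simp

theorem exists_minP (r : MF M) :
    ∃ P : ℂ[X][X], P.map (evJ (Gamma M)).toRingHom = ∏ y ∈ orbitF r, (X - C y) :=
  exists_map_evJ_eq (map_shift_minP r)

/-- The monic polynomial whose roots are the distinct conjugates of `r`. -/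
def minP (r : MF M) : ℂ[X][X] := (exists_minP r).choose

theorem map_minP (r : MF M) :
    (minP r).map (evJ (Gamma M)).toRingHom = ∏ y ∈ orbitF r, (X - C y) :=
  (exists_minP r).choose_spec

theorem shift_biEval (g : SL(2, ℤ)) (r : MF M) (P : ℂ[X][X]) :
    shift M g (biEval (jMF (Gamma M)) r P) = biEval (jMF (Gamma M)) (shift M g r) P := by
  rw [map_biEval, shift_jMF]

theorem biEval_minP_deriv (r : MF M) :
    biEval (jMF (Gamma M)) r (derivative (minP r)) = ∏ y ∈ (orbitF r).erase r, (r - y) := by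
  rw [biEval_evJ, ← Polynomial.derivative_map, map_minP]
  have h := Lagrange.eval_nodal_derivative_eval_node_eq (v := id) (self_mem_orbitF r)
  rw [Lagrange.eval_nodal] at h
  simpa only [Lagrange.nodal_eq, id] using h

theorem biEval_minP_deriv_ne_zero (r : MF M) :
    biEval (jMF (Gamma M)) r (derivative (minP r)) ≠ 0 := by
  rw [biEval_minP_deriv, Finset.prod_ne_zero_iff]
  exact fun y hy => sub_ne_zero.mpr (Finset.mem_erase.mp hy).1.symm

/-- Interpolation. -/
theorem exists_interpM {r : MF M} (hr : Gen r) (φ : MF M) : ∃ P : ℂ[X][X],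
    φ * biEval (jMF (Gamma M)) r (derivative (minP r)) = biEval (jMF (Gamma M)) r P := by
  choose h hh using fun y : orbitF r => mem_orbitF.mp y.2
  let φv : MF M → MF M := fun y => if hy : y ∈ orbitF r then shift M (h ⟨y, hy⟩) φ else 0
  have hφv : ∀ g, φv (shift M g r) = shift M g φ := fun g => by
    have hy : shift M g r ∈ orbitF r := mem_orbitF.mpr ⟨g, rfl⟩
    simp only [φv, dif_pos hy]
    exact hr.shift_congr (hh ⟨_, hy⟩) φ
  set p : (MF M)[X] := ∑ y ∈ orbitF r, C (φv y) * ∏ z ∈ (orbitF r).erase y, (X - C z) with hp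
  have hinv : ∀ g, p.map (shift M g).toRingHom = p := by
    intro g
    conv_rhs =>
      rw [hp, ← image_shift_orbitF r g, Finset.sum_image fun a _ b _ e => shift_injective g e]
    rw [hp, Polynomial.map_sum]
    refine Finset.sum_congr rfl fun y hy => ?_
    obtain ⟨k, rfl⟩ := mem_orbitF.mp hy
    rw [← Finset.image_erase (shift_injective g),
      Finset.prod_image fun a _ b _ e => shift_injective g e, Polynomial.map_mul,
      Polynomial.map_prod, Polynomial.map_C, shift_shift, hφv, hφv]
    simp [shift_shift]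
  obtain ⟨P, hP⟩ := exists_map_evJ_eq hinv
  refine ⟨P, ?_⟩
  rw [biEval_minP_deriv, biEval_evJ, hP, hp, Polynomial.eval_finset_sum,
    Finset.sum_eq_single r]
  · have := hφv 1
    rw [shift_one, shift_one] at this
    rw [eval_mul, eval_C, eval_prod, this]
    simp
  · intro y _ hy
    rw [eval_mul, eval_prod,
      Finset.prod_eq_zero (i := r) (Finset.mem_erase.mpr ⟨Ne.symm hy, self_mem_orbitF r⟩) (by simp),
      mul_zero]
  · exact fun h' => absurd (self_mem_orbitF r) h'

section Target

variable {K : Type*} [CommRing K] [IsDomain K] [Algebra ℂ K]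

theorem biEval_map_of (ψ : MF M →ₐ[ℂ] K) (ρ : K) (P : ℂ[X][X]) :
    biEval (ψ (jMF (Gamma M))) ρ P =
      ((P.map (evJ (Gamma M)).toRingHom).map (ψ : MF M →+* K)).eval ρ := by
  rw [biEval_apply, Polynomial.map_map]
  congr 2
  ext1
  · ext c; simp
  · simp

theorem biEval_minP_eq_zero_iff (ψ : MF M →ₐ[ℂ] K) (r : MF M) (ρ : K) :
    biEval (ψ (jMF (Gamma M))) ρ (minP r) = 0 ↔ ∃ g, ρ = ψ (shift M g r) := by
  rw [biEval_map_of, map_minP, Polynomial.map_prod, eval_prod, Finset.prod_eq_zero_iff]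
  constructor
  · rintro ⟨y, hy, h⟩
    obtain ⟨g, rfl⟩ := mem_orbitF.mp hy
    exact ⟨g, sub_eq_zero.mp (by simpa using h)⟩
  · rintro ⟨g, rfl⟩
    exact ⟨_, mem_orbitF.mpr ⟨g, rfl⟩, by simp⟩

theorem biEval_charP_eq_zero_iff (ψ : MF M →ₐ[ℂ] K) (φ : MF M) (ρ : K) :
    biEval (ψ (jMF (Gamma M))) ρ (charP φ) = 0 ↔ ∃ g, ρ = ψ (shift M g φ) := by
  rw [biEval_map_of, map_charP, Polynomial.map_prod, eval_prod, Finset.prod_eq_zero_iff]
  constructor
  · rintro ⟨x, -, h⟩
    exact ⟨lift x, sub_eq_zero.mp (by simpa [shiftX] using h)⟩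
  · rintro ⟨g, rfl⟩
    exact ⟨red M g, Finset.mem_univ _, by simp [shiftX_red]⟩

end Target

end Fermat.Agent.GalRep.Level
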