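/-
Generic facts on series at infinity: quotients, monodromy of roots.
-/
import Fermat.Agent.GalRep.Criterion

set_option autoImplicit false

noncomputable section

namespace Fermat.Agent.GalRep.Level

open UpperHalfPlane Filter Topology
open scoped MatrixGroups Manifold

variable {w : ℕ}

theorem HasQSeries.ne_zero_fun {F : ℍ → ℂ} {f : LaurentSeries ℂ} (hw : 0 < w)
    (hF : HasQSeries w F f) (hf : f ≠ 0) : F ≠ 0 :=
  fun h => hf (Fermat.Agent.GalRep.HasQSeries.eq_zero hw (h ▸ hF))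

/-- A holomorphic periodic function which is a quotient of two series is given by their
quotient. -/
theorem hasQSeries_div (hw : 0 < w) {F G : ℍ → ℂ} {f g : LaurentSeries ℂ}
    (hF : MDifferentiable 𝓘(ℂ) 𝓘(ℂ) F) (hper : ∀ τ : ℍ, F ((w : ℝ) +ᵥ τ) = F τ)
    (hFG : HasQSeries w (F * G) f) (hG : HasQSeries w G g) (hg : g ≠ 0) :
    HasQSeries w F (f / g) := by
  have hlim := (hFG.tendsto_leading hw).div (hG.tendsto_leading hw)
    (fun h => hg (HahnSeries.coeff_order_eq_zero.mp h))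
  set d : ℤ := f.order - g.order
  have hgr : ∀ᶠ τ in atImInfty, ‖F τ‖ ≤
      (‖f.coeff f.order / g.coeff g.order‖ + 1) * ‖qq w τ‖ ^ (-(d.natAbs : ℤ)) := by
    filter_upwards [hlim.norm.eventually (eventually_le_nhds (lt_add_one _)),
      hG.eventually_ne_zero hw hg] with τ hτ hG0
    have hq := qq_ne_zero w τ
    have e : F τ = (F * G) τ / qq w τ ^ f.order / (G τ / qq w τ ^ g.order) * qq w τ ^ d := by
      simp only [Pi.mul_apply, d, zpow_sub₀ hq]
      field_simp
    rw [e, norm_mul, norm_zpow]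
    refine mul_le_mul hτ ?_ (zpow_nonneg (norm_nonneg _) _) (by positivity)
    exact zpow_le_zpow_right_of_le_one₀ (norm_pos_iff.mpr hq) (norm_qq_lt_one w hw τ).le (by omega)
  obtain ⟨s, hs, -⟩ := exists_hasQSeries hw hF hper hgr
  rwa [(eq_div_iff hg).mpr ((hs.mul hG).unique hw hFG)] at *

/-- An `n`-th root of a periodic function picks up `ζ ^ d` under translation by `k`, where the
series of the function has order `n d`. -/
theorem root_vadd_eq (hw : 0 < w) {n : ℕ} (hn : 0 < n) {H : ℍ → ℂ} {f : LaurentSeries ℂ}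
    (hH : MDifferentiable 𝓘(ℂ) 𝓘(ℂ) H) (hH0 : H ≠ 0) (hf : HasQSeries w (H ^ n) f)
    (hf0 : f ≠ 0) {d : ℤ} (hd : f.order = n * d) (k : ℤ)
    (hper : ∀ τ : ℍ, H ((k : ℝ) +ᵥ τ) ^ n = H τ ^ n) (τ : ℍ) :
    H ((k : ℝ) +ᵥ τ) = Complex.exp (2 * Real.pi * Complex.I * k / w) ^ d * H τ := by
  set ζ : ℂ := Complex.exp (2 * Real.pi * Complex.I * k / w) with hζ
  have hζ0 : ζ ≠ 0 := Complex.exp_ne_zero _
  set L := f.coeff f.order
  have hL0 : L ≠ 0 := fun h => hf0 (HahnSeries.coeff_order_eq_zero.mp h)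
  set K : ℍ → ℂ := fun τ => H τ / qq w τ ^ d with hK
  have hlim : Tendsto (fun τ => K τ ^ n) atImInfty (𝓝 L) := by
    refine (hf.tendsto_leading hw).congr fun τ => ?_
    rw [hK, div_pow, hd, mul_comm (n : ℤ), zpow_mul, zpow_natCast]
    rfl
  obtain ⟨ω, hωn, hω⟩ := exists_const_of_pow_eq hn
    (F := fun τ => H ((k : ℝ) +ᵥ τ)) (by
      simpa only [modular_T_zpow_smul] using
        mdifferentiable_comp_smul hH (ModularGroup.T ^ k))
    hH hH0 hper
  have hqq : ∀ τ : ℍ, qq w ((k : ℝ) +ᵥ τ) = ζ * qq w τ := fun τ => by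
    rw [qq, qq, hζ, ← Complex.exp_add, coe_vadd]
    congr 1; push_cast; ring
  set η : ℂ := ω / ζ ^ d with hη
  have hKper : ∀ τ, K ((k : ℝ) +ᵥ τ) = η * K τ := fun τ => by
    simp only [hK, hω τ, hqq, mul_zpow, hη]
    rw [div_mul_div_comm]
  obtain ⟨A, hA⟩ := (atImInfty_mem _).mp (hlim.eventually
    (((continuous_id.div_const L).continuousAt (x := L)).eventually_mem
      (Complex.isOpen_slitPlane.mem_nhds (by simp [div_self hL0]))))
  let U : Set ℂ := {z | max A 0 < z.im}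
  have hU : IsPreconnected U := (convex_halfSpace_im_gt _).isPreconnected
  let Kc : ℂ → ℂ := K ∘ ofComplex
  let ρ : ℂ → ℂ := fun z => Kc z / Complex.exp (Complex.log (Kc z ^ n / L) / n)
  have hslit : ∀ z ∈ U, Kc z ^ n / L ∈ Complex.slitPlane := fun z hz => by
    have hz0 : (0 : ℝ) < z.im := lt_of_le_of_lt (le_max_right _ _) hz
    simp only [Kc, Function.comp, ofComplex_apply_of_im_pos hz0]
    exact hA ⟨z, hz0⟩ (le_of_lt (lt_of_le_of_lt (le_max_left _ _) hz))
  have hρn : ∀ z ∈ U, ρ z ^ n = L := fun z hz => by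
    have h1 := Complex.slitPlane_ne_zero (hslit z hz)
    rw [div_pow, ← Complex.exp_nat_mul, mul_div_cancel₀ _ (Nat.cast_ne_zero.mpr hn.ne'),
      Complex.exp_log h1]
    have h2 : Kc z ^ n ≠ 0 := fun h => h1 (by rw [h, zero_div])
    field_simp
  have hρc : ContinuousOn ρ U := by
    have hKc : ContinuousOn Kc U := by
      have h1 : DifferentiableOn ℂ (fun z => (H ∘ ofComplex) z /
          Complex.exp (2 * Real.pi * Complex.I * z / w) ^ d) upperHalfPlaneSet := by
        refine (UpperHalfPlane.mdifferentiable_iff.mp hH).div ?_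
          (fun z _ => zpow_ne_zero _ (Complex.exp_ne_zero _))
        exact DifferentiableOn.zpow (by fun_prop) (Or.inl fun z _ => Complex.exp_ne_zero _)
      refine (h1.continuousOn.mono fun z hz =>
        (lt_of_le_of_lt (le_max_right A 0) hz : (0 : ℝ) < z.im)).congr fun z hz => ?_
      have hz0 : (0 : ℝ) < z.im := lt_of_le_of_lt (le_max_right _ _) hz
      simp [Kc, hK, qq, ofComplex_apply_of_im_pos hz0]
    exact hKc.div ((((hKc.pow n).div_const L).clog hslit).div_const _).cexp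
      fun z _ => Complex.exp_ne_zero _
  have hfin : {z : ℂ | z ^ n = L}.Finite :=
    ((Polynomial.nthRoots n L).toFinset.finite_toSet).subset fun z hz => by
      simpa [Polynomial.mem_nthRoots hn] using hz
  set τ₀ : ℍ := ⟨Complex.I * ((max A 0 + 1 : ℝ) : ℂ), by simp; positivity⟩ with hτ₀
  have hτ₀U : (τ₀ : ℂ) ∈ U := by show max A 0 < _; simp [hτ₀]
  have hτ₁U : (((k : ℝ) +ᵥ τ₀ : ℍ) : ℂ) ∈ U := by show max A 0 < _; simp [hτ₀]
  have h1 := hU.constant_of_mapsTo hfin.isDiscrete hρc hρn hτ₁U hτ₀U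
  have hK0 : Kc τ₀ ≠ 0 := fun h => Complex.slitPlane_ne_zero (hslit _ hτ₀U)
    (by rw [h, zero_pow hn.ne', zero_div])
  have h2 : Kc (((k : ℝ) +ᵥ τ₀ : ℍ) : ℂ) = η * Kc τ₀ := by
    simp only [Kc, Function.comp, ofComplex_apply]
    exact hKper τ₀
  have hη1 : η ^ n = 1 := by
    have hq0 := qq_ne_zero w τ₀
    have h3 : Kc (((k : ℝ) +ᵥ τ₀ : ℍ) : ℂ) ^ n = Kc τ₀ ^ n := by
      simp only [Kc, Function.comp, ofComplex_apply, hK, div_pow, hper, hqq, mul_zpow]
      rw [mul_pow, show (ζ ^ d) ^ n = 1 by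
        have he := (((hf.comp_vadd hw k (Units.mk0 ζ hζ0) (by simp [hζ])).congr
          (.of_forall fun τ => hper τ)).unique hw hf)
        have := congrArg Units.val (zpow_eq_one_of_twist hf0 he)
        rw [hd, mul_comm, zpow_mul, zpow_natCast] at this
        simpa using this, one_mul]
    rw [h2, mul_pow] at h3
    exact mul_eq_right₀ (pow_ne_zero _ hK0) |>.mp h3
  simp only [ρ] at h1
  rw [h2, mul_pow, hη1, one_mul, mul_div_assoc] at h1
  have h4 : η = 1 := mul_eq_right₀ (div_ne_zero hK0 (Complex.exp_ne_zero _)) |>.mp h1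
  rw [hη, div_eq_one_iff_eq (zpow_ne_zero _ hζ0)] at h4
  rw [hω τ, h4]

end Fermat.Agent.GalRep.Level
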