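/-
Fricke functions of level `M` with rational series and the conjugation of their series.
-/
import Fermat.Agent.GalRep.Level.FieldM
import Fermat.Agent.GalRep.Level.Series
import Fermat.Agent.GalRep.Model.WpDiff
import Fermat.Agent.GalRep.Eisenstein
import Fermat.Agent.GalRep.KummerAut

set_option autoImplicit false

noncomputable section

namespace Fermat.Agent.GalRep.Level

open UpperHalfPlane CongruenceSubgroup
open Fermat.Agent.GalRep.Model (wpDiff rowMul NZ PM pSer zetaC)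
open scoped MatrixGroups Manifold ModularForm

variable {M : ℕ}

/-! ## Conjugate functions -/

section ConjF

variable [NeZero M]

/-- `φ'` is the conjugate of `φ`: the series of `φ' ∘ g^a` is `σ` applied to that of `φ ∘ g`. -/
def ConjF (σ : ℂ ≃+* ℂ) (φ φ' : MF M) : Prop :=
  ∀ g g', ConjEq M (cycC M σ) g g' →
    serAlg M (shift M g' φ') = lmap σ.toRingHom (serAlg M (shift M g φ))

theorem exists_conjEq_symm (a : (ZMod M)ˣ) (g' : SL(2, ℤ)) : ∃ g, ConjEq M a g g' := by
  obtain ⟨g, hg⟩ := exists_conjEq a⁻¹ g'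
  have := hg.symm
  rw [inv_inv] at this
  exact ⟨g, this⟩

namespace ConjF

variable {σ : ℂ ≃+* ℂ} {φ φ' ψ ψ' : MF M}

theorem add (h : ConjF σ φ φ') (h' : ConjF σ ψ ψ') : ConjF σ (φ + ψ) (φ' + ψ') :=
  fun g g' hg => by simp only [map_add, h g g' hg, h' g g' hg]

theorem mul (h : ConjF σ φ φ') (h' : ConjF σ ψ ψ') : ConjF σ (φ * ψ) (φ' * ψ') :=
  fun g g' hg => by simp only [map_mul, h g g' hg, h' g g' hg]

theorem zero : ConjF σ (0 : MF M) 0 := fun g g' _ => by simp

theorem algebraMap (c : ℂ) :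
    ConjF σ (algebraMap ℂ (MF M) c) (algebraMap ℂ (MF M) (σ c)) := fun g g' _ => by
  rw [AlgHom.commutes, AlgHom.commutes, AlgHom.commutes, AlgHom.commutes, lmap_algebraMap]

theorem unique (h : ConjF σ φ φ') (h' : ConjF σ φ ψ') : φ' = ψ' := by
  obtain ⟨g, hg⟩ := exists_conjEq_symm (cycC M σ) (1 : SL(2, ℤ))
  have e := (h g 1 hg).trans (h' g 1 hg).symm
  rwa [shift_one, shift_one, (serAlg_injective M).eq_iff] at e

theorem eq_zero_iff (h : ConjF σ φ φ') : φ' = 0 ↔ φ = 0 := by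
  have e := h 1 1 (ConjEq.one_one _)
  rw [shift_one, shift_one] at e
  rw [← (map_eq_zero_iff _ (serAlg_injective M)), e,
    map_eq_zero_iff _ (lmap_injective (φ := σ.toRingHom) σ.injective),
    map_eq_zero_iff _ (serAlg_injective M)]

end ConjF

end ConjF

/-! ## A weight `-2` form with rational series -/

/-- `E₄ E₆ / (1728 Δ)`. -/
def wtTwo (τ : ℍ) : ℂ :=
  ModularForm.E₄ τ * ModularForm.E₆ τ / (1728 * ModularForm.discriminant τ)

theorem wtTwo_smul (g : SL(2, ℤ)) (τ : ℍ) :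
    wtTwo (g • τ) * ((g 1 0 : ℂ) * τ + g 1 1) ^ 2 = wtTwo τ := by
  have h4 := Period.levelOne_smul ModularForm.E₄ g τ
  have h6 := Period.levelOne_smul ModularForm.E₆ g τ
  have hd : denom g τ = (g 1 0 : ℂ) * τ + g 1 1 := by simp [denom]
  have hne : ((g 1 0 : ℂ) * τ + g 1 1) ≠ 0 := hd ▸ denom_ne_zero g τ
  have hD := ModularForm.discriminant_ne_zero τ
  rw [wtTwo, wtTwo, discriminant_smul, h4, h6, hd]
  field_simp

theorem mdifferentiable_wtTwo : MDifferentiable 𝓘(ℂ) 𝓘(ℂ) wtTwo := by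
  rw [UpperHalfPlane.mdifferentiable_iff]
  have h := ((UpperHalfPlane.mdifferentiable_iff.mp (ModularFormClass.holo ModularForm.E₄)).mul
    (UpperHalfPlane.mdifferentiable_iff.mp (ModularFormClass.holo ModularForm.E₆))).div
    ((differentiableOn_const (1728 : ℂ)).mul (UpperHalfPlane.mdifferentiable_iff.mp
      (ModularFormClass.holo (ModularFormClass.modularForm CuspForm.discriminant))))
    (fun z hz => mul_ne_zero (by norm_num) (ModularForm.discriminant_ne_zero _))
  exact h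

theorem wtTwo_ne_zero : wtTwo ≠ 0 := by
  intro h
  have h0 : Hecke.eis4 * Hecke.eis6 = 0 := Subtype.ext (funext fun τ => by
    have := congrFun h τ
    simp only [wtTwo, Pi.zero_apply, div_eq_zero_iff] at this
    exact this.resolve_right (mul_ne_zero (by norm_num) (ModularForm.discriminant_ne_zero τ)))
  have h1 := congrArg PowerSeries.constantCoeff (congrArg Hecke.qExp h0)
  rw [map_mul, map_mul, map_zero, map_zero, ← PowerSeries.coeff_zero_eq_constantCoeff,
    Hecke.qExp_apply, Hecke.qExp_apply, Hecke.eis4, Hecke.eis6, Hecke.toQ_coe, Hecke.toQ_coe,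
    ModularForm.E₄, ModularForm.E₆, EisensteinSeries.E_qExpansion_coeff_zero _ ⟨2, rfl⟩,
    EisensteinSeries.E_qExpansion_coeff_zero _ ⟨3, rfl⟩, mul_one] at h1
  exact one_ne_zero h1

theorem exists_series_wtTwo : ∃ s : LaurentSeries ℂ, HasQSeries 1 wtTwo s ∧
    ∀ σ : ℂ ≃+* ℂ, lmap σ.toRingHom s = s := by
  set f := HahnSeries.ofPowerSeries ℤ ℂ (Hecke.qExp (Hecke.eis4 * Hecke.eis6)) with hf
  set g := HahnSeries.ofPowerSeries ℤ ℂ (Hecke.qExp ((1728 : ℂ) • Hecke.delta)) with hg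
  have hg0 : g ≠ 0 := by
    rw [hg, ne_eq, map_eq_zero_iff _ HahnSeries.ofPowerSeries_injective,
      map_eq_zero_iff _ Hecke.qExp_injective, smul_eq_zero, not_or]
    exact ⟨by norm_num, fun h => ModularForm.discriminant_ne_zero UpperHalfPlane.I
      (congrFun (congrArg Subtype.val h) UpperHalfPlane.I)⟩
  refine ⟨f / g, hasQSeries_div one_pos mdifferentiable_wtTwo (fun τ => ?_) ?_ (hasQSeries_qExp _)
    hg0, fun σ => ?_⟩
  · have := wtTwo_smul (ModularGroup.T ^ (1 : ℤ)) τ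
    rw [modular_T_zpow_smul] at this
    simpa [ModularGroup.coe_T] using this
  · refine (hasQSeries_qExp (Hecke.eis4 * Hecke.eis6)).congr (.of_forall fun τ => ?_)
    show ModularForm.E₄ τ * ModularForm.E₆ τ = wtTwo τ * (1728 * ModularForm.discriminant τ)
    have hD := ModularForm.discriminant_ne_zero τ
    rw [wtTwo]; field_simp
  · rw [map_div₀, hf, hg, lmap_ofPowerSeries_of_int σ Hecke.scaled_delta_int,
      lmap_ofPowerSeries_of_int σ (by
        rw [map_mul]; exact Hecke.intSeries.mul_mem Hecke.eis4_int Hecke.eis6_int)]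

/-! ## Residues of vectors -/

/-- Residues of a row vector. -/
def resV (M : ℕ) (u : ℤ × ℤ) : ZMod M × ZMod M := (u.1, u.2)

theorem resV_eq_zero {u : ℤ × ℤ} : resV M u = 0 ↔ ¬ NZ M u := by
  simp [resV, NZ, Prod.ext_iff, ZMod.intCast_zmod_eq_zero_iff_dvd]

theorem nz_iff {u : ℤ × ℤ} : NZ M u ↔ resV M u ≠ 0 := by rw [ne_eq, resV_eq_zero, not_not]

theorem pm_of_res {u t : ℤ × ℤ} (h : resV M u = resV M t) : PM M u t := by
  simp only [resV, Prod.ext_iff] at h
  exact Or.inl ⟨(ZMod.intCast_eq_intCast_iff_dvd_sub _ _ _).mp h.1.symm,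
    (ZMod.intCast_eq_intCast_iff_dvd_sub _ _ _).mp h.2.symm⟩

theorem pm_refl (u : ℤ × ℤ) : PM M u u := pm_of_res rfl

theorem resV_rowMul (u : ℤ × ℤ) (g : SL(2, ℤ)) :
    resV M (rowMul u g) = ((resV M u).1 * red M g 0 0 + (resV M u).2 * red M g 1 0,
      (resV M u).1 * red M g 0 1 + (resV M u).2 * red M g 1 1) := by
  simp [resV, rowMul]

theorem resV_rowMul_congr {u t : ℤ × ℤ} (h : resV M u = resV M t) (g : SL(2, ℤ)) :
    resV M (rowMul u g) = resV M (rowMul t g) := by rw [resV_rowMul, resV_rowMul, h]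

variable [NeZero M]

/-- A lift of a residue vector. -/
def liftV (v : ZMod M × ZMod M) : ℤ × ℤ := ((v.1.val : ℤ), (v.2.val : ℤ))

@[simp] theorem resV_liftV (v : ZMod M × ZMod M) : resV M (liftV v) = v := by
  simp [resV, liftV]

theorem nz_liftV {v : ZMod M × ZMod M} (h : v ≠ 0) : NZ M (liftV v) := by
  rwa [nz_iff, resV_liftV]

omit [NeZero M] in
theorem nz_rowMul {u : ℤ × ℤ} (hu : NZ M u) (g : SL(2, ℤ)) : NZ M (rowMul u g) := by
  rw [nz_iff] at hu ⊢
  intro h
  refine hu ?_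
  rw [show u = rowMul (rowMul u g) g⁻¹ by
    rw [Model.rowMul_rowMul, mul_inv_cancel, Model.rowMul_one], resV_rowMul, h]
  simp

/-! ## The Fricke functions -/

attribute [local instance] Classical.decEq

/-- Nonzero residue vectors. -/
def nzV (M : ℕ) [NeZero M] : Finset (ZMod M × ZMod M) := Finset.univ.erase 0

/-- `Σ_v (℘_u - ℘_v)`. -/
def wSum (u : ℤ × ℤ) (τ : ℍ) : ℂ := ∑ v ∈ nzV M, wpDiff M u (liftV v) τ

theorem wSum_smul (u : ℤ × ℤ) (g : SL(2, ℤ)) (τ : ℍ) :
    wSum (M := M) u (g • τ) =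
      ((g 1 0 : ℂ) * τ + g 1 1) ^ 2 * wSum (M := M) (rowMul u g) τ := by
  simp only [wSum, Model.wpDiff_smul, ← Finset.mul_sum]
  congr 1
  have key : ∀ (h k : SL(2, ℤ)), h * k = 1 → ∀ v : ZMod M × ZMod M,
      resV M (rowMul (liftV (resV M (rowMul (liftV v) h))) k) = v := fun h k hk v => by
    rw [resV_rowMul_congr (t := rowMul (liftV v) h) (resV_liftV _) k, Model.rowMul_rowMul, hk,
      Model.rowMul_one, resV_liftV]
  have mem : ∀ (h : SL(2, ℤ)) (v : ZMod M × ZMod M), v ∈ nzV M →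
      resV M (rowMul (liftV v) h) ∈ nzV M := fun h v hv => by
    simp only [nzV, Finset.mem_erase, Finset.mem_univ, and_true] at hv ⊢
    exact nz_iff.mp (nz_rowMul (nz_liftV hv) h)
  refine Finset.sum_bij' (fun v _ => resV M (rowMul (liftV v) g))
    (fun v _ => resV M (rowMul (liftV v) g⁻¹)) (mem g) (mem g⁻¹)
    (fun v _ => key g g⁻¹ (mul_inv_cancel g) v) (fun v _ => key g⁻¹ g (inv_mul_cancel g) v) ?_
  intro v _
  exact congrFun (Model.wpDiff_congr (pm_refl _) (pm_of_res (resV_liftV _).symm)) τ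

theorem wSum_congr {u t : ℤ × ℤ} (h : PM M u t) : wSum (M := M) u = wSum (M := M) t := by
  funext τ
  exact Finset.sum_congr rfl fun v _ => congrFun (Model.wpDiff_congr h (pm_refl _)) τ

theorem wSum_sub (u t : ℤ × ℤ) (τ : ℍ) :
    wSum (M := M) u τ - wSum (M := M) t τ = (nzV M).card * wpDiff M u t τ := by
  rw [wSum, wSum, ← Finset.sum_sub_distrib, ← nsmul_eq_mul, ← Finset.sum_const]
  refine Finset.sum_congr rfl fun v _ => ?_
  simp only [wpDiff]
  ring

/-- The Fricke function of a vector. -/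
def fU (M : ℕ) [NeZero M] (u : ℤ × ℤ) (τ : ℍ) : ℂ := wtTwo τ * wSum (M := M) u τ

theorem fU_smul (u : ℤ × ℤ) (g : SL(2, ℤ)) (τ : ℍ) :
    fU M u (g • τ) = fU M (rowMul u g) τ := by
  rw [fU, fU, wSum_smul, ← mul_assoc, wtTwo_smul]

theorem fU_congr {u t : ℤ × ℤ} (h : PM M u t) : fU M u = fU M t := by
  funext τ; rw [fU, fU, wSum_congr h]

theorem hasQSeries_fU {u : ℤ × ℤ} (hu : NZ M u) {s : LaurentSeries ℂ}
    (hs : HasQSeries 1 wtTwo s) :
    HasQSeries M (fU M u) (expand M (NeZero.ne M) s *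
      ∑ v ∈ nzV M, HahnSeries.ofPowerSeries ℤ ℂ
        (pSer M (zetaC M) u - pSer M (zetaC M) (liftV v))) := by
  have h1 := hs.refine_width one_pos M (NeZero.ne M)
  rw [one_mul] at h1
  refine (h1.mul (HasQSeries.sum (nzV M) fun v hv =>
    Model.hasQSeries_wpDiff hu (nz_liftV (Finset.mem_erase.mp hv).1))).congr
    (.of_forall fun τ => ?_)
  simp [fU, wSum, Finset.sum_apply]

theorem mdifferentiable_fU {u : ℤ × ℤ} (hu : NZ M u) :
    MDifferentiable 𝓘(ℂ) 𝓘(ℂ) (fU M u) := by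
  refine mdifferentiable_wtTwo.mul ?_
  rw [UpperHalfPlane.mdifferentiable_iff]
  have : (wSum (M := M) u) ∘ ofComplex =
      fun z => ∑ v ∈ nzV M, (wpDiff M u (liftV v) ∘ ofComplex) z := rfl
  rw [this]
  exact DifferentiableOn.fun_sum fun v hv => UpperHalfPlane.mdifferentiable_iff.mp
    (Model.mdifferentiable_wpDiff hu (nz_liftV (Finset.mem_erase.mp hv).1))

/-- The Fricke function as a member of `MF M`. -/
def fricke (u : ℤ × ℤ) (hu : NZ M u) : MF M :=
  ⟨fU M u, mdifferentiable_fU hu, fun γ hγ τ => by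
    rw [fU_smul]
    refine congrFun (fU_congr (pm_of_res ?_)) τ
    rw [resV_rowMul, red_eq_one_iff.mpr hγ]
    simp,
   fun δ => by
    obtain ⟨s, hs, -⟩ := exists_series_wtTwo
    exact ⟨M, _, NeZero.pos M, (hasQSeries_fU (nz_rowMul hu δ) hs).congr
      (.of_forall fun τ => (fU_smul u δ τ).symm)⟩⟩

theorem shift_fricke {u : ℤ × ℤ} (hu : NZ M u) (g : SL(2, ℤ)) :
    shift M g (fricke u hu) = fricke (rowMul u g) (nz_rowMul hu g) := by
  ext τ; exact fU_smul u g τ

theorem fricke_congr {u t : ℤ × ℤ} (h : PM M u t) (hu : NZ M u) (ht : NZ M t) :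
    fricke u hu = fricke t ht := Subtype.ext (fU_congr h)

theorem pm_of_fricke_eq {u t : ℤ × ℤ} (hu : NZ M u) (ht : NZ M t)
    (h : fricke u hu = fricke t ht) : PM M u t := by
  by_contra hpm
  refine wtTwo_ne_zero (funext fun τ => ?_)
  have e : wtTwo τ * (wSum (M := M) u τ - wSum (M := M) t τ) = 0 := by
    rw [mul_sub, sub_eq_zero]
    exact congrFun (congrArg Subtype.val h) τ
  rw [wSum_sub] at e
  refine (mul_eq_zero.mp e).resolve_right
    (mul_ne_zero ?_ (Model.wpDiff_ne_zero hu ht hpm τ))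
  rw [Nat.cast_ne_zero, ← Nat.pos_iff_ne_zero, Finset.card_pos]
  exact ⟨resV M u, by simp [nzV, nz_iff.mp hu]⟩

/-- The vector with second entry scaled. -/
def scaleV (a : (ZMod M)ˣ) (u : ℤ × ℤ) : ℤ × ℤ := (u.1, ((a : ZMod M).val : ℤ) * u.2)

theorem resV_scaleV (a : (ZMod M)ˣ) (u : ℤ × ℤ) :
    resV M (scaleV a u) = ((resV M u).1, (a : ZMod M) * (resV M u).2) := by
  simp [resV, scaleV]

theorem nz_scaleV (a : (ZMod M)ˣ) {u : ℤ × ℤ} (hu : NZ M u) : NZ M (scaleV a u) := by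
  rw [nz_iff] at hu ⊢
  rw [resV_scaleV]
  intro h
  simp only [Prod.ext_iff, Prod.fst_zero, Prod.snd_zero, Units.mul_right_eq_zero] at h
  exact hu (Prod.ext h.1 h.2)

omit [NeZero M] in
theorem pSer_map {R S : Type*} [Field R] [Field S] (φ : R →+* S) (z : R) (u : ℤ × ℤ) :
    PowerSeries.map φ (pSer M z u) = pSer M (φ z) u := by
  ext n
  rw [PowerSeries.coeff_map, pSer, pSer, PowerSeries.coeff_mk, PowerSeries.coeff_mk]
  by_cases hn : n = 0
  · rw [if_pos hn, if_pos hn]
    split_ifs <;> simp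
  · rw [if_neg hn, if_neg hn, map_sum]
    refine Finset.sum_congr rfl fun k _ => ?_
    simp only [map_mul, map_natCast, map_add]
    congr 2 <;> (split_ifs <;> simp)

omit [NeZero M] in
theorem pSer_pow {R : Type*} [Field R] (z : R) (a : ℕ) (u : ℤ × ℤ) :
    pSer M (z ^ a) u = pSer M z (u.1, (a : ℤ) * u.2) := by
  have h : ∀ x : ℤ, (z ^ a) ^ x = z ^ ((a : ℤ) * x) := fun x => by
    rw [← zpow_natCast z a, ← zpow_mul]
  ext n
  simp only [pSer, PowerSeries.coeff_mk, h, mul_neg, mul_assoc]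

theorem zetaC_pow (M : ℕ) [NeZero M] : zetaC M ^ M = 1 :=
  (Complex.isPrimitiveRoot_exp M (NeZero.ne M)).pow_eq_one

theorem conj_pSer (σ : ℂ ≃+* ℂ) (u : ℤ × ℤ) :
    lmap σ.toRingHom (HahnSeries.ofPowerSeries ℤ ℂ (pSer M (zetaC M) u)) =
      HahnSeries.ofPowerSeries ℤ ℂ (pSer M (zetaC M) (scaleV (cycC M σ) u)) := by
  have h : ∀ P : PowerSeries ℂ, lmap σ.toRingHom (HahnSeries.ofPowerSeries ℤ ℂ P) =
      HahnSeries.ofPowerSeries ℤ ℂ (PowerSeries.map σ.toRingHom P) := fun P => by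
    ext m
    rw [lmap_coeff, HahnSeries.ofPowerSeries_apply, HahnSeries.ofPowerSeries_apply]
    by_cases hm : ∃ k : ℕ, (k : ℤ) = m
    · obtain ⟨k, rfl⟩ := hm
      rw [← HahnSeries.ofPowerSeries_apply, ← HahnSeries.ofPowerSeries_apply,
        HahnSeries.ofPowerSeries_apply_coeff, HahnSeries.ofPowerSeries_apply_coeff,
        PowerSeries.coeff_map]
    · rw [HahnSeries.embDomain_of_notMem_range, HahnSeries.embDomain_of_notMem_range, map_zero]
      all_goals (rintro ⟨k, hk⟩; exact hm ⟨k, hk⟩)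
  rw [h, pSer_map]
  congr 1
  show pSer M (σ (zetaC M)) u = _
  rw [cycC_spec σ (zetaC_pow M), pSer_pow]
  rfl

theorem conjF_fricke (σ : ℂ ≃+* ℂ) {u : ℤ × ℤ} (hu : NZ M u) :
    ConjF σ (fricke u hu) (fricke (scaleV (cycC M σ) u) (nz_scaleV _ hu)) := by
  intro g g' hg
  set a := cycC M σ
  obtain ⟨s, hs, hσ⟩ := exists_series_wtTwo
  rw [shift_fricke, shift_fricke]
  set t := rowMul u g with ht
  have htnz : NZ M t := nz_rowMul hu g
  have e : resV M (rowMul (scaleV a u) g') = resV M (scaleV a t) := by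
    rw [conjEq_iff] at hg
    obtain ⟨h00, h01, h10, h11⟩ := hg
    rw [ht, resV_rowMul, resV_scaleV, resV_scaleV, resV_rowMul]
    simp only [red_apply, h00, h01, h10, h11]
    ext
    · linear_combination ((resV M u).2 * (g 1 0 : ZMod M)) * Units.mul_inv a
    · ring
  rw [fricke_congr (pm_of_res e) _ (nz_scaleV a htnz)]
  rw [show serAlg M (fricke t htnz) = _ from
    (hasQSeries_serHom _).unique (NeZero.pos M) (hasQSeries_fU htnz hs)]
  refine (hasQSeries_serHom _).unique (NeZero.pos M) ?_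
  rw [map_mul, lmap_expand, hσ, map_sum]
  simp only [map_sub, conj_pSer]
  have h1 := hs.refine_width one_pos M (NeZero.ne M)
  rw [one_mul] at h1
  have h2 := h1.mul (HasQSeries.sum (nzV M)
    (F := fun v => wpDiff M (scaleV a t) (scaleV a (liftV v)))
    fun v hv => Model.hasQSeries_wpDiff (nz_scaleV a htnz)
      (nz_scaleV a (nz_liftV (Finset.mem_erase.mp hv).1)))
  simp only [map_sub] at h2
  refine h2.congr (.of_forall fun τ => ?_)
  show wtTwo τ * (∑ v ∈ nzV M, wpDiff M (scaleV a t) (scaleV a (liftV v))) τ =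
    wtTwo τ * wSum (M := M) (scaleV a t) τ
  rw [Finset.sum_apply]
  congr 1
  refine Finset.sum_bij' (fun v _ => resV M (scaleV a (liftV v)))
    (fun v _ => resV M (scaleV a⁻¹ (liftV v))) ?_ ?_ ?_ ?_ ?_
  · intro v hv
    simpa [nzV] using nz_iff.mp (nz_scaleV a (nz_liftV (Finset.mem_erase.mp hv).1))
  · intro v hv
    simpa [nzV] using nz_iff.mp (nz_scaleV a⁻¹ (nz_liftV (Finset.mem_erase.mp hv).1))
  · intro v _; simp [resV_scaleV, ← mul_assoc]
  · intro v _; simp [resV_scaleV, ← mul_assoc]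
  · intro v _
    exact congrFun (Model.wpDiff_congr (pm_refl _) (pm_of_res (resV_liftV _).symm)) τ

/-- A function with a trivial stabiliser modulo `±Γ(M)` and with conjugates. -/
theorem exists_gen (M : ℕ) [NeZero M] :
    ∃ r : MF M, Gen r ∧ (∀ σ : ℂ ≃+* ℂ, ∃ r', ConjF σ r r') ∧
      ∀ T : Subring (MF M), (∀ u hu, fricke u hu ∈ T) → r ∈ T := by
  rcases eq_or_ne M 1 with rfl | hM
  · exact ⟨0, fun g _ => Or.inl (red_eq_one_iff.mpr (mem_Gamma_one g)), fun σ => ⟨0, ConjF.zero⟩,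
      fun T _ => T.zero_mem⟩
  have : Fact (1 < M) := ⟨lt_of_le_of_ne (NeZero.pos M) (Ne.symm hM)⟩
  have h10 : NZ M (1, 0) := by rw [nz_iff]; simp [resV]
  have h01 : NZ M (0, 1) := by rw [nz_iff]; simp [resV]
  set A := fricke (M := M) (1, 0) h10
  set B := fricke (M := M) (0, 1) h01
  let bad : SL(2, ℤ) → Set ℕ := fun g =>
    {l : ℕ | (shift M g A - A) + algebraMap ℂ (MF M) (l : ℂ) * (shift M g B - B) = 0}
  have hgood : ∀ g : SL(2, ℤ), ¬ (red M g = 1 ∨ red M (-g) = 1) → (bad g).Finite := by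
    intro g hg
    refine Set.Subsingleton.finite fun l hl l' hl' => ?_
    by_contra hne
    replace hl : (shift M g A - A) + algebraMap ℂ (MF M) (l : ℂ) * (shift M g B - B) = 0 := hl
    replace hl' : (shift M g A - A) + algebraMap ℂ (MF M) (l' : ℂ) * (shift M g B - B) = 0 := hl'
    have hl0 : algebraMap ℂ (MF M) ((l : ℂ) - l') * (shift M g B - B) = 0 := by
      rw [map_sub]
      linear_combination hl - hl'
    have hB : shift M g B = B := sub_eq_zero.mp ((mul_eq_zero.mp hl0).resolve_left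
      fun h => hne (Nat.cast_injective (R := ℂ) (sub_eq_zero.mp
        ((map_eq_zero_iff _ (algebraMap ℂ (MF M)).injective).mp h))))
    have hA : shift M g A = A := by
      rw [hB, sub_self, mul_zero, add_zero, sub_eq_zero] at hl
      exact hl
    rw [shift_fricke] at hA hB
    have pA := pm_of_fricke_eq _ _ hA
    have pB := pm_of_fricke_eq _ _ hB
    simp only [PM, rowMul, one_mul, zero_mul, add_zero, zero_add, sub_zero,
      ← ZMod.intCast_zmod_eq_zero_iff_dvd, Int.cast_sub, Int.cast_add, Int.cast_one,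
      sub_eq_zero] at pA pB
    have hdet : (g 0 0 : ZMod M) * g 1 1 - (g 0 1 : ZMod M) * g 1 0 = 1 := det_entries (red M g)
    refine hg ?_
    rcases pA with ⟨a00, a01⟩ | ⟨a00, a01⟩ <;> rcases pB with ⟨b10, b11⟩ | ⟨b10, b11⟩
    · exact Or.inl (Gamma_mem.mpr ⟨a00, a01, b10, b11⟩)
    · refine Or.inl (Gamma_mem.mpr ⟨a00, a01, b10, ?_⟩)
      rw [a00, a01] at hdet; simpa using hdet
    · refine Or.inl (Gamma_mem.mpr ⟨?_, a01, b10, b11⟩)
      rw [b11, a01] at hdet; simpa using hdet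
    · refine Or.inr (Gamma_mem.mpr ⟨?_, ?_, ?_, ?_⟩) <;>
        simp [Matrix.SpecialLinearGroup.coe_neg, eq_neg_of_add_eq_zero_left a00,
          eq_neg_of_add_eq_zero_left b11, a01, b10]
  obtain ⟨l, hl⟩ := Set.Finite.exists_notMem
    (s := ⋃ x ∈ {x : SL(2, ZMod M) | ¬ (red M (lift x) = 1 ∨ red M (-lift x) = 1)}, bad (lift x))
    ((Set.toFinite _).biUnion fun x hx => hgood _ hx)
  refine ⟨A + algebraMap ℂ (MF M) (l : ℂ) * B, fun g hg => ?_, fun σ => ?_, fun T hT => ?_⟩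
  · by_contra hne
    have hred : red M (lift (red M g)) = red M g := red_lift _
    have hneg : red M (-lift (red M g)) = red M (-g) := by
      ext i j
      have := congrArg (fun x : SL(2, ZMod M) => x i j) hred
      simp only [red_apply] at this
      simp [this]
    refine hl (Set.mem_iUnion₂.mpr ⟨red M g, by rw [Set.mem_ofPred_eq, hred, hneg]; exact hne, ?_⟩)
    show _ + _ = _
    rw [shift_eq_of_red_eq hred, shift_eq_of_red_eq hred]
    rw [map_add, map_mul, AlgHom.commutes] at hg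
    linear_combination hg
  · exact ⟨_, (conjF_fricke σ h10).add ((ConjF.algebraMap _).mul (conjF_fricke σ h01))⟩
  · rw [map_natCast]
    exact T.add_mem (hT _ h10) (T.mul_mem (natCast_mem T l) (hT _ h01))

end Fermat.Agent.GalRep.Level
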