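/-
Every modular function of level `Γ(M)` has a conjugate under every automorphism of `ℂ`.
-/
import Fermat.Agent.GalRep.Level.Fricke
import Fermat.Agent.GalRep.Embeddings

set_option autoImplicit false

noncomputable section

namespace Fermat.Agent.GalRep.Level

open UpperHalfPlane CongruenceSubgroup
open Fermat.Agent.Period (jFun)
open scoped MatrixGroups Manifold

variable {M : ℕ} [NeZero M]

theorem serAlg_jMF : serAlg M (jMF (Gamma M)) = jqN M := rfl

theorem serAlg_shift_biEval (g : SL(2, ℤ)) (r : MF M) (P : Polynomial (Polynomial ℂ)) :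
    serAlg M (shift M g (biEval (jMF (Gamma M)) r P)) =
      biEval (jqN M) (serAlg M (shift M g r)) P := by
  rw [shift_biEval, map_biEval, serAlg_jMF]

theorem ConjF.biEval {σ : ℂ ≃+* ℂ} {r r' : MF M} (h : ConjF σ r r')
    (P : Polynomial (Polynomial ℂ)) :
    ConjF σ (GalRep.biEval (jMF (Gamma M)) r P)
      (GalRep.biEval (jMF (Gamma M)) r' (gmap σ P)) := fun g g' hg => by
  rw [serAlg_shift_biEval, serAlg_shift_biEval, lmap_biEval, lmap_jqN, h g g' hg]

/-- The local behaviour at `τ` of functions built from `r'` is the `σ`-image of the local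
behaviour of the functions built from `r`. -/
theorem exists_local_pullback {σ : ℂ ≃+* ℂ} {r r' : MF M} (h : ConjF σ r r')
    {Q₀ : Polynomial (Polynomial ℂ)} (h0 : GalRep.biEval (jMF (Gamma M)) r Q₀ = 0)
    (hroots : ∀ (ψ : MF M →ₐ[ℂ] PowerSeries ℂ) (ρ : PowerSeries ℂ),
      GalRep.biEval (ψ (jMF (Gamma M))) ρ Q₀ = 0 → ∃ g, ρ = ψ (shift M g r)) (τ : ℍ) :
    ∃ (τ₀ : ℍ) (g : SL(2, ℤ)), ∀ Q : Polynomial (Polynomial ℂ),
      analyticOrderAt
          (((GalRep.biEval (jMF (Gamma M)) r' (gmap σ Q) : MF M) : ℍ → ℂ) ∘ ofComplex) (τ : ℂ) =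
        analyticOrderAt
          (((shift M g (GalRep.biEval (jMF (Gamma M)) r Q) : MF M) : ℍ → ℂ) ∘ ofComplex)
          (τ₀ : ℂ) := by
  obtain ⟨ψ, hψ, hψ0, hψτ, hd, hjψ⟩ := exists_jCoord M τ
  set c := jFun τ with hc
  obtain ⟨τ₀, hτ₀⟩ := jFun_surjective (σ.symm c)
  obtain ⟨ψ₀, hψ₀, hψ₀0, hψ₀τ, hd₀, hjψ₀⟩ := exists_jCoord M τ₀
  rw [hτ₀] at hjψ₀
  have he : eOf (σ.symm c) = eOf c := eOf_map σ.symm c
  set s₀ : PowerSeries ℂ := PowerSeries.C (σ.symm c) + PowerSeries.X ^ eOf (σ.symm c) with hs₀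
  set φl : PowerSeries ℂ →+* PowerSeries ℂ := PowerSeries.map σ.toRingHom with hφl
  have halg : ∀ x : ℂ, φl (algebraMap ℂ (PowerSeries ℂ) x) =
      algebraMap ℂ (PowerSeries ℂ) (σ x) := fun x => by simp [hφl]
  have hs : φl s₀ = localAlg M hψ hψ0 (jMF (Gamma M)) := by
    rw [hjψ, hs₀, he]
    simp [hφl]
  set ρ₀ := PowerSeries.map σ.symm.toRingHom (localAlg M hψ hψ0 r') with hρ₀
  have hρ : φl ρ₀ = localAlg M hψ hψ0 r' := by
    ext m; simp [hφl, hρ₀]
  have key : ∀ Q, localAlg M hψ hψ0 (GalRep.biEval (jMF (Gamma M)) r' (gmap σ Q)) =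
      φl (GalRep.biEval s₀ ρ₀ Q) := fun Q => by
    rw [map_biEval_semilinear σ φl halg, hs, hρ, map_biEval]
  have hroot : GalRep.biEval s₀ ρ₀ Q₀ = 0 := by
    have h1 := key Q₀
    rw [((h.biEval Q₀).eq_zero_iff).mpr h0, map_zero] at h1
    exact (map_eq_zero_iff φl (PowerSeries.map_injective σ.toRingHom σ.injective)).mp h1.symm
  rw [← hjψ₀] at hroot
  obtain ⟨g, hg⟩ := hroots _ _ hroot
  refine ⟨τ₀, g, fun Q => ?_⟩
  rw [← hψτ, ← hψ₀τ, ← order_localAlg hψ hψ0 hd, ← order_localAlg hψ₀ hψ₀0 hd₀, key, hφl,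
    order_powerSeries_map (φ := σ.toRingHom) σ.injective, shift_biEval, map_biEval, hjψ₀, ← hg]

omit [NeZero M] in
theorem periodicM_of_invariant {F : ℍ → ℂ} (hF : ∀ γ ∈ Gamma M, ∀ τ, F (γ • τ) = F τ)
    (δ : SL(2, ℤ)) (τ : ℍ) : F (δ • ((M : ℝ) +ᵥ τ)) = F (δ • τ) := by
  have hmem : δ * ModularGroup.T ^ (M : ℤ) * δ⁻¹ ∈ Gamma M :=
    (Gamma_normal M).conj_mem _ (ModularGroup_T_pow_mem_Gamma M M dvd_rfl) δ
  rw [show (M : ℝ) = (((M : ℕ) : ℤ) : ℝ) by simp, smul_vadd_eq]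
  exact hF _ hmem _

theorem exists_conjF (σ : ℂ ≃+* ℂ) (φ : MF M) : ∃ φ' : MF M, ConjF σ φ φ' := by
  rcases eq_or_ne φ 0 with rfl | hφ
  · exact ⟨0, ConjF.zero⟩
  obtain ⟨r, hr, hex, -⟩ := exists_gen M
  obtain ⟨r', hr'⟩ := hex σ
  obtain ⟨P, hP⟩ := exists_interpM hr φ
  set D := GalRep.biEval (jMF (Gamma M)) r (Polynomial.derivative (minP r)) with hD
  set num := GalRep.biEval (jMF (Gamma M)) r' (gmap σ P) with hnum
  set den := GalRep.biEval (jMF (Gamma M)) r' (gmap σ (Polynomial.derivative (minP r))) with hden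
  have hcnum : ConjF σ (φ * D) num := by rw [hP]; exact hr'.biEval P
  have hcden : ConjF σ D den := hr'.biEval _
  have hden0 : den ≠ 0 := fun h => biEval_minP_deriv_ne_zero r (hcden.eq_zero_iff.mp h)
  have han : ∀ f : MF M, AnalyticOnNhd ℂ ((f : ℍ → ℂ) ∘ ofComplex) upperHalfPlaneSet :=
    fun f => (UpperHalfPlane.mdifferentiable_iff.mp f.2.holo).analyticOnNhd
      isOpen_upperHalfPlaneSet
  obtain ⟨Fc, hFc, hFeq⟩ := exists_root_upperHalfPlane (n := 1) one_pos (han num) (han den)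
    (fun z hz => analyticOrderAt_modFun_ne_top den.2.holo (fun h => hden0 (Subtype.ext h)) hz)
    (fun z hz => by
      obtain ⟨τ₀, g, hg⟩ := exists_local_pullback hr' (Q₀ := minP r)
        ((biEval_minP_eq_zero_iff (AlgHom.id ℂ (MF M)) r r).mpr ⟨1, (shift_one r).symm⟩)
        (fun ψ ρ => (biEval_minP_eq_zero_iff ψ r ρ).mp) ⟨z, hz⟩
      have hne : (shift M g φ : MF M) ≠ 0 := fun h => hφ (shift_injective g (h.trans (map_zero _).symm))
      obtain ⟨k, hk⟩ := ENat.ne_top_iff_exists.mp (analyticOrderAt_modFun_ne_top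
        (shift M g φ).2.holo (fun h => hne (Subtype.ext h)) τ₀.im_pos)
      refine ⟨k, ?_⟩
      have h1 := hg P
      rw [← hP, map_mul] at h1
      rw [one_mul, hk, show ((⟨z, hz⟩ : ℍ) : ℂ) = z from rfl] at *
      rw [h1, hg, add_comm]
      exact analyticOrderAt_mul (han _ _ τ₀.im_pos) (han _ _ τ₀.im_pos))
  set F : ℍ → ℂ := fun τ => Fc (τ : ℂ) with hFdef
  have hF : MDifferentiable 𝓘(ℂ) 𝓘(ℂ) F :=
    UpperHalfPlane.mdifferentiable_iff.mpr (hFc.differentiableOn.congr fun z hz => by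
      simp [hFdef, ofComplex_apply_of_im_pos (hz : 0 < z.im)])
  have hmul : ∀ τ, F τ * (den : ℍ → ℂ) τ = (num : ℍ → ℂ) τ := fun τ => by
    simpa using hFeq τ τ.im_pos
  have hinv : ∀ γ ∈ Gamma M, ∀ τ, F (γ • τ) = F τ := fun γ hγ τ => by
    rcases Hecke.eq_zero_or_eq_zero_of_holo_mul ((mdifferentiable_comp_smul hF γ).sub hF)
      den.2.holo (funext fun τ => by
        show (F (γ • τ) - F τ) * (den : ℍ → ℂ) τ = 0
        have h1 := hmul (γ • τ)
        rw [den.2.invariant γ hγ, num.2.invariant γ hγ] at h1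
        linear_combination h1 - hmul τ) with hz | hz
    · exact sub_eq_zero.mp (congrFun hz τ)
    · exact absurd (Subtype.ext hz) hden0
  have hden' : ∀ g, serAlg M (shift M g den) ≠ 0 := fun g h =>
    hden0 (shift_injective g ((serAlg_injective M) (h.trans (map_zero _).symm) |>.trans
      (map_zero _).symm))
  set φ' : MF M := ⟨F, hF, hinv, fun δ => ⟨M, _, NeZero.pos M,
    hasQSeries_div (NeZero.pos M) (mdifferentiable_comp_smul hF δ) (periodicM_of_invariant hinv δ)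
      ((hasQSeries_serHom (shift M δ num)).congr (.of_forall fun τ => (hmul (δ • τ)).symm))
      (hasQSeries_serHom (shift M δ den)) (hden' δ)⟩⟩
  refine ⟨φ', fun g g' hg => mul_right_cancel₀ (hden' g') ?_⟩
  have e : φ' * den = num := Subtype.ext (funext hmul)
  rw [← map_mul, ← map_mul, e, hcnum g g' hg, map_mul, map_mul, map_mul, hcden g g' hg]

end Fermat.Agent.GalRep.Level
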