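/-
Algebra of representatives on congruence subgroups, and the order bound at infinity.
-/
import Fermat.Agent.GalRep.Level.ConjFun
import Fermat.Agent.GalRep.KummerRep

set_option autoImplicit false

noncomputable section

namespace Fermat.Agent.GalRep.Level

open UpperHalfPlane CongruenceSubgroup ModularGroup
open Fermat.Agent.Period (jFun)
open scoped MatrixGroups Manifold

variable {M : ℕ} {G : Subgroup SL(2, ℤ)} {n : ℕ} [NeZero n]

theorem trace_neg_sq (g : SL(2, ℤ)) :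
    ((-g : SL(2, ℤ)) : Matrix (Fin 2) (Fin 2) ℤ).trace ^ 2 =
      (g : Matrix (Fin 2) (Fin 2) ℤ).trace ^ 2 := by
  rw [Matrix.SpecialLinearGroup.coe_neg, Matrix.trace_neg, neg_sq]

namespace IsRepG

variable {χ χ' : ParG G (ZMod n)} {F F' : ℍ → ℂ}

theorem char_unique (hF : IsRepG G n χ F) (hF' : IsRepG G n χ' F) : χ = χ' := by
  obtain ⟨τ, hτ⟩ := Function.ne_iff.mp hF.ne_zero
  refine Subtype.ext (AddMonoidHom.ext fun x => ?_)
  obtain ⟨γ, rfl⟩ := Additive.ofMul.surjective x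
  exact ZMod.injective_stdAddChar (mul_right_cancel₀ hτ
    ((hF.equivariant γ τ).symm.trans (hF'.equivariant γ τ)))

theorem mul (hF : IsRepG G n χ F) (hF' : IsRepG G n χ' F') :
    IsRepG G n (χ + χ') (F * F') where
  holo := hF.holo.mul hF'.holo
  ne_zero h := (Hecke.eq_zero_or_eq_zero_of_holo_mul hF.holo hF'.holo h).elim hF.ne_zero hF'.ne_zero
  equivariant γ τ := by
    show F _ * F' _ = _
    rw [hF.equivariant, hF'.equivariant, Submodule.coe_add, AddMonoidHom.add_apply,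
      AddChar.map_add_eq_mul]
    show _ = _ * (F τ * F' τ)
    ring
  cusps := hF.cusps.mul hF'.cusps

theorem one : IsRepG G n (0 : ParG G (ZMod n)) 1 where
  holo := mdifferentiable_const
  ne_zero h := one_ne_zero (congrFun h UpperHalfPlane.I)
  equivariant γ τ := by simp
  cusps := hasSeriesAtCusps_const 1

theorem pow (hF : IsRepG G n χ F) : ∀ k : ℕ, IsRepG G n (k • χ) (F ^ k)
  | 0 => by rw [zero_smul, pow_zero]; exact IsRepG.one
  | k + 1 => by rw [succ_nsmul, pow_succ]; exact (hF.pow k).mul hF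

theorem const_mul (hF : IsRepG G n χ F) {c : ℂ} (hc : c ≠ 0) :
    IsRepG G n χ (fun τ => c * F τ) where
  holo := mdifferentiable_const.mul hF.holo
  ne_zero h := hF.ne_zero (funext fun τ => (mul_eq_zero.mp (congrFun h τ)).resolve_left hc)
  equivariant γ τ := by rw [hF.equivariant]; ring
  cusps := (hasSeriesAtCusps_const c).mul hF.cusps

theorem sub (hF : IsRepG G n χ F) (hF' : IsRepG G n χ F') (h : F - F' ≠ 0) :
    IsRepG G n χ (F - F') where
  holo := hF.holo.sub hF'.holo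
  ne_zero := h
  equivariant γ τ := by
    show F _ - F' _ = _
    rw [hF.equivariant, hF'.equivariant]
    show _ = _ * (F τ - F' τ)
    ring
  cusps := by
    have h1 := hF.cusps.add ((hasSeriesAtCusps_const (-1)).mul hF'.cusps)
    have e : F - F' = F + (fun _ => (-1 : ℂ)) * F' := by
      funext τ; simp [sub_eq_add_neg]
    rwa [e]

/-- Elements of trace `±2` fix a representative. -/
theorem smul_eq_of_trace (hF : IsRepG G n χ F) (γ : G)
    (h : ((γ : SL(2, ℤ)) : Matrix (Fin 2) (Fin 2) ℤ).trace ^ 2 = 4) (τ : ℍ) :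
    F ((γ : SL(2, ℤ)) • τ) = F τ := by
  rw [hF.equivariant, χ.2 γ h, AddChar.map_zero_eq_one, one_mul]

theorem periodic (hF : IsRepG G n χ F) (δ : SL(2, ℤ)) (k : ℤ) (h : δ * T ^ k * δ⁻¹ ∈ G)
    (τ : ℍ) : F (δ • ((k : ℝ) +ᵥ τ)) = F (δ • τ) := by
  rw [smul_vadd_eq]
  exact hF.smul_eq_of_trace ⟨_, h⟩ (by rw [trace_conj_T_pow]; norm_num) _

theorem periodicM (hF : IsRepG G n χ F) (hG : IsLevel M G) (δ : SL(2, ℤ)) (τ : ℍ) :
    F (δ • ((M : ℝ) +ᵥ τ)) = F (δ • τ) := by
  rw [show (M : ℝ) = (((M : ℕ) : ℤ) : ℝ) by simp]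
  exact hF.periodic δ M (hG.conjugate_T_mem δ) τ

theorem isModFun_pow (hF : IsRepG G n χ F) : IsModFun G (F ^ n) := by
  refine ⟨hF.holo.pow n, fun γ hγ τ => ?_, hF.cusps.pow n⟩
  show F (γ • τ) ^ n = F τ ^ n
  rw [hF.equivariant ⟨γ, hγ⟩ τ, mul_pow, ← AddChar.map_nsmul_eq_pow,
    ← Nat.cast_smul_eq_nsmul (ZMod n), ZMod.natCast_self, zero_smul, AddChar.map_zero_eq_one,
    one_mul]

theorem isModFun (hF : IsRepG G n (0 : ParG G (ZMod n)) F) : IsModFun G F :=
  ⟨hF.holo, fun γ hγ τ => by simpa using hF.equivariant ⟨γ, hγ⟩ τ, hF.cusps⟩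

variable [NeZero M]

theorem exists_series (hF : IsRepG G n χ F) (hG : IsLevel M G) (δ : SL(2, ℤ)) :
    ∃ h, HasQSeries M (fun τ => F (δ • τ)) h ∧ h ≠ 0 := by
  obtain ⟨w, f, hw, hf⟩ := hF.cusps δ
  obtain ⟨h, hh⟩ := exists_hasQSeries_of_periodic (mdifferentiable_comp_smul hF.holo δ)
    (hF.periodicM hG δ) hw hf
  refine ⟨h, hh, fun h0 => hF.ne_zero ?_⟩
  rw [h0] at hh
  have := eq_of_hasQSeries (mdifferentiable_comp_smul hF.holo δ) mdifferentiable_const hh
    (HasQSeries.zero M)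
  funext τ
  exact (congrArg F (smul_inv_smul δ τ)).symm.trans (congrFun this (δ⁻¹ • τ))

theorem series_ne_zero (hF : IsRepG G n χ F) (hG : IsLevel M G) {f : LaurentSeries ℂ}
    (hf : HasQSeries M F f) : f ≠ 0 := by
  obtain ⟨h, hh, h0⟩ := hF.exists_series hG 1
  simp only [one_smul] at hh
  rwa [hf.unique (NeZero.pos M) hh]

theorem exists_series_infty (hF : IsRepG G n χ F) (hG : IsLevel M G) :
    ∃ f, HasQSeries M F f ∧ f ≠ 0 := by
  simpa only [one_smul] using hF.exists_series hG 1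

end IsRepG

variable [NeZero M]

/-- The `n`-th power of a representative as a function of level `Γ(M)`. -/
def powMF (hG : IsLevel M G) {χ : ParG G (ZMod n)} {F : ℍ → ℂ} (hF : IsRepG G n χ F) : MF M :=
  ⟨F ^ n, modFuns_anti hG.gamma_le hF.isModFun_pow⟩

omit [NeZero M] in
theorem shift_eq_self_of_invariant {φ : MF M} (h : ∀ γ ∈ G, ∀ τ, (φ : ℍ → ℂ) (γ • τ) = (φ : ℍ → ℂ) τ)
    {γ : SL(2, ℤ)} (hγ : γ ∈ G) : shift M γ φ = φ :=
  Subtype.ext (funext fun τ => h γ hγ τ)

theorem serAlg_shift_eq {φ : MF M} {g : SL(2, ℤ)} {h : LaurentSeries ℂ}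
    (hh : HasQSeries M (fun τ => (φ : ℍ → ℂ) (g • τ)) h) : serAlg M (shift M g φ) = h :=
  (hasQSeries_serHom (shift M g φ)).unique (NeZero.pos M) hh

theorem ConjF.invariant {σ : ℂ ≃+* ℂ} {φ φ' : MF M} (hc : ConjF σ φ φ') (hG : IsLevel M G)
    (h : ∀ γ ∈ G, shift M γ φ = φ) : ∀ γ ∈ G, shift M γ φ' = φ' := by
  intro γ' hγ'
  obtain ⟨γ, hγ⟩ := exists_conjEq_symm (cycC M σ) γ'
  refine serAlg_injective M ?_
  rw [hc γ γ' hγ, h γ ((hG.conj_iff hγ).mpr hγ')]
  have e := hc 1 1 (ConjEq.one_one _)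
  rw [shift_one, shift_one] at e
  exact e.symm

attribute [local instance] Classical.decEq

local instance instFintypeSLModRep : Fintype SL(2, ZMod M) := Fintype.ofFinite _

/-- Bound on the order at infinity of a function of level `Γ(M)` with bounded poles. -/
theorem order_le_of_mf {φ : MF M} (hφ : φ ≠ 0) {b : ℕ} (hb : CuspBound M b (φ : ℍ → ℂ)) :
    (serAlg M φ).order ≤ ((Nat.card SL(2, ZMod M) * b * M : ℕ) : ℤ) := by
  have hser : ∀ g : SL(2, ℤ), serAlg M (shift M g φ) ≠ 0 ∧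
      -((b * M : ℕ) : ℤ) ≤ (serAlg M (shift M g φ)).order := fun g => by
    have hne : serAlg M (shift M g φ) ≠ 0 := fun h0 => hφ (shift_injective g
      ((serAlg_injective M (h0.trans (map_zero _).symm)).trans (map_zero _).symm))
    obtain ⟨h, hh, hc⟩ := hb g
    refine ⟨hne, ?_⟩
    rw [serAlg_shift_eq hh] at hne ⊢
    exact le_order_of_coeff hne hc
  obtain ⟨P, hP⟩ := exists_evJ_eq (N := M) (c := ∏ x : SL(2, ZMod M), shiftX x φ) fun g => by
    rw [map_prod]
    exact Fintype.prod_equiv (Equiv.mulRight (red M g)) _ _ fun x => by simp [shift_shiftX]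
  have hprod : serAlg M (evJ (Gamma M) P) = ∏ x : SL(2, ZMod M), serAlg M (shiftX x φ) := by
    rw [hP, map_prod]
  have hP0 : P ≠ 0 := fun h0 => Finset.prod_ne_zero_iff.mpr (fun x _ => (hser (lift x)).1)
    (by rw [show (∏ x : SL(2, ZMod M), serAlg M (shift M (lift x) φ)) =
      ∏ x : SL(2, ZMod M), serAlg M (shiftX x φ) from rfl, ← hprod, h0, map_zero, map_zero])
  have hsum : ∑ x : SL(2, ZMod M), (serAlg M (shiftX x φ)).order ≤ 0 := by
    have h1 := congrArg HahnSeries.order hprod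
    rw [order_prod_series (f := fun x => serAlg M (shiftX x φ)) _ (fun x _ => (hser (lift x)).1)] at h1
    rw [← h1]
    have h2 := (hasQSeries_aeval_jFun P).refine_width one_pos M (NeZero.ne M)
    rw [one_mul] at h2
    have h3 : serAlg M (evJ (Gamma M) P) = expand M (NeZero.ne M) (Polynomial.aeval jq P) :=
      (hasQSeries_serHom _).unique (NeZero.pos M)
        (h2.congr (.of_forall fun τ => (evJ_apply _ P τ).symm))
    rw [h3, order_expand, (order_aeval_jq hP0).2]
    have : (0 : ℤ) ≤ (M : ℤ) * P.natDegree := by positivity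
    linarith
  rw [← Finset.add_sum_erase _ _ (Finset.mem_univ (1 : SL(2, ZMod M)))] at hsum
  have h1 : shiftX (1 : SL(2, ZMod M)) φ = φ := by
    rw [← map_one (red M), shiftX_red, shift_one]
  rw [h1] at hsum
  have hrest : (((Finset.univ.erase (1 : SL(2, ZMod M))).card : ℕ) : ℤ) * -((b * M : ℕ) : ℤ) ≤
      ∑ x ∈ Finset.univ.erase (1 : SL(2, ZMod M)), (serAlg M (shiftX x φ)).order := by
    refine le_trans (le_of_eq ?_) (Finset.card_nsmul_le_sum _ _ _ fun x _ => (hser (lift x)).2)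
    rw [nsmul_eq_mul]
  have hle : (((Finset.univ.erase (1 : SL(2, ZMod M))).card : ℕ) : ℤ) ≤
      (Nat.card SL(2, ZMod M) : ℤ) := by
    rw [Nat.card_eq_fintype_card]; exact_mod_cast Finset.card_le_univ _
  have hbM : (0 : ℤ) ≤ ((b * M : ℕ) : ℤ) := by positivity
  push_cast at *
  nlinarith

theorem order_le_of_repG (hG : IsLevel M G) {χ : ParG G (ZMod n)} {F : ℍ → ℂ}
    (hF : IsRepG G n χ F) {b : ℕ} (hb : CuspBound M b F) {f : LaurentSeries ℂ}
    (hf : HasQSeries M F f) : f.order ≤ ((Nat.card SL(2, ZMod M) * b * M : ℕ) : ℤ) := by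
  have hf0 := hF.series_ne_zero hG hf
  have hs : serAlg M (powMF hG hF) = f ^ n :=
    (hasQSeries_serHom _).unique (NeZero.pos M) (hf.pow n)
  have hne : powMF hG hF ≠ 0 := fun h => pow_ne_zero n hf0 (by rw [← hs, h, map_zero])
  have := order_le_of_mf hne (hb.pow n : CuspBound M (n * b) (powMF hG hF : ℍ → ℂ))
  rw [hs, HahnSeries.order_pow, nsmul_eq_mul] at this
  have hn : (0 : ℤ) < n := by exact_mod_cast NeZero.pos n
  push_cast at this ⊢
  nlinarith

end Fermat.Agent.GalRep.Level
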