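/-
Every parabolic character of a congruence subgroup has a representative with poles of order at
most the width: a twisted Eisenstein series of weight twelve divided by `Δ`.
-/
import Fermat.Agent.GalRep.Level.Rep
import Fermat.Agent.GalRep.Eisenstein

set_option autoImplicit false

noncomputable section

namespace Fermat.Agent.GalRep.Level

open UpperHalfPlane CongruenceSubgroup Filter Topology ModularGroup Matrix EisensteinSeries
open scoped MatrixGroups Manifold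

variable {M : ℕ} [NeZero M] {G : Subgroup SL(2, ℤ)} {n : ℕ} [NeZero n] (χ : ParG G (ZMod n))

/-- The coefficients. -/
def eisCoeffG (v : Fin 2 → ℤ) : ℂ :=
  letI := Classical.propDecidable
  if h : ∃ γ : ↥G, bottomRow (Subtype.val γ) = v then
    ZMod.stdAddChar (-(χ : Additive G →+ ZMod n) (Additive.ofMul h.choose)) else 0

theorem eisCoeffG_eq (γ : G) :
    eisCoeffG χ (bottomRow (γ : SL(2, ℤ))) =
      ZMod.stdAddChar (-(χ : Additive G →+ ZMod n) (Additive.ofMul γ)) := by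
  rw [eisCoeffG, dif_pos ⟨γ, rfl⟩]
  set h : ∃ γ' : G, bottomRow (γ' : SL(2, ℤ)) = bottomRow (γ : SL(2, ℤ)) := ⟨γ, rfl⟩
  have hs : bottomRow ((h.choose : SL(2, ℤ)) * (γ : SL(2, ℤ))⁻¹) = bottomRow 1 := by
    rw [bottomRow_mul, h.choose_spec, ← bottomRow_mul, mul_inv_cancel]
  have h0 := χ.2 (h.choose * γ⁻¹) (trace_sq_of_bottomRow hs)
  rw [ofMul_mul, map_add, ofMul_inv, map_neg, ← sub_eq_add_neg, sub_eq_zero] at h0
  rw [h0]

theorem eisCoeffG_of_not (v : Fin 2 → ℤ) (h : ¬ ∃ γ : G, bottomRow (γ : SL(2, ℤ)) = v) :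
    eisCoeffG χ v = 0 := by
  classical
  simp [eisCoeffG, h]

theorem norm_eisCoeffG_le (v : Fin 2 → ℤ) : ‖eisCoeffG χ v‖ ≤ 1 := by
  by_cases h : ∃ γ : G, bottomRow (γ : SL(2, ℤ)) = v
  · obtain ⟨γ, rfl⟩ := h
    rw [eisCoeffG_eq, AddChar.norm_apply]
  · simp [eisCoeffG_of_not χ v h]

theorem eisCoeffG_comp (γ : G) (v : Fin 2 → ℤ) :
    eisCoeffG χ ((rowEquiv (γ : SL(2, ℤ))).symm v) =
      ZMod.stdAddChar ((χ : Additive G →+ ZMod n) (Additive.ofMul γ)) * eisCoeffG χ v := by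
  by_cases h : ∃ γ' : G, bottomRow (γ' : SL(2, ℤ)) = v
  · obtain ⟨γ', rfl⟩ := h
    show eisCoeffG χ (bottomRow (γ' : SL(2, ℤ)) ᵥ* _) = _
    rw [← bottomRow_mul, ← InvMemClass.coe_inv, ← Subgroup.coe_mul, eisCoeffG_eq, eisCoeffG_eq,
      ← AddChar.map_add_eq_mul, ofMul_mul, map_add (χ : Additive G →+ ZMod n), ofMul_inv,
      map_neg (χ : Additive G →+ ZMod n)]
    congr 1
    abel
  · rw [eisCoeffG_of_not χ v h, mul_zero, eisCoeffG_of_not]
    rintro ⟨γ', hγ'⟩
    refine h ⟨γ' * γ, ?_⟩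
    rw [Subgroup.coe_mul, bottomRow_mul, hγ']
    exact (rowEquiv (γ : SL(2, ℤ))).apply_symm_apply v

/-- The representative. -/
def eisRepG : ℍ → ℂ := eisQuot (eisCoeffG χ)

theorem eisRepG_smul (γ : G) (τ : ℍ) :
    eisRepG χ ((γ : SL(2, ℤ)) • τ) =
      ZMod.stdAddChar ((χ : Additive G →+ ZMod n) (Additive.ofMul γ)) * eisRepG χ τ := by
  rw [eisRepG, eisQuot_smul, eisQuot, eisQuot, latticeSum, latticeSum, ← mul_div_assoc,
    ← tsum_mul_left]
  congr 1
  refine tsum_congr fun v => ?_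
  rw [Function.comp_apply, eisCoeffG_comp, mul_assoc]

theorem exists_series_eisRepG (hG : IsLevel M G) (δ : SL(2, ℤ)) :
    ∃ f, HasQSeries M (fun τ => eisRepG χ (δ • τ)) f ∧ ∀ m < -(M : ℤ), f.coeff m = 0 := by
  obtain ⟨C, hC⟩ := exists_eisQuot_growth
  refine exists_hasQSeries (NeZero.pos M)
    (mdifferentiable_comp_smul (mdifferentiable_eisQuot (norm_eisCoeffG_le χ)) δ) (fun τ => ?_)
    (C := C) ?_
  · have h0 := χ.2 ⟨_, hG.conjugate_T_mem δ⟩ (by rw [trace_conj_T_pow]; norm_num)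
    have h := eisRepG_smul χ ⟨_, hG.conjugate_T_mem δ⟩ (δ • τ)
    rw [h0, AddChar.map_zero_eq_one, one_mul] at h
    rw [show (M : ℝ) = (((M : ℕ) : ℤ) : ℝ) by simp, smul_vadd_eq]
    exact h
  · filter_upwards [hC (eisCoeffG χ ∘ (rowEquiv δ).symm) fun v => norm_eisCoeffG_le χ _] with τ hτ
    show ‖eisQuot (eisCoeffG χ) (δ • τ)‖ ≤ _
    rw [eisQuot_smul]
    refine hτ.trans_eq ?_
    congr 1
    have : qq 1 τ = qq M τ ^ M := by
      rw [qq, qq, ← Complex.exp_nat_mul]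
      congr 1
      have : (M : ℂ) ≠ 0 := Nat.cast_ne_zero.mpr (NeZero.ne M)
      push_cast
      field_simp
    rw [this, norm_pow, _root_.zpow_neg_one, _root_.zpow_neg, zpow_natCast]

theorem tendsto_latticeSum_eisCoeffG :
    ∃ L : ℂ, L ≠ 0 ∧ Tendsto (fun k : ℕ => latticeSum (eisCoeffG χ)
      ⟨Complex.I * ((k : ℂ) + 1), by simp; positivity⟩) atTop (𝓝 L) := by
  set g : (Fin 2 → ℤ) → ℂ :=
    fun v => if v 0 = 0 then eisCoeffG χ v * (v 1 : ℂ) ^ (-(12 : ℤ)) else 0 with hg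
  have he : bottomRow (1 : SL(2, ℤ)) = ![0, 1] := by ext j; fin_cases j <;> rfl
  have hupper : ∀ γ : G, (γ : SL(2, ℤ)) 1 0 = 0 →
      bottomRow (γ : SL(2, ℤ)) = ![0, 1] ∨ bottomRow (γ : SL(2, ℤ)) = ![0, -1] := fun γ h0 => by
    obtain ⟨k, hk | hk⟩ := exists_eq_T_zpow_of_upper h0
    · left; ext j; fin_cases j <;> simp [bottomRow, hk, coe_T_zpow]
    · right; ext j; fin_cases j <;> simp [bottomRow, hk, coe_T_zpow]
  have h1 : eisCoeffG χ ![0, 1] = 1 := by
    have := eisCoeffG_eq χ 1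
    rw [OneMemClass.coe_one, he] at this
    simpa using this
  have h2 : eisCoeffG χ ![0, -1] = 0 ∨ eisCoeffG χ ![0, -1] = 1 := by
    by_cases h : ∃ γ : G, bottomRow (γ : SL(2, ℤ)) = ![0, -1]
    · obtain ⟨γ, hγ⟩ := h
      refine Or.inr ?_
      have h0 : (γ : SL(2, ℤ)) 1 0 = 0 := congrFun hγ 0
      have h11 : (γ : SL(2, ℤ)) 1 1 = -1 := congrFun hγ 1
      have hdet := (γ : SL(2, ℤ)).det_coe
      rw [Matrix.det_fin_two, h0, h11] at hdet
      rw [← hγ, eisCoeffG_eq, χ.2 γ (by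
        rw [Matrix.trace_fin_two, h11, show (γ : SL(2, ℤ)) 0 0 = -1 by linarith]; norm_num),
        neg_zero, AddChar.map_zero_eq_one]
    · exact Or.inl (eisCoeffG_of_not χ _ h)
  have hgsum : ∑' v, g v = 1 + eisCoeffG χ ![0, -1] := by
    rw [tsum_eq_sum (s := ({![0, 1], ![0, -1]} : Finset (Fin 2 → ℤ))) fun v hv => ?_]
    · rw [Finset.sum_pair (by simp)]
      simp [hg, h1]
      norm_num
    · simp only [hg]
      split_ifs with h0
      · rw [eisCoeffG_of_not, zero_mul]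
        rintro ⟨γ, rfl⟩
        refine hv ?_
        rw [Finset.mem_insert, Finset.mem_singleton]
        exact hupper γ h0
      · rfl
  refine ⟨1 + eisCoeffG χ ![0, -1], by rcases h2 with h | h <;> rw [h] <;> norm_num, ?_⟩
  rw [← hgsum]
  refine tendsto_tsum_of_dominated_convergence
    ((summable_one_div_norm_rpow (k := (12 : ℝ)) (by norm_num)).mul_left
      (r ⟨⟨1, 1⟩, one_pos⟩ ^ (-(12 : ℝ)))) (fun v => ?_) (.of_forall fun k v => ?_)
  · simp only [hg, eisSummand]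
    split_ifs with h0
    · simp [h0]
    · have hv : (v 0 : ℂ) ≠ 0 := Int.cast_ne_zero.mpr h0
      rw [← mul_zero (eisCoeffG χ v)]
      refine Tendsto.const_mul _ ?_
      rw [tendsto_zero_iff_norm_tendsto_zero]
      refine squeeze_zero (fun k => norm_nonneg _) (fun k => ?_)
        tendsto_one_div_add_atTop_nhds_zero_nat
      have h1 : (1 : ℝ) ≤ |(v 0 : ℝ)| := by exact_mod_cast Int.one_le_abs h0
      have hge : (k : ℝ) + 1 ≤ ‖(v 0 : ℂ) * (Complex.I * ((k : ℂ) + 1)) + v 1‖ := by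
        refine le_trans ?_ (Complex.abs_im_le_norm _)
        simp [abs_mul]
        rw [abs_of_pos (by positivity : (0 : ℝ) < k + 1)]
        exact le_mul_of_one_le_left (by positivity) h1
      rw [norm_zpow, _root_.zpow_neg, one_div, show ((12 : ℤ)) = ((12 : ℕ) : ℤ) from rfl,
        zpow_natCast]
      refine inv_anti₀ (by positivity) (hge.trans (le_self_pow₀ ?_ (by norm_num)))
      linarith [k.cast_nonneg (α := ℝ)]
  · refine (norm_latticeTerm_le (norm_eisCoeffG_le χ) _ v).trans (norm_eisSummand_le one_pos ?_ v)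
    constructor
    · show |(Complex.I * ((k : ℂ) + 1)).re| ≤ 1
      simp
    · show (1 : ℝ) ≤ (Complex.I * ((k : ℂ) + 1)).im
      simp

omit [NeZero M] in
theorem eisRepG_ne_zero : eisRepG χ ≠ 0 := by
  intro h
  obtain ⟨L, hL, hlim⟩ := tendsto_latticeSum_eisCoeffG χ
  refine hL (tendsto_nhds_unique hlim (tendsto_const_nhds.congr fun k => ?_))
  have := congrFun h ⟨Complex.I * ((k : ℂ) + 1), by simp; positivity⟩
  rw [eisRepG, eisQuot, Pi.zero_apply, div_eq_zero_iff] at this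
  exact (this.resolve_right (ModularForm.discriminant_ne_zero _)).symm

theorem exists_repG (hG : IsLevel M G) : ∃ F, IsRepG G n χ F ∧ CuspBound M 1 F :=
  ⟨eisRepG χ,
    ⟨mdifferentiable_eisQuot (norm_eisCoeffG_le χ), eisRepG_ne_zero χ, eisRepG_smul χ,
      fun δ => by
        obtain ⟨f, hf, -⟩ := exists_series_eisRepG χ hG δ
        exact ⟨M, f, NeZero.pos M, hf⟩⟩,
    fun δ => by
      obtain ⟨f, hf, hc⟩ := exists_series_eisRepG χ hG δ
      exact ⟨f, hf, by simpa only [one_mul] using hc⟩⟩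

end Fermat.Agent.GalRep.Level
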