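/-
Conjugation of representatives by automorphisms of `ℂ`.
-/
import Fermat.Agent.GalRep.Level.Eis

set_option autoImplicit false

noncomputable section

namespace Fermat.Agent.GalRep.Level

open UpperHalfPlane CongruenceSubgroup ModularGroup Filter Topology
open scoped MatrixGroups Manifold

variable {M : ℕ} [NeZero M]

theorem zetaC_zpow_eq_one_iff (m : ℤ) : Model.zetaC M ^ m = 1 ↔ (M : ℤ) ∣ m :=
  (Complex.isPrimitiveRoot_exp M (NeZero.ne M)).zpow_eq_one_iff_dvd m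

omit [NeZero M] in
theorem exp_eq_zetaC_zpow (k : ℤ) :
    Complex.exp (2 * Real.pi * Complex.I * k / M) = Model.zetaC M ^ k := by
  rw [Model.zetaC, ← Complex.exp_int_mul]
  congr 1
  ring

/-- An element of trace `±2` is `± δ T^k δ⁻¹`. -/
theorem exists_conj_T {γ : SL(2, ℤ)} (h : (γ : Matrix (Fin 2) (Fin 2) ℤ).trace ^ 2 = 4) :
    ∃ (δ : SL(2, ℤ)) (k : ℤ), γ = δ * T ^ k * δ⁻¹ ∨ γ = -(δ * T ^ k * δ⁻¹) := by
  obtain ⟨δ, hδ⟩ := Period.exists_conj_upper_of_trace_sq γ h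
  obtain ⟨k, hk | hk⟩ := exists_eq_T_zpow_of_upper hδ
  · exact ⟨δ, k, Or.inl (by rw [← hk]; group)⟩
  · refine ⟨δ, k, Or.inr ?_⟩
    have e : T ^ k = -(δ⁻¹ * γ * δ) := by rw [hk, neg_neg]
    rw [e, mul_neg, neg_mul, neg_neg]
    group

variable {G : Subgroup SL(2, ℤ)} {n : ℕ} [NeZero n]

theorem hasQSeries_shift (φ : MF M) (δ : SL(2, ℤ)) :
    HasQSeries M (fun τ => (φ : ℍ → ℂ) (δ • τ)) (serAlg M (shift M δ φ)) :=
  hasQSeries_serHom (shift M δ φ)

/-- A root of a conjugate function picks up no monodromy at parabolic elements. -/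
theorem smul_eq_of_parabolic (hG : IsLevel M G) {σ : ℂ ≃+* ℂ} {χ : ParG G (ZMod n)} {F : ℍ → ℂ}
    (hF : IsRepG G n χ F) {φ' : MF M} (hc : ConjF σ (powMF hG hF) φ')
    (hinv : ∀ γ ∈ G, shift M γ φ' = φ') {F' : ℍ → ℂ} (hF' : MDifferentiable 𝓘(ℂ) 𝓘(ℂ) F')
    (hne : F' ≠ 0) (hpow : ∀ τ, F' τ ^ n = (φ' : ℍ → ℂ) τ) {γ' : SL(2, ℤ)} (hγ' : γ' ∈ G)
    (htr : (γ' : Matrix (Fin 2) (Fin 2) ℤ).trace ^ 2 = 4) (τ : ℍ) : F' (γ' • τ) = F' τ := by
  set a := cycC M σ
  obtain ⟨δ, k, hk⟩ := exists_conj_T htr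
  obtain ⟨g, hg⟩ := exists_conjEq_symm a δ
  obtain ⟨k₀, hk₀⟩ := ZMod.intCast_surjective (((a⁻¹ : (ZMod M)ˣ) : ZMod M) * (k : ZMod M))
  have hkk : (k : ZMod M) = a * k₀ := by rw [hk₀, ← mul_assoc, Units.mul_inv, one_mul]
  have hact : ∀ z : ℍ, γ' • z = (δ * T ^ k * δ⁻¹) • z := fun z => by
    rcases hk with hk | hk <;> rw [hk]
    rw [ModularGroup.SL_neg_smul]
  -- the corresponding parabolic element fixes `F ∘ g`
  have hper0 : ∀ z : ℍ, F (g • ((k₀ : ℝ) +ᵥ z)) = F (g • z) := fun z => by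
    have hc0 : ConjEq M a (g * T ^ k₀ * g⁻¹) (δ * T ^ k * δ⁻¹) :=
      (hg.mul (conjEq_T_zpow a hkk)).mul hg.inv
    rw [smul_vadd_eq]
    rcases hk with hk | hk
    · exact hF.smul_eq_of_trace ⟨_, (hG.conj_iff hc0).mpr (hk ▸ hγ')⟩
        (by rw [trace_conj_T_pow]; norm_num) _
    · have h1 := hF.smul_eq_of_trace ⟨_, (hG.conj_iff hc0.neg).mpr (hk ▸ hγ')⟩
        (by rw [trace_neg_sq, trace_conj_T_pow]; norm_num) (g • z)
      rwa [ModularGroup.SL_neg_smul] at h1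
  obtain ⟨h, hh, hh0⟩ := hF.exists_series hG g
  have hM := NeZero.pos M
  set d := h.order
  -- `k₀ d` is divisible by `M`
  have hdvd : (M : ℤ) ∣ k₀ * d := by
    have e := twist_eq_of_periodic hM hh k₀
      (Units.mk0 _ (Complex.exp_ne_zero (2 * Real.pi * Complex.I * k₀ / M))) rfl hper0
    have e2 := congrArg Units.val (zpow_eq_one_of_twist hh0 e)
    rw [Units.val_zpow_eq_zpow_val, Units.val_mk0, Units.val_one, exp_eq_zetaC_zpow, ← zpow_mul,
      zetaC_zpow_eq_one_iff] at e2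
    exact e2
  have hdvd' : (M : ℤ) ∣ k * d := by
    rw [← ZMod.intCast_zmod_eq_zero_iff_dvd] at hdvd ⊢
    push_cast at hdvd ⊢
    rw [hkk, mul_assoc, hdvd, mul_zero]
  have hser : serAlg M (shift M δ φ') = lmap σ.toRingHom (h ^ n) := by
    rw [hc g δ hg]
    congr 1
    exact serAlg_shift_eq (hh.pow n)
  set H : ℍ → ℂ := fun z => F' (δ • z) with hH
  have hH0 : H ≠ 0 := fun h0 => hne (funext fun z => by simpa [hH] using congrFun h0 (δ⁻¹ • z))
  have hHs : HasQSeries M (H ^ n) (lmap σ.toRingHom (h ^ n)) := by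
    rw [← hser]
    exact (hasQSeries_shift φ' δ).congr (.of_forall fun z => (hpow (δ • z)).symm)
  have hord : (lmap σ.toRingHom (h ^ n)).order = n * d := by
    rw [order_lmap (φ := σ.toRingHom) σ.injective, HahnSeries.order_pow, nsmul_eq_mul]
  have hne' : lmap σ.toRingHom (h ^ n) ≠ 0 := fun h0 => pow_ne_zero n hh0
    (lmap_injective (φ := σ.toRingHom) σ.injective (h0.trans (map_zero _).symm))
  have key := root_vadd_eq hM (NeZero.pos n) (mdifferentiable_comp_smul hF' δ) hH0 hHs hne' hord k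
    (fun z => by
      show F' (δ • _) ^ n = F' (δ • z) ^ n
      rw [hpow, hpow, smul_vadd_eq, ← hact]
      exact congrFun (congrArg Subtype.val (hinv γ' hγ')) (δ • z)) (δ⁻¹ • τ)
  rw [exp_eq_zetaC_zpow, ← zpow_mul, (zetaC_zpow_eq_one_iff _).mpr hdvd', one_mul] at key
  simp only [smul_inv_smul, smul_vadd_eq] at key
  rw [hact]
  exact key

/-- Existence of a root of a conjugate function with no monodromy at infinity. -/
theorem exists_root_conj (hG : IsLevel M G) {σ : ℂ ≃+* ℂ} {χ : ParG G (ZMod n)} {F : ℍ → ℂ}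
    (hF : IsRepG G n χ F) {φ' : MF M} (hc : ConjF σ (powMF hG hF) φ') :
    ∃ F' : ℍ → ℂ, MDifferentiable 𝓘(ℂ) 𝓘(ℂ) F' ∧ F' ≠ 0 ∧ ∀ τ, F' τ ^ n = (φ' : ℍ → ℂ) τ := by
  have hn : 0 < n := NeZero.pos n
  have hφ0 : powMF hG hF ≠ 0 := fun h => by
    obtain ⟨z, hz⟩ := Function.ne_iff.mp hF.ne_zero
    exact hz ((pow_eq_zero_iff hn.ne').mp (congrFun (congrArg Subtype.val h) z))
  have hφ'0 : φ' ≠ 0 := fun h => hφ0 (hc.eq_zero_iff.mp h)
  obtain ⟨Fc, hFc, hFeq⟩ := exists_root_upperHalfPlane hn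
    ((UpperHalfPlane.mdifferentiable_iff.mp φ'.2.holo).analyticOnNhd isOpen_upperHalfPlaneSet)
    (analyticOnNhd_const (v := (1 : ℂ))) (fun z _ => by simp [analyticAt_const.analyticOrderAt_eq_zero.mpr one_ne_zero])
    (fun z hz => by
      obtain ⟨τ₀, g, hg⟩ := exists_local_pullback hc (Q₀ := charP (powMF hG hF))
        ((biEval_charP_eq_zero_iff (AlgHom.id ℂ (MF M)) (powMF hG hF) (powMF hG hF)).mpr
          ⟨1, (shift_one _).symm⟩)
        (fun ψ ρ => (biEval_charP_eq_zero_iff ψ (powMF hG hF) ρ).mp) ⟨z, hz⟩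
      obtain ⟨k, hk⟩ := ENat.ne_top_iff_exists.mp (analyticOrderAt_modFun_ne_top
        (mdifferentiable_comp_smul hF.holo g)
        (fun h => hF.ne_zero (funext fun z => by simpa using congrFun h (g⁻¹ • z))) τ₀.im_pos)
      refine ⟨k, ?_⟩
      have h1 := hg Polynomial.X
      rw [show gmap σ Polynomial.X = Polynomial.X from Polynomial.map_X _,
        show GalRep.biEval (jMF (Gamma M)) φ' Polynomial.X = φ' from Polynomial.eval₂_X _ _,
        show GalRep.biEval (jMF (Gamma M)) (powMF hG hF) Polynomial.X = powMF hG hF from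
          Polynomial.eval₂_X _ _] at h1
      rw [analyticAt_const.analyticOrderAt_eq_zero.mpr one_ne_zero, zero_add,
        show z = (((⟨z, hz⟩ : ℍ)) : ℂ) from rfl, h1, Nat.cast_mul, hk]
      show analyticOrderAt (((fun τ => F (g • τ)) ∘ ofComplex) ^ n) _ = _
      rw [analyticOrderAt_pow
        (analyticAt_comp_ofComplex (mdifferentiable_comp_smul hF.holo g) τ₀)]
      simp)
  refine ⟨fun τ => Fc (τ : ℂ), UpperHalfPlane.mdifferentiable_iff.mpr
    (hFc.differentiableOn.congr fun z hz => by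
      simp [ofComplex_apply_of_im_pos (hz : 0 < z.im)]), fun h => hφ'0 (Subtype.ext ?_), fun τ => ?_⟩
  · funext τ
    have := hFeq τ τ.im_pos
    rw [show Fc (τ : ℂ) = 0 from congrFun h τ, zero_pow hn.ne', zero_mul] at this
    simpa using this.symm
  · simpa using hFeq τ τ.im_pos

/-- Conjugation of representatives. -/
theorem exists_conj_repG (hG : IsLevel M G) (σ : ℂ ≃+* ℂ) {χ : ParG G (ZMod n)} {F : ℍ → ℂ}
    (hF : IsRepG G n χ F) {f : LaurentSeries ℂ} (hf : HasQSeries M F f) :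
    ∃ (χ' : ParG G (ZMod n)) (F' : ℍ → ℂ), IsRepG G n χ' F' ∧
      HasQSeries M F' (lmap σ.toRingHom f) ∧
      ∀ g g' h h', ConjEq M (cycC M σ) g g' → HasQSeries M (fun τ => F (g • τ)) h →
        HasQSeries M (fun τ => F' (g' • τ)) h' → h' ^ n = lmap σ.toRingHom h ^ n := by
  classical
  have hn : 0 < n := NeZero.pos n
  have hM := NeZero.pos M
  obtain ⟨φ', hc⟩ := exists_conjF σ (powMF hG hF)
  have hinv : ∀ γ ∈ G, shift M γ φ' = φ' := hc.invariant hG fun γ hγ =>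
    shift_eq_self_of_invariant (fun γ hγ τ => hF.isModFun_pow.invariant γ hγ τ) hγ
  obtain ⟨F', hF', hF'0, hpow⟩ := exists_root_conj hG hF hc
  have hchar : ∀ γ : G, ∃ b : ZMod n,
      ∀ τ, F' ((γ : SL(2, ℤ)) • τ) = ZMod.stdAddChar b * F' τ := fun γ => by
    obtain ⟨ω, hωn, hω⟩ := exists_const_of_pow_eq hn (mdifferentiable_comp_smul hF' (γ : SL(2, ℤ)))
      hF' hF'0 (fun τ => by
        rw [hpow, hpow]
        exact congrFun (congrArg Subtype.val (hinv γ γ.2)) τ)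
    obtain ⟨i, -, hi⟩ := (Complex.isPrimitiveRoot_exp n hn.ne').eq_pow_of_pow_eq_one hωn
    refine ⟨((i : ℤ) : ZMod n), fun τ => ?_⟩
    rw [hω τ, ZMod.stdAddChar_coe, ← hi, ← Complex.exp_nat_mul]
    congr 2; push_cast; ring
  choose b hb using hchar
  have hinj : ∀ x y : ZMod n, (∀ τ, ZMod.stdAddChar x * F' τ = ZMod.stdAddChar y * F' τ) → x = y :=
    fun x y h => by
      obtain ⟨τ, hτ⟩ := Function.ne_iff.mp hF'0
      exact ZMod.injective_stdAddChar (mul_right_cancel₀ hτ (h τ))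
  let χ0 : Additive G →+ ZMod n :=
    { toFun := fun γ => b (Additive.toMul γ)
      map_zero' := hinj _ _ fun τ => by
        rw [toMul_zero, ← hb, AddChar.map_zero_eq_one]; simp
      map_add' := fun γ γ' => hinj _ _ fun τ => by
        rw [toMul_add, ← hb, AddChar.map_add_eq_mul, Subgroup.coe_mul, mul_smul, hb, hb]; ring }
  have hχ : χ0 ∈ ParG G (ZMod n) := fun γ hγ => by
    refine hinj _ _ fun τ => ?_
    rw [AddChar.map_zero_eq_one, one_mul]
    show ZMod.stdAddChar (b γ) * F' τ = F' τ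
    rw [← hb]
    exact smul_eq_of_parabolic hG hF hc hinv hF' hF'0 hpow γ.2 hγ τ
  -- series at every cusp
  have hcusp : ∀ δ : SL(2, ℤ), ∃ h', HasQSeries M (fun τ => F' (δ • τ)) h' := fun δ => by
    obtain ⟨C, hC⟩ := (hasQSeries_shift φ' δ).growth hM (m₀ := (serAlg M (shift M δ φ')).order)
      fun m hm => HahnSeries.coeff_eq_zero_of_lt_order hm
    set e := (serAlg M (shift M δ φ')).order
    refine (exists_hasQSeries hM (mdifferentiable_comp_smul hF' δ) (fun τ => ?_)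
      (C := max 1 C) (B := e.natAbs) ?_).imp fun _ h => h.1
    · rw [show (M : ℝ) = (((M : ℕ) : ℤ) : ℝ) by simp, smul_vadd_eq]
      exact smul_eq_of_parabolic hG hF hc hinv hF' hF'0 hpow (hG.conjugate_T_mem δ)
        (by rw [trace_conj_T_pow]; norm_num) _
    · filter_upwards [hC] with τ hτ
      have hq0 : 0 < ‖qq M τ‖ := norm_pos_iff.mpr (qq_ne_zero M τ)
      have hq1 := (norm_qq_lt_one M hM τ).le
      have h1 : (1 : ℝ) ≤ ‖qq M τ‖ ^ (-(e.natAbs : ℤ)) :=
        one_le_zpow_of_nonpos₀ hq0 hq1 (by omega)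
      rcases le_total ‖F' (δ • τ)‖ 1 with h | h
      · exact h.trans (le_trans (le_max_left 1 C)
          (le_mul_of_one_le_right (le_trans zero_le_one (le_max_left 1 C)) h1))
      · rw [← hpow, norm_pow] at hτ
        refine (le_self_pow₀ h hn.ne').trans (hτ.trans (mul_le_mul (le_max_right _ _) ?_
          (zpow_nonneg hq0.le _) (le_trans zero_le_one (le_max_left 1 C))))
        exact zpow_le_zpow_right_of_le_one₀ hq0 hq1 (by omega)
  have hrep : IsRepG G n ⟨χ0, hχ⟩ F' :=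
    ⟨hF', hF'0, fun γ τ => hb γ τ, fun δ => by
      obtain ⟨h', hh'⟩ := hcusp δ; exact ⟨M, h', hM, hh'⟩⟩
  have hrel : ∀ g g' h h', ConjEq M (cycC M σ) g g' → HasQSeries M (fun τ => F (g • τ)) h →
      HasQSeries M (fun τ => F' (g' • τ)) h' → h' ^ n = lmap σ.toRingHom h ^ n := by
    intro g g' h h' hgg hh hh'
    rw [← map_pow, ← serAlg_shift_eq (φ := powMF hG hF) (g := g) (hh.pow n), ← hc g g' hgg]
    exact ((hh'.pow n).congr (.of_forall fun τ => hpow _)).unique hM (hasQSeries_shift φ' g')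
  -- normalise at infinity
  obtain ⟨f', hf', hf'0⟩ := hrep.exists_series_infty hG
  obtain ⟨ω, hωn, hω⟩ := exists_root_unity_of_pow_eq (n := n) (a := lmap σ.toRingHom f) hf'0
    (hrel 1 1 f f' (ConjEq.one_one _) (by simpa only [one_smul] using hf)
      (by simpa only [one_smul] using hf')).symm
  have hω0 : ω ≠ 0 := fun h0 => by simp [h0, zero_pow hn.ne'] at hωn
  refine ⟨⟨χ0, hχ⟩, fun τ => ω * F' τ, hrep.const_mul hω0, hω ▸ hf'.smul ω,
    fun g g' h h' hgg hh hh' => ?_⟩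
  obtain ⟨h₁, hh₁⟩ := hcusp g'
  rw [show h' = HahnSeries.C ω * h₁ from hh'.unique hM (hh₁.smul ω), mul_pow, ← map_pow, hωn,
    map_one, one_mul]
  exact hrel g g' h h₁ hgg hh hh₁

theorem cuspBound_conj (hG : IsLevel M G) {σ : ℂ ≃+* ℂ} {χ' : ParG G (ZMod n)} {F F' : ℍ → ℂ}
    (hF' : IsRepG G n χ' F')
    (hrel : ∀ g g' h h', ConjEq M (cycC M σ) g g' → HasQSeries M (fun τ => F (g • τ)) h →
      HasQSeries M (fun τ => F' (g' • τ)) h' → h' ^ n = lmap σ.toRingHom h ^ n)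
    {B : ℕ} (hB : CuspBound M B F) : CuspBound M B F' := fun δ => by
  obtain ⟨g, hg⟩ := exists_conjEq_symm (cycC M σ) δ
  obtain ⟨h, hh, hc⟩ := hB g
  obtain ⟨h', hh', h'0⟩ := hF'.exists_series hG δ
  have e := hrel g δ h h' hg hh hh'
  have hh0 : h ≠ 0 := fun h0 => pow_ne_zero n h'0
    (by rw [e, h0, map_zero, zero_pow (NeZero.ne n)])
  have hord : h'.order = h.order := by
    have e2 := congrArg HahnSeries.order e
    rw [HahnSeries.order_pow, HahnSeries.order_pow, order_lmap (φ := σ.toRingHom) σ.injective,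
      nsmul_eq_mul, nsmul_eq_mul] at e2
    exact mul_left_cancel₀ (Nat.cast_ne_zero.mpr (NeZero.ne n)) e2
  refine ⟨h', hh', fun m hm => HahnSeries.coeff_eq_zero_of_lt_order ?_⟩
  rw [hord]
  exact lt_of_lt_of_le hm (le_order_of_coeff hh0 hc)

/-- The conjugate character does not depend on the representative. -/
theorem conj_char_uniqueG (hG : IsLevel M G) (σ : ℂ ≃+* ℂ) {χ χ₁ χ₂ : ParG G (ZMod n)}
    {E F E' F' : ℍ → ℂ} {e f : LaurentSeries ℂ} (hE : IsRepG G n χ E) (he : HasQSeries M E e)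
    (hF : IsRepG G n χ F) (hf : HasQSeries M F f)
    (hE' : IsRepG G n χ₁ E') (he' : HasQSeries M E' (lmap σ.toRingHom e))
    (hF' : IsRepG G n χ₂ F') (hf' : HasQSeries M F' (lmap σ.toRingHom f)) : χ₁ = χ₂ := by
  have hn : 0 < n := NeZero.pos n
  have hzero : ∀ ψ : ParG G (ZMod n), ψ + (n - 1) • ψ = 0 := fun ψ => by
    rw [← succ_nsmul', show n - 1 + 1 = n by omega]
    refine Subtype.ext (AddMonoidHom.ext fun x => ?_)
    simp
  have hP := hF.mul (hE.pow (n - 1))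
  rw [hzero] at hP
  set φ : MF M := ⟨F * E ^ (n - 1), modFuns_anti hG.gamma_le hP.isModFun⟩
  have hφinv : ∀ γ ∈ G, shift M γ φ = φ := fun γ hγ =>
    shift_eq_self_of_invariant (fun γ hγ τ => hP.isModFun.invariant γ hγ τ) hγ
  obtain ⟨φ', hc⟩ := exists_conjF σ φ
  have hP' := hF'.mul (hE'.pow (n - 1))
  have hser : serAlg M φ' = lmap σ.toRingHom (f * e ^ (n - 1)) := by
    have h1 := hc 1 1 (ConjEq.one_one _)
    rw [shift_one, shift_one] at h1
    rw [h1]
    congr 1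
    exact (hasQSeries_serHom φ).unique (NeZero.pos M) (hf.mul (he.pow (n - 1)))
  have heq : F' * E' ^ (n - 1) = (φ' : ℍ → ℂ) := by
    refine eq_of_hasQSeries hP'.holo φ'.2.holo (hf'.mul (he'.pow (n - 1))) ?_
    have := hasQSeries_serHom φ'
    rw [show serHom M φ' = serAlg M φ' from rfl, hser, map_mul, map_pow] at this
    exact this
  have h0 : IsRepG G n (0 : ParG G (ZMod n)) (F' * E' ^ (n - 1)) :=
    ⟨hP'.holo, hP'.ne_zero, fun γ τ => by
      rw [heq, show (φ' : ℍ → ℂ) ((γ : SL(2, ℤ)) • τ) = (φ' : ℍ → ℂ) τ from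
        congrFun (congrArg Subtype.val (hc.invariant hG hφinv γ γ.2)) τ]
      simp, hP'.cusps⟩
  have h1 := hP'.char_unique h0
  exact add_right_cancel (b := (n - 1) • χ₁) ((hzero χ₁).trans h1.symm)

end Fermat.Agent.GalRep.Level
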