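/-
The Galois action on parabolic homomorphisms of congruence subgroups with values in `ℤ/n`.
-/
import Fermat.Agent.GalRep.Level.Conj
import Fermat.Agent.GalRep.KummerGalois

set_option autoImplicit false

noncomputable section

namespace Fermat.Agent.GalRep.Level

open UpperHalfPlane CongruenceSubgroup Filter Topology
open Fermat.Agent.Galois (GQ)
open scoped MatrixGroups Manifold

variable {M : ℕ} [NeZero M] {G : Subgroup SL(2, ℤ)} (hG : IsLevel M G) {n : ℕ} [NeZero n]

include hG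

theorem finite_parG : Finite (ParG G (ZMod n)) := by
  have : Group.FG SL(2, ℤ) :=
    Group.fg_iff.mpr ⟨_, SpecialLinearGroup.SL2Z_generators, Set.toFinite _⟩
  have : G.FiniteIndex := Subgroup.finiteIndex_of_le hG.gamma_le
  have : Group.FG G := Subgroup.fg_of_index_ne_zero G
  obtain ⟨s, hs⟩ := Group.fg_def.mp (inferInstance : Group.FG G)
  refine Finite.of_injective
    (fun (χ : ParG G (ZMod n)) (g : s) => (χ : Additive G →+ ZMod n) (Additive.ofMul (g : G)))
    fun χ χ' h => Subtype.ext (AddMonoidHom.ext fun x => ?_)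
  obtain ⟨γ, rfl⟩ := Additive.ofMul.surjective x
  have hγ : γ ∈ Subgroup.closure (s : Set G) := hs ▸ Subgroup.mem_top γ
  induction hγ using Subgroup.closure_induction with
  | mem g hg => exact congrFun h ⟨g, hg⟩
  | one => simp
  | mul a b _ _ ha hb => rw [ofMul_mul, map_add, map_add, ha, hb]
  | inv a _ ha => rw [ofMul_inv, map_neg, map_neg, ha]

/-! ## The action of `Aut ℂ` -/

theorem exists_autG (σ : ℂ ≃+* ℂ) (χ : ParG G (ZMod n)) :
    ∃ χ' : ParG G (ZMod n), ∀ (F : ℍ → ℂ) (f : LaurentSeries ℂ),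
      IsRepG G n χ F → HasQSeries M F f →
      ∃ F', IsRepG G n χ' F' ∧ HasQSeries M F' (lmap σ.toRingHom f) ∧
        (∀ g g' h h', ConjEq M (cycC M σ) g g' → HasQSeries M (fun τ => F (g • τ)) h →
          HasQSeries M (fun τ => F' (g' • τ)) h' → h' ^ n = lmap σ.toRingHom h ^ n) ∧
        ∀ B, CuspBound M B F → CuspBound M B F' := by
  obtain ⟨E, hE, -⟩ := exists_repG χ hG
  obtain ⟨e, he, -⟩ := hE.exists_series_infty hG
  obtain ⟨χ', E', hE', he', -⟩ := exists_conj_repG hG σ hE he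
  refine ⟨χ', fun F f hF hf => ?_⟩
  obtain ⟨χ'', F', hF', hf', hrel⟩ := exists_conj_repG hG σ hF hf
  exact ⟨F', conj_char_uniqueG hG σ hE he hF hf hE' he' hF' hf' ▸ hF', hf', hrel,
    fun B hB => cuspBound_conj hG hF' hrel hB⟩

/-- The conjugate character. -/
def autG (σ : ℂ ≃+* ℂ) (χ : ParG G (ZMod n)) : ParG G (ZMod n) := (exists_autG hG σ χ).choose

theorem autG_spec (σ : ℂ ≃+* ℂ) {χ : ParG G (ZMod n)} {F : ℍ → ℂ} {f : LaurentSeries ℂ}
    (hF : IsRepG G n χ F) (hf : HasQSeries M F f) :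
    ∃ F', IsRepG G n (autG hG σ χ) F' ∧ HasQSeries M F' (lmap σ.toRingHom f) ∧
      (∀ g g' h h', ConjEq M (cycC M σ) g g' → HasQSeries M (fun τ => F (g • τ)) h →
        HasQSeries M (fun τ => F' (g' • τ)) h' → h' ^ n = lmap σ.toRingHom h ^ n) ∧
      ∀ B, CuspBound M B F → CuspBound M B F' :=
  (exists_autG hG σ χ).choose_spec F f hF hf

theorem eq_autG (σ : ℂ ≃+* ℂ) {χ χ' : ParG G (ZMod n)} {F F' : ℍ → ℂ} {f : LaurentSeries ℂ}
    (hF : IsRepG G n χ F) (hf : HasQSeries M F f)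
    (hF' : IsRepG G n χ' F') (hf' : HasQSeries M F' (lmap σ.toRingHom f)) :
    χ' = autG hG σ χ := by
  obtain ⟨F'', h1, h2, -⟩ := autG_spec hG σ hF hf
  exact conj_char_uniqueG hG σ hF hf hF hf hF' hf' h1 h2

theorem autG_add (σ : ℂ ≃+* ℂ) (χ χ' : ParG G (ZMod n)) :
    autG hG σ (χ + χ') = autG hG σ χ + autG hG σ χ' := by
  obtain ⟨E, hE, -⟩ := exists_repG χ hG
  obtain ⟨e, he, -⟩ := hE.exists_series_infty hG
  obtain ⟨F, hF, -⟩ := exists_repG χ' hG
  obtain ⟨f, hf, -⟩ := hF.exists_series_infty hG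
  obtain ⟨E', hE', he', -⟩ := autG_spec hG σ hE he
  obtain ⟨F', hF', hf', -⟩ := autG_spec hG σ hF hf
  refine (eq_autG hG σ (hE.mul hF) (he.mul hf) (hE'.mul hF') ?_).symm
  rw [map_mul]
  exact he'.mul hf'

theorem autG_autG (σ τ : ℂ ≃+* ℂ) (χ : ParG G (ZMod n)) :
    autG hG σ (autG hG τ χ) = autG hG (τ.trans σ) χ := by
  obtain ⟨E, hE, -⟩ := exists_repG χ hG
  obtain ⟨e, he, -⟩ := hE.exists_series_infty hG
  obtain ⟨E', hE', he', -⟩ := autG_spec hG τ hE he
  obtain ⟨E'', hE'', he'', -⟩ := autG_spec hG σ hE' he'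
  refine eq_autG hG _ hE he hE'' ?_
  rw [lmap_lmap] at he''
  exact he''

theorem autG_refl (χ : ParG G (ZMod n)) : autG hG (RingEquiv.refl ℂ) χ = χ := by
  obtain ⟨E, hE, -⟩ := exists_repG χ hG
  obtain ⟨e, he, -⟩ := hE.exists_series_infty hG
  refine (eq_autG hG _ hE he hE ?_).symm
  have : lmap (RingEquiv.refl ℂ).toRingHom e = e := by ext; simp
  rwa [this]

theorem autG_symm (σ : ℂ ≃+* ℂ) (χ : ParG G (ZMod n)) :
    autG hG σ.symm (autG hG σ χ) = χ := by
  rw [autG_autG, RingEquiv.self_trans_symm, autG_refl]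

/-! ## Normalised representatives -/

omit hG in
omit [NeZero n] in
theorem series_coeff_eq_zero {F : ℍ → ℂ} {b : ℕ} (hb : CuspBound M b F)
    {f : LaurentSeries ℂ} (hf : HasQSeries M F f) {m : ℤ} (hm : m < -((b * M : ℕ) : ℤ)) :
    f.coeff m = 0 := by
  obtain ⟨h, hh, hc⟩ := hb 1
  simp only [one_smul] at hh
  rw [hf.unique (NeZero.pos M) hh]
  exact hc _ hm

omit hG in
/-- Normalised representative. -/
structure IsNormalG (M : ℕ) (χ : ParG G (ZMod n)) (F : ℍ → ℂ) (f : LaurentSeries ℂ) : Prop where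
  rep : IsRepG G n χ F
  bound : CuspBound M 1 F
  series : HasQSeries M F f
  ne_zero : f ≠ 0
  leading : f.coeff f.order = 1
  maximal : ∀ (F' : ℍ → ℂ) (f' : LaurentSeries ℂ), IsRepG G n χ F' → CuspBound M 1 F' →
    HasQSeries M F' f' → f' ≠ 0 → f'.order ≤ f.order

theorem exists_isNormalG (χ : ParG G (ZMod n)) :
    ∃ (F : ℍ → ℂ) (f : LaurentSeries ℂ), IsNormalG M χ F f := by
  classical
  let P : ℤ → Prop := fun d => ∃ (F : ℍ → ℂ) (f : LaurentSeries ℂ), IsRepG G n χ F ∧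
    CuspBound M 1 F ∧ HasQSeries M F f ∧ f ≠ 0 ∧ f.order = d
  obtain ⟨E, hE, hEb⟩ := exists_repG χ hG
  obtain ⟨e, he, he0⟩ := hE.exists_series_infty hG
  obtain ⟨d, ⟨F, f, hF, hFb, hf, hf0, rfl⟩, hmax⟩ := Int.exists_greatest_of_bdd (P := P)
    ⟨((Nat.card SL(2, ZMod M) * 1 * M : ℕ) : ℤ),
      fun z ⟨F, f, hF, hFb, hf, _, hz⟩ => hz ▸ order_le_of_repG hG hF hFb hf⟩
    ⟨_, E, e, hE, hEb, he, he0, rfl⟩
  have hc : f.coeff f.order ≠ 0 := fun h => hf0 (HahnSeries.coeff_order_eq_zero.mp h)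
  set c := (f.coeff f.order)⁻¹ with hcdef
  have hc0 : HahnSeries.C c * f ≠ 0 := mul_ne_zero (by simp [hcdef, hc]) hf0
  have hord : (HahnSeries.C c * f).order = f.order := by
    rw [HahnSeries.order_mul (by simp [hcdef, hc]) hf0, HahnSeries.C_apply,
      HahnSeries.order_single (inv_ne_zero hc), zero_add]
  refine ⟨fun τ => c * F τ, HahnSeries.C c * f, hF.const_mul (inv_ne_zero hc), ?_, hf.smul c, hc0,
    ?_, fun F' f' h1 h2 h3 h4 => ?_⟩
  · exact (CuspBound.const (N := M) c).mul hFb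
  · rw [hord, HahnSeries.C_mul_eq_smul, HahnSeries.coeff_smul, smul_eq_mul, hcdef,
      inv_mul_cancel₀ hc]
  · rw [hord]
    exact hmax _ ⟨F', f', h1, h2, h3, h4, rfl⟩

omit hG in
theorem IsNormalG.series_unique {χ : ParG G (ZMod n)} {F F' : ℍ → ℂ} {f f' : LaurentSeries ℂ}
    (h : IsNormalG M χ F f) (h' : IsNormalG M χ F' f') : f = f' := by
  by_contra hne
  have hord : f.order = f'.order := le_antisymm (h'.maximal _ _ h.rep h.bound h.series h.ne_zero)
    (h.maximal _ _ h'.rep h'.bound h'.series h'.ne_zero)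
  have hsub : f - f' ≠ 0 := sub_ne_zero.mpr hne
  have hFF : F - F' ≠ 0 := fun h0 => hsub ((h.series.sub h'.series).unique (NeZero.pos M)
    (h0 ▸ HasQSeries.zero M))
  have hle := h.maximal _ _ (h.rep.sub h'.rep hFF) (h.bound.sub h'.bound) (h.series.sub h'.series)
    hsub
  have : f.order + 1 ≤ (f - f').order := le_order_of_coeff hsub fun m hm => by
    rw [HahnSeries.coeff_sub]
    rcases (Int.lt_add_one_iff.mp hm).lt_or_eq with h1 | h1
    · rw [HahnSeries.coeff_eq_zero_of_lt_order h1,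
        HahnSeries.coeff_eq_zero_of_lt_order (hord ▸ h1), sub_zero]
    · rw [h1, h.leading, hord, h'.leading, sub_self]
  omega

/-- The normalised series. -/
def normalG (χ : ParG G (ZMod n)) : LaurentSeries ℂ :=
  (exists_isNormalG hG χ).choose_spec.choose

theorem exists_isNormalG_normalG (χ : ParG G (ZMod n)) :
    ∃ F, IsNormalG M χ F (normalG hG χ) :=
  ⟨_, (exists_isNormalG hG χ).choose_spec.choose_spec⟩

theorem lmap_normalG (σ : ℂ ≃+* ℂ) (χ : ParG G (ZMod n)) :
    lmap σ.toRingHom (normalG hG χ) = normalG hG (autG hG σ χ) := by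
  obtain ⟨F, hF⟩ := exists_isNormalG_normalG hG χ
  obtain ⟨F', hF', hf', -, hb⟩ := autG_spec hG σ hF.rep hF.series
  obtain ⟨F₁, hF₁⟩ := exists_isNormalG_normalG hG (autG hG σ χ)
  refine IsNormalG.series_unique (F := F') ⟨hF', hb 1 hF.bound, hf',
    fun h => hF.ne_zero (lmap_injective (φ := σ.toRingHom) σ.injective (h.trans (map_zero _).symm)),
    ?_, fun E g h1 h2 h3 h4 => ?_⟩ hF₁
  · rw [order_lmap (φ := σ.toRingHom) σ.injective, lmap_coeff, hF.leading, map_one]
  · obtain ⟨E', hE', hg', -, hb'⟩ := autG_spec hG σ.symm h1 h3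
    rw [autG_symm] at hE'
    have hle := hF.maximal _ _ hE' (hb' 1 h2) hg'
      (fun h => h4 (lmap_injective (φ := σ.symm.toRingHom) σ.symm.injective
        (h.trans (map_zero _).symm)))
    rwa [order_lmap (φ := σ.symm.toRingHom) σ.symm.injective,
      ← order_lmap (φ := σ.toRingHom) σ.injective (normalG hG χ)] at hle

theorem isAlgebraic_normalG (χ : ParG G (ZMod n)) (m : ℤ) :
    IsAlgebraic ℚ ((normalG hG χ).coeff m) := by
  have := finite_parG hG (n := n)
  refine isAlgebraic_of_finite_orbit ((Set.finite_range fun χ' : ParG G (ZMod n) =>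
    (normalG hG χ').coeff m).subset ?_)
  rintro _ ⟨σ, rfl⟩
  exact ⟨autG hG σ χ, by show (normalG hG (autG hG σ χ)).coeff m = σ _
                         rw [← lmap_normalG]; rfl⟩

theorem exists_algebraic_normalG (χ : ParG G (ZMod n)) :
    ∃ (F : ℍ → ℂ) (f : LaurentSeries (AlgebraicClosure ℚ)),
      IsNormalG M χ F (seriesToC f) := by
  obtain ⟨F, hF⟩ := exists_isNormalG_normalG hG χ
  obtain ⟨g, hg⟩ := exists_seriesToC_eq (isAlgebraic_normalG hG χ)
  exact ⟨F, g, hg ▸ hF⟩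

/-- Every class has a representative with algebraic coefficients. -/
theorem exists_algebraic_repG (χ : ParG G (ZMod n)) :
    ∃ (F : ℍ → ℂ) (f : LaurentSeries (AlgebraicClosure ℚ)),
      IsRepG G n χ F ∧ HasQSeries M F (seriesToC f) := by
  obtain ⟨F, f, hF⟩ := exists_algebraic_normalG hG χ
  exact ⟨F, f, hF.rep, hF.series⟩

theorem autG_eq_of_agree {σ τ : ℂ ≃+* ℂ} (h : ∀ x, σ (qbarToC x) = τ (qbarToC x))
    (χ : ParG G (ZMod n)) : autG hG σ χ = autG hG τ χ := by
  obtain ⟨F, f, hF, hf⟩ := exists_algebraic_repG hG χ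
  obtain ⟨F', hF', hf', -⟩ := autG_spec hG σ hF hf
  refine eq_autG hG τ hF hf hF' ?_
  have : lmap σ.toRingHom (seriesToC f) = lmap τ.toRingHom (seriesToC f) := by
    ext m; exact h _
  rwa [this] at hf'

/-- Agreement of enough coefficients forces equality of the characters. -/
theorem autG_eq_self {σ : ℂ ≃+* ℂ} {χ : ParG G (ZMod n)}
    (h : ∀ m : ℤ, -(M : ℤ) ≤ m → m ≤ ((Nat.card SL(2, ZMod M) * n * M + n * M : ℕ) : ℤ) →
      σ ((normalG hG χ).coeff m) = (normalG hG χ).coeff m) : autG hG σ χ = χ := by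
  obtain ⟨F, hF⟩ := exists_isNormalG_normalG hG χ
  obtain ⟨F', hF', hg, -, hb⟩ := autG_spec hG σ hF.rep hF.series
  set f := normalG hG χ
  set g := lmap σ.toRingHom f with hgdef
  have hFb' := hb 1 hF.bound
  have hf1 : ∀ m < -(M : ℤ), f.coeff m = 0 := fun m hm =>
    series_coeff_eq_zero hF.bound hF.series (by rwa [one_mul])
  have hg1 : ∀ m < -(M : ℤ), g.coeff m = 0 := fun m hm => by
    rw [hgdef, lmap_coeff, hf1 m hm, map_zero]
  set B : ℤ := ((Nat.card SL(2, ZMod M) * n * M + n * M : ℕ) : ℤ) with hB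
  have hdiff : ∀ m < B + 1, (f - g).coeff m = 0 := fun m hm => by
    rw [HahnSeries.coeff_sub]
    rcases lt_or_ge m (-(M : ℤ)) with h1 | h1
    · rw [hf1 m h1, hg1 m h1, sub_zero]
    · rw [hgdef, lmap_coeff]
      exact sub_eq_zero.mpr (h m h1 (by omega)).symm
  have hcp : ∀ {s : LaurentSeries ℂ}, (∀ m < -(M : ℤ), s.coeff m = 0) → ∀ (k : ℕ) (m : ℤ),
      m < -((k * M : ℕ) : ℤ) → (s ^ k).coeff m = 0 := by
    intro s hs k
    induction k with
    | zero => intro m hm; simp at hm; simp [HahnSeries.coeff_one, hm.ne]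
    | succ k ih =>
      intro m hm
      rw [pow_succ]
      exact coeff_mul_eq_zero ih hs (by push_cast at hm ⊢; linarith)
  have hpow : f ^ n = g ^ n := by
    by_contra hne
    have h0 : f ^ n - g ^ n ≠ 0 := sub_ne_zero.mpr hne
    set φ : MF M := powMF hG hF.rep - powMF hG hF'
    have hs : serAlg M φ = f ^ n - g ^ n :=
      (hasQSeries_serHom φ).unique (NeZero.pos M) ((hF.series.pow n).sub (hg.pow n))
    have hφ0 : φ ≠ 0 := fun e => h0 (by rw [← hs, e, map_zero])
    have hle := order_le_of_mf hφ0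
      ((hF.bound.pow n).sub (hFb'.pow n) : CuspBound M (n * 1) (φ : ℍ → ℂ))
    rw [hs, mul_one] at hle
    have hge : B + 1 + -(((n - 1) * M : ℕ) : ℤ) ≤ (f ^ n - g ^ n).order :=
      le_order_of_coeff h0 fun m hm => by
        rw [← geom_sum₂_mul, mul_comm]
        refine coeff_mul_eq_zero hdiff (b := -(((n - 1) * M : ℕ) : ℤ)) (fun j hj => ?_) hm
        rw [HahnSeries.coeff_sum]
        refine Finset.sum_eq_zero fun i hi => coeff_mul_eq_zero (hcp hf1 i)
          (hcp hg1 (n - 1 - i)) ?_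
        have h1 := Finset.mem_range.mp hi
        have h2 : i * M + (n - 1 - i) * M = (n - 1) * M := by rw [← add_mul]; congr 1; omega
        omega
    have hMn : (n - 1) * M ≤ n * M := Nat.mul_le_mul_right _ (Nat.sub_le n 1)
    rw [hB] at hge
    omega
  obtain ⟨ω, hωn, hω⟩ := exists_root_unity_of_pow_eq (a := g) (b := f) hF.ne_zero hpow.symm
  have hω0 : ω ≠ 0 := fun h0 => by simp [h0, zero_pow (NeZero.ne n)] at hωn
  have hrep := hF.rep.const_mul hω0
  have : F' = fun τ => ω * F τ :=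
    eq_of_hasQSeries hF'.holo hrep.holo (hω ▸ hg) (hF.series.smul ω)
  exact hF'.char_unique (this ▸ hrep)

theorem exists_finite_levelG :
    ∃ L : IntermediateField ℚ (AlgebraicClosure ℚ), FiniteDimensional ℚ L ∧
      ∀ s : GQ, (∀ x ∈ L, s x = x) → ∀ χ : ParG G (ZMod n), autG hG (liftAut s) χ = χ := by
  have := finite_parG hG (n := n)
  choose y hy using fun (p : ParG G (ZMod n) × ℤ) =>
    exists_qbarToC_eq (isAlgebraic_normalG hG p.1 p.2)
  set S : Set (AlgebraicClosure ℚ) := y '' (Set.univ ×ˢ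
    Set.Icc (-(M : ℤ)) ((Nat.card SL(2, ZMod M) * n * M + n * M : ℕ) : ℤ)) with hS
  have : Finite S := (Set.Finite.image y (Set.finite_univ.prod (Set.finite_Icc _ _))).to_subtype
  refine ⟨IntermediateField.adjoin ℚ S,
    IntermediateField.finiteDimensional_adjoin fun x _ =>
      (Algebra.IsAlgebraic.isAlgebraic x).isIntegral, fun s hs χ => ?_⟩
  refine autG_eq_self hG fun m h1 h2 => ?_
  rw [← hy (χ, m), liftAut_spec, hs _ (IntermediateField.subset_adjoin ℚ _
    ⟨(χ, m), ⟨trivial, h1, h2⟩, rfl⟩)]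

/-! ## The Galois action -/

omit hG in
/-- The Galois action on `ParG G (ℤ/n)`. -/
def galG (hG : IsLevel M G) (n : ℕ) [NeZero n] : GQ →* Module.End ℤ (ParG G (ZMod n)) where
  toFun s := (AddMonoidHom.mk' (autG hG (liftAut s)) (autG_add hG (liftAut s))).toIntLinearMap
  map_one' := LinearMap.ext fun χ => by
    show autG hG (liftAut 1) χ = χ
    rw [autG_eq_of_agree hG (τ := RingEquiv.refl ℂ) (fun x => ?_), autG_refl]
    rw [liftAut_spec]; rfl
  map_mul' s t := LinearMap.ext fun χ => by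
    show autG hG (liftAut (s * t)) χ = autG hG (liftAut s) (autG hG (liftAut t) χ)
    rw [autG_autG]
    refine autG_eq_of_agree hG (fun x => ?_) χ
    rw [RingEquiv.trans_apply, liftAut_spec, liftAut_spec, liftAut_spec]
    rfl

theorem galG_eq_autG (s : GQ) (χ : ParG G (ZMod n)) :
    galG hG n s χ = autG hG (liftAut s) χ := rfl

theorem galG_continuous : ∃ L : IntermediateField ℚ (AlgebraicClosure ℚ), FiniteDimensional ℚ L ∧
    ∀ s : GQ, (∀ x ∈ L, s x = x) → galG hG n s = 1 := by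
  obtain ⟨L, hL, h⟩ := exists_finite_levelG hG (n := n)
  exact ⟨L, hL, fun s hs => LinearMap.ext fun χ => h s hs χ⟩

theorem galG_spec (s : GQ) {χ : ParG G (ZMod n)} {F : ℍ → ℂ}
    {f : LaurentSeries (AlgebraicClosure ℚ)} (hF : IsRepG G n χ F)
    (hf : HasQSeries M F (seriesToC f)) :
    ∃ F', IsRepG G n (galG hG n s χ) F' ∧ HasQSeries M F' (seriesToC (seriesConj s f)) := by
  obtain ⟨F', hF', hf', -⟩ := autG_spec hG (liftAut s) hF hf
  exact ⟨F', hF', by rwa [lmap_seriesToC (liftAut_spec s)] at hf'⟩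

theorem eq_galG (s : GQ) {χ χ' : ParG G (ZMod n)} {F F' : ℍ → ℂ}
    {f : LaurentSeries (AlgebraicClosure ℚ)} (hF : IsRepG G n χ F)
    (hf : HasQSeries M F (seriesToC f)) (hF' : IsRepG G n χ' F')
    (hf' : HasQSeries M F' (seriesToC (seriesConj s f))) : χ' = galG hG n s χ := by
  rw [galG_eq_autG]
  exact eq_autG hG _ hF hf hF' (by rwa [lmap_seriesToC (liftAut_spec s)])

omit hG

theorem galG_mono {M' : ℕ} [NeZero M'] (hd : M ∣ M') (hG : IsLevel M G) (hG' : IsLevel M' G) :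
    galG hG n = galG hG' n := by
  obtain ⟨k, rfl⟩ := hd
  have hk : k ≠ 0 := fun h => NeZero.ne (M * k) (by simp [h])
  refine MonoidHom.ext fun s => LinearMap.ext fun χ => ?_
  obtain ⟨F, hF, -⟩ := exists_repG χ hG
  obtain ⟨f, hf, -⟩ := hF.exists_series_infty hG
  obtain ⟨F', hF', hf', -⟩ := autG_spec hG (liftAut s) hF hf
  rw [galG_eq_autG, galG_eq_autG]
  refine eq_autG hG' _ hF (hf.refine_width (NeZero.pos M) k hk) hF' ?_
  rw [lmap_expand]
  exact hf'.refine_width (NeZero.pos M) k hk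

/-- The action does not depend on the level. -/
theorem galG_congr {M' : ℕ} [NeZero M'] (hG : IsLevel M G) (hG' : IsLevel M' G) :
    galG hG n = galG hG' n := by
  have : NeZero (M * M') := ⟨mul_ne_zero (NeZero.ne M) (NeZero.ne M')⟩
  rw [galG_mono (dvd_mul_right M M') hG (hG.of_dvd (dvd_mul_right M M')),
    galG_mono (dvd_mul_left M' M) hG' (hG.of_dvd (dvd_mul_right M M'))]

/-- Agreement with the action at level `Γ₀(N)`. -/
theorem galG_eq_kummer (N : ℕ) [NeZero N] (s : GQ) (χ : ParHom N (ZMod n)) :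
    galG (isLevel_gamma0 N) n s χ = (kummerGalois N n).galois s χ := by
  obtain ⟨F, f, hF, hf⟩ := (kummerGalois N n).exists_algebraic χ
  obtain ⟨F', hF', hf'⟩ := (kummerGalois N n).galois_spec s χ F f hF hf
  have h1 := hf.refine_width one_pos N (NeZero.ne N)
  have h2 := hf'.refine_width one_pos N (NeZero.ne N)
  rw [one_mul] at h1 h2
  rw [← lmap_seriesToC (liftAut_spec s), ← lmap_expand] at h2
  rw [galG_eq_autG]
  exact (eq_autG (isLevel_gamma0 N) _ (χ := χ) (F := F)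
    ⟨hF.holo, hF.ne_zero, hF.equivariant, hF.cusps⟩ h1
    (χ' := (kummerGalois N n).galois s χ) (F' := F')
    ⟨hF'.holo, hF'.ne_zero, hF'.equivariant, hF'.cusps⟩ h2).symm

/-- Compatibility with reduction of coefficients. -/
theorem galG_cast {m : ℕ} [NeZero m] (hmn : m ∣ n) (hG : IsLevel M G) (s : GQ)
    (χ : ParG G (ZMod n)) (χ' : ParG G (ZMod m))
    (h : (χ' : Additive G →+ ZMod m) =
      (ZMod.castHom hmn (ZMod m)).toAddMonoidHom.comp (χ : Additive G →+ ZMod n)) :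
    ((galG hG m s χ' : ParG G (ZMod m)) : Additive G →+ ZMod m) =
      (ZMod.castHom hmn (ZMod m)).toAddMonoidHom.comp
        ((galG hG n s χ : ParG G (ZMod n)) : Additive G →+ ZMod n) := by
  obtain ⟨k, rfl⟩ := hmn
  have hcast : ∀ (a : ZMod (m * k)),
      ZMod.stdAddChar a ^ k = ZMod.stdAddChar (ZMod.castHom (Dvd.intro k rfl) (ZMod m) a) := by
    intro a
    have hk : (k : ℂ) ≠ 0 := Nat.cast_ne_zero.mpr fun h0 => NeZero.ne (m * k) (by simp [h0])
    obtain ⟨j, rfl⟩ := ZMod.intCast_surjective a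
    rw [map_intCast (ZMod.castHom (Dvd.intro k rfl) (ZMod m)), ZMod.stdAddChar_coe,
      ZMod.stdAddChar_coe, ← Complex.exp_nat_mul]
    congr 1
    have : (m : ℂ) ≠ 0 := Nat.cast_ne_zero.mpr (NeZero.ne m)
    push_cast
    field_simp
  have key : ∀ {ψ : ParG G (ZMod (m * k))} {F : ℍ → ℂ}, IsRepG G (m * k) ψ F →
      ∀ ψ' : ParG G (ZMod m), ((ψ' : Additive G →+ ZMod m) =
        (ZMod.castHom (Dvd.intro k rfl) (ZMod m)).toAddMonoidHom.comp
          (ψ : Additive G →+ ZMod (m * k))) → IsRepG G m ψ' (F ^ k) :=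
    fun {ψ F} hF ψ' hψ => ⟨(hF.pow k).holo, (hF.pow k).ne_zero, fun γ τ => by
      show F _ ^ k = _ * F τ ^ k
      rw [hF.equivariant, mul_pow, hcast, hψ]
      rfl, (hF.pow k).cusps⟩
  obtain ⟨F, hF, -⟩ := exists_repG χ hG
  obtain ⟨f, hf, -⟩ := hF.exists_series_infty hG
  obtain ⟨F', hF', hf', -⟩ := autG_spec hG (liftAut s) hF hf
  set c := (ZMod.castHom (Dvd.intro k rfl) (ZMod m) : ZMod (m * k) →+* ZMod m).toAddMonoidHom.comp
    ((autG hG (liftAut s) χ : ParG G (ZMod (m * k))) : Additive G →+ ZMod (m * k))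
  have hc : c ∈ ParG G (ZMod m) := fun γ hγ => by
    show (ZMod.castHom (Dvd.intro k rfl) (ZMod m)) _ = 0
    rw [(autG hG (liftAut s) χ).2 γ hγ, map_zero]
  have := eq_autG hG (liftAut s) (key hF χ' h) (hf.pow k) (key hF' ⟨c, hc⟩ rfl)
    (by rw [map_pow]; exact hf'.pow k)
  exact (congrArg Subtype.val this).symm

end Fermat.Agent.GalRep.Level
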