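/-
The Galois action and transfers: pullback, restriction, corestriction, `T_ℓ`, `U_q`, `W_q`.
-/
import Fermat.Agent.GalRep.Level.Galois
import Fermat.Agent.GalRep.KummerHecke

set_option autoImplicit false

noncomputable section

namespace Fermat.Agent.GalRep.Level

open UpperHalfPlane CongruenceSubgroup Filter Topology
open Fermat.Agent.Galois (GQ)
open scoped MatrixGroups Manifold

variable {ι : Type} [Fintype ι]

/-- The multiplicative transfer of a function. -/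
def transferProd (β : ι → Matrix (Fin 2) (Fin 2) ℤ) (hβ : ∀ i, 0 < (β i).det) (F : ℍ → ℂ) :
    ℍ → ℂ :=
  ∏ i, fun τ => F (posMat (β i) (hβ i) • τ)

variable {M : ℕ} [NeZero M] {G G' : Subgroup SL(2, ℤ)} {n : ℕ} [NeZero n]

omit [NeZero M] in
theorem transferProd_smul {β : ι → Matrix (Fin 2) (Fin 2) ℤ} (hβ : ∀ i, 0 < (β i).det)
    {χ : ParG G (ZMod n)} {F : ℍ → ℂ} (hF : IsRepG G n χ F) (γ : SL(2, ℤ)) (e : Equiv.Perm ι)
    (g : ι → G) (h : ∀ i, β i * (γ : Matrix (Fin 2) (Fin 2) ℤ) =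
      ((g i : SL(2, ℤ)) : Matrix (Fin 2) (Fin 2) ℤ) * β (e i)) (τ : ℍ) :
    transferProd β hβ F (γ • τ) =
      ZMod.stdAddChar (∑ i, (χ : Additive G →+ ZMod n) (Additive.ofMul (g i))) *
        transferProd β hβ F τ := by
  rw [addChar_sum]
  simp only [transferProd, Finset.prod_apply]
  have hstep : ∀ i, F (posMat (β i) (hβ i) • (γ • τ)) =
      ZMod.stdAddChar ((χ : Additive G →+ ZMod n) (Additive.ofMul (g i))) *
        F (posMat (β (e i)) (hβ (e i)) • τ) := fun i => by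
    rw [posMat_smul_eq (hβ i) (hβ (e i)) _ _ (h i) τ, hF.equivariant]
  simp only [hstep, Finset.prod_mul_distrib]
  congr 1
  exact Equiv.prod_comp e fun i => F (posMat (β i) (hβ i) • τ)

omit [NeZero M] in
theorem transferProd_holo {β : ι → Matrix (Fin 2) (Fin 2) ℤ} (hβ : ∀ i, 0 < (β i).det)
    {χ : ParG G (ZMod n)} {F : ℍ → ℂ} (hF : IsRepG G n χ F) :
    MDifferentiable 𝓘(ℂ) 𝓘(ℂ) (transferProd β hβ F) ∧ transferProd β hβ F ≠ 0 :=
  prod_holo (Finset.univ : Finset ι) (F := fun i τ => F (posMat (β i) (hβ i) • τ)) fun i _ =>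
    ⟨mdifferentiable_comp_posMat hF.holo _ _, fun h0 => hF.ne_zero (funext fun τ => by
      have h1 := congrFun h0 ((posMat (β i) (hβ i))⁻¹ • τ)
      simp only [smul_inv_smul, Pi.zero_apply] at h1
      exact h1)⟩

omit [NeZero M] in
theorem transferProd_rep {β : ι → Matrix (Fin 2) (Fin 2) ℤ} (hβ : ∀ i, 0 < (β i).det)
    {χ : ParG G (ZMod n)} {χ' : ParG G' (ZMod n)} {F : ℍ → ℂ} (hF : IsRepG G n χ F)
    (h : IsTransfer G G' β (χ : Additive G →+ ZMod n) (χ' : Additive G' →+ ZMod n)) :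
    IsRepG G' n χ' (transferProd β hβ F) :=
  ⟨(transferProd_holo hβ hF).1, (transferProd_holo hβ hF).2, fun γ τ => by
    obtain ⟨e, g, heq, hsum⟩ := h γ
    rw [hsum]
    exact transferProd_smul hβ hF γ e g heq τ,
  hasSeriesAtCusps_prod _ fun i _ => hasSeriesAtCusps_comp_posMat hF.cusps _ _⟩

theorem det_upper_decomp (g : SL(2, ℤ)) (α δ : ℕ) (b : ℤ) :
    ((g : Matrix (Fin 2) (Fin 2) ℤ) * !![(α : ℤ), b; 0, (δ : ℤ)]).det = (α : ℤ) * δ := by
  rw [Matrix.det_mul, g.det_coe, Matrix.det_fin_two_of, one_mul, mul_zero, sub_zero]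

omit [NeZero M] in
theorem ConjRep.det_eq {K : ℕ} {a : (ZMod K)ˣ} {β β' : Matrix (Fin 2) (Fin 2) ℤ}
    (h : ConjRep M K a β β') : β'.det = β.det := by
  obtain ⟨g, g', α, δ, b, b', -, -, -, -, -, rfl, rfl⟩ := h
  rw [det_upper_decomp, det_upper_decomp]

omit [NeZero M] in
/-- The series of `F ∘ (g·u)` from that of `F ∘ g`. -/
theorem hasQSeries_comp_upper (hM : 0 < M) {F : ℍ → ℂ} (g : SL(2, ℤ)) {α δ : ℕ} (hα : 0 < α)
    (hδ : 0 < δ) (b : ℤ) (hdet : 0 < ((g : Matrix (Fin 2) (Fin 2) ℤ) * !![(α : ℤ), b; 0, (δ : ℤ)]).det)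
    {h : LaurentSeries ℂ} (hh : HasQSeries M (fun τ => F (g • τ)) h) {k : ℕ} (hk : k ≠ 0) :
    HasQSeries (M * δ * k) (fun τ => F (posMat _ hdet • τ))
      (expand k hk (expand α hα.ne' (twist (Units.mk0
        (Complex.exp (2 * Real.pi * Complex.I * b / (δ * M : ℕ))) (Complex.exp_ne_zero _)) h))) := by
  have hu : 0 < (!![(α : ℤ), b; 0, (δ : ℤ)] : Matrix (Fin 2) (Fin 2) ℤ).det :=
    det_upper_pos b hα hδ
  have e : ∀ τ, posMat _ hdet • τ = g • (posMat _ hu • τ) := fun τ => by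
    have := posMat_smul_eq hdet hu 1 g (by
      rw [Matrix.SpecialLinearGroup.coe_one, mul_one]) τ
    rwa [one_smul] at this
  refine ((hh.comp_affine hM α δ hα.ne' hδ b (fun τ => posMat _ hu • τ)
    (fun τ => by rw [coe_posMat_smul]; simp) _ ?_).refine_width (Nat.mul_pos hM hδ) k hk).congr
      (.of_forall fun τ => by rw [e])
  rw [Units.val_mk0]

theorem exists_series_conjRep (hG : IsLevel M G) {K : ℕ} [NeZero K] (σ : ℂ ≃+* ℂ)
    {χ χ' : ParG G (ZMod n)} {F F' : ℍ → ℂ} (hF : IsRepG G n χ F) (hF' : IsRepG G n χ' F')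
    (hrel : ∀ g g' h h', ConjEq M (cycC M σ) g g' → HasQSeries M (fun τ => F (g • τ)) h →
      HasQSeries M (fun τ => F' (g' • τ)) h' → h' ^ n = lmap σ.toRingHom h ^ n)
    {β β' : Matrix (Fin 2) (Fin 2) ℤ} (hβ : 0 < β.det) (hβ' : 0 < β'.det)
    (hc : ConjRep M K (cycC K σ) β β') :
    ∃ (s : LaurentSeries ℂ) (ω : ℂ), ω ≠ 0 ∧ HasQSeries K (fun τ => F (posMat β hβ • τ)) s ∧
      HasQSeries K (fun τ => F' (posMat β' hβ' • τ))
        (HahnSeries.C ω * lmap σ.toRingHom s) := by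
  obtain ⟨g, g', α, δ, b, b', hα, hδ, hK, hgg, hbb, rfl, rfl⟩ := hc
  obtain ⟨k, hk⟩ := hK
  subst hk
  have hMd : M ∣ M * δ * k := dvd_mul_of_dvd_left (dvd_mul_right M δ) k
  have hk0 : k ≠ 0 := fun h0 => NeZero.ne (M * δ * k) (by simp [h0])
  have hgg' : ConjEq M (cycC M σ) g g' := by
    have := hgg hMd
    rwa [cycC_castHom hMd σ] at this
  obtain ⟨h, hh, hh0⟩ := hF.exists_series hG g
  obtain ⟨h', hh', hh'0⟩ := hF'.exists_series hG g'
  have hσh0 : lmap σ.toRingHom h ≠ 0 := fun h0 =>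
    hh0 (lmap_injective (φ := σ.toRingHom) σ.injective (h0.trans (map_zero _).symm))
  obtain ⟨ω, hωn, hω⟩ := exists_root_unity_of_pow_eq (n := n) hσh0 (hrel g g' h h' hgg' hh hh')
  have hω0 : ω ≠ 0 := fun h0 => by simp [h0, zero_pow (NeZero.ne n)] at hωn
  refine ⟨_, ω, hω0, hasQSeries_comp_upper (NeZero.pos M) g hα hδ b hβ hh hk0, ?_⟩
  have h2 := hasQSeries_comp_upper (NeZero.pos M) g' hα hδ b' hβ' hh' hk0
  set ζ : ℂˣ := Units.mk0 (Complex.exp (2 * Real.pi * Complex.I * b / (δ * M : ℕ)))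
    (Complex.exp_ne_zero _)
  set ζ' : ℂˣ := Units.mk0 (Complex.exp (2 * Real.pi * Complex.I * b' / (δ * M : ℕ)))
    (Complex.exp_ne_zero _)
  have hζ : Units.map ((σ.toRingHom : ℂ →+* ℂ) : ℂ →* ℂ) ζ = ζ' := by
    ext
    simp only [ζ, ζ', Units.coe_map, Units.val_mk0, MonoidHom.coe_coe]
    have hexp : ∀ x : ℤ, Complex.exp (2 * Real.pi * Complex.I * x / (δ * M : ℕ)) =
        Model.zetaC (M * δ * k) ^ ((k : ℤ) * x) := fun x => by
      rw [Model.zetaC, ← Complex.exp_int_mul]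
      congr 1
      have hk' : (k : ℂ) ≠ 0 := Nat.cast_ne_zero.mpr hk0
      have hd' : (δ : ℂ) ≠ 0 := Nat.cast_ne_zero.mpr hδ.ne'
      have hM' : (M : ℂ) ≠ 0 := Nat.cast_ne_zero.mpr (NeZero.ne M)
      push_cast
      field_simp
    show σ _ = _
    rw [hexp, hexp, map_zpow₀, cycC_spec σ (zetaC_pow (M * δ * k)), ← zpow_natCast, ← zpow_mul]
    set a := (cycC (M * δ * k) σ : ZMod (M * δ * k))
    have hdvd : ((M * δ * k : ℕ) : ℤ) ∣ (k : ℤ) * b' - (a.val : ℤ) * ((k : ℤ) * b) := by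
      rw [← ZMod.intCast_zmod_eq_zero_iff_dvd]
      push_cast
      rw [hbb, ZMod.natCast_val, ZMod.cast_id]
      ring
    have h1 := (zetaC_zpow_eq_one_iff (M := M * δ * k) _).mpr hdvd
    have hz0 : Model.zetaC (M * δ * k) ≠ 0 := Complex.exp_ne_zero _
    rw [zpow_sub₀ hz0, div_eq_one_iff_eq (zpow_ne_zero _ hz0)] at h1
    exact h1.symm
  convert h2 using 1
  rw [hω, lmap_expand, lmap_expand, lmap_twist, hζ, map_mul, map_mul, map_mul]
  have hC : ∀ (ξ : ℂˣ) (x : ℂ), twist ξ (HahnSeries.C x) = HahnSeries.C x := fun ξ x => by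
    ext m
    rcases eq_or_ne m 0 with rfl | hm <;> simp [*]
  have hE : ∀ (c : ℕ) (hc : c ≠ 0) (x : ℂ), expand c hc (HahnSeries.C x) = HahnSeries.C x :=
    fun c hc x => by
      ext m
      by_cases hm : (c : ℤ) ∣ m
      · obtain ⟨j, rfl⟩ := hm
        rw [expand_coeff_mul]
        rcases eq_or_ne j 0 with rfl | hj <;> simp [*]
      · rw [expand_coeff_of_not_dvd _ _ _ _ hm]
        have : m ≠ 0 := fun h0 => hm (h0 ▸ dvd_zero _)
        simp [this]
  rw [hC, hE, hE]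

/-- The Galois action commutes with transfers, the matrices being conjugated. -/
theorem galG_transfer (hG : IsLevel M G) (hG' : IsLevel M G') {K : ℕ} [NeZero K] (hMK : M ∣ K)
    (s : GQ) {β β' : ι → Matrix (Fin 2) (Fin 2) ℤ} (hβ : ∀ i, 0 < (β i).det)
    (hconj : ∀ i, ConjRep M K (cycM K s) (β i) (β' i))
    (hex : ∀ γ : G', ∃ (e : Equiv.Perm ι) (g : ι → G), ∀ i,
      β' i * ((γ : SL(2, ℤ)) : Matrix (Fin 2) (Fin 2) ℤ) =
        ((g i : SL(2, ℤ)) : Matrix (Fin 2) (Fin 2) ℤ) * β' (e i))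
    {χ : ParG G (ZMod n)} {χ' : ParG G' (ZMod n)}
    (h : IsTransfer G G' β (χ : Additive G →+ ZMod n) (χ' : Additive G' →+ ZMod n)) :
    IsTransfer G G' β' ((galG hG n s χ : ParG G (ZMod n)) : Additive G →+ ZMod n)
      ((galG hG' n s χ' : ParG G' (ZMod n)) : Additive G' →+ ZMod n) := by
  classical
  have hβ' : ∀ i, 0 < (β' i).det := fun i => by rw [(hconj i).det_eq]; exact hβ i
  obtain ⟨F, hF, -⟩ := exists_repG χ hG
  obtain ⟨f, hf, -⟩ := hF.exists_series_infty hG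
  obtain ⟨F', hF', -, hrel, -⟩ := autG_spec hG (liftAut s) hF hf
  choose S ω hω0 hS hS' using fun i => exists_series_conjRep hG (K := K) (liftAut s) hF hF' hrel
    (hβ i) (hβ' i) (by rw [cycC_liftAut]; exact hconj i)
  have hH := transferProd_rep hβ hF h
  obtain ⟨H', hH', hH's, -⟩ := autG_spec (hG'.of_dvd hMK) (liftAut s) hH
    (HasQSeries.prod (w := K) Finset.univ fun i _ => hS i)
  set c : ℂ := ∏ i, ω i
  have hprod : transferProd β' hβ' F' = fun τ => c * H' τ := by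
    refine eq_of_hasQSeries (w := K) (transferProd_holo hβ' hF').1 (hH'.const_mul ?_).holo
      (HasQSeries.prod (w := K) Finset.univ fun i _ => hS' i) ?_
    · exact Finset.prod_ne_zero_iff.mpr fun i _ => hω0 i
    · rw [Finset.prod_mul_distrib, ← map_prod, ← map_prod]
      exact hH's.smul c
  intro γ
  obtain ⟨e, g, heq⟩ := hex γ
  refine ⟨e, g, heq, ?_⟩
  obtain ⟨τ, hτ⟩ := Function.ne_iff.mp (transferProd_holo hβ' hF').2
  refine ZMod.injective_stdAddChar (mul_right_cancel₀ hτ ?_)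
  have h3 : galG hG' n s χ' = autG (hG'.of_dvd hMK) (liftAut s) χ' := by
    rw [galG_mono hMK hG' (hG'.of_dvd hMK), galG_eq_autG]
  rw [h3, galG_eq_autG hG, ← transferProd_smul hβ' hF' γ e g heq τ, hprod]
  show ZMod.stdAddChar _ * (c * H' τ) = c * H' _
  rw [hH'.equivariant γ τ]
  ring

/-- Transfers whose matrices are permuted modulo `G` by the conjugation commute with Galois. -/
theorem galG_transfer_perm (hG : IsLevel M G) (hG' : IsLevel M G') {K : ℕ} [NeZero K]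
    (hMK : M ∣ K) (s : GQ) {β β' : ι → Matrix (Fin 2) (Fin 2) ℤ} (hβ : ∀ i, 0 < (β i).det)
    (hconj : ∀ i, ConjRep M K (cycM K s) (β i) (β' i)) (π : Equiv.Perm ι) (c : ι → G)
    (hπ : ∀ i, β' i = ((c i : SL(2, ℤ)) : Matrix (Fin 2) (Fin 2) ℤ) * β (π i))
    {χ : ParG G (ZMod n)} {χ' : ParG G' (ZMod n)}
    (h : IsTransfer G G' β (χ : Additive G →+ ZMod n) (χ' : Additive G' →+ ZMod n)) :
    IsTransfer G G' β ((galG hG n s χ : ParG G (ZMod n)) : Additive G →+ ZMod n)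
      ((galG hG' n s χ' : ParG G' (ZMod n)) : Additive G' →+ ZMod n) := by
  have hex : ∀ γ : G', ∃ (e : Equiv.Perm ι) (g : ι → G), ∀ i,
      β' i * ((γ : SL(2, ℤ)) : Matrix (Fin 2) (Fin 2) ℤ) =
        ((g i : SL(2, ℤ)) : Matrix (Fin 2) (Fin 2) ℤ) * β' (e i) := fun γ => by
    obtain ⟨e, g, heq, -⟩ := h γ
    refine ⟨(π.trans e).trans π.symm, fun i => c i * g (π i) * (c (π.symm (e (π i))))⁻¹,
      fun i => ?_⟩
    simp only [Equiv.trans_apply, hπ, Equiv.apply_symm_apply, Subgroup.coe_mul,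
      Subgroup.coe_inv, Matrix.SpecialLinearGroup.coe_mul, mul_assoc, heq]
    rw [← mul_assoc ((((c (π.symm (e (π i))) : SL(2, ℤ))⁻¹ : SL(2, ℤ))) :
      Matrix (Fin 2) (Fin 2) ℤ), ← Matrix.SpecialLinearGroup.coe_mul, inv_mul_cancel,
      Matrix.SpecialLinearGroup.coe_one, one_mul]
  have key := galG_transfer hG hG' hMK s hβ hconj hex h
  intro γ
  obtain ⟨e, g, heq, hsum⟩ := key γ
  refine ⟨(π.symm.trans e).trans π,
    fun i => (c (π.symm i))⁻¹ * g (π.symm i) * c (e (π.symm i)), fun i => ?_, ?_⟩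
  · simp only [Equiv.trans_apply, Subgroup.coe_mul, Subgroup.coe_inv,
      Matrix.SpecialLinearGroup.coe_mul, mul_assoc, ← hπ, ← heq]
    rw [hπ, ← mul_assoc, ← mul_assoc, ← Matrix.SpecialLinearGroup.coe_mul, inv_mul_cancel,
      Matrix.SpecialLinearGroup.coe_one, one_mul, Equiv.apply_symm_apply]
  · rw [hsum]
    simp only [ofMul_mul, ofMul_inv, map_add, map_neg, Finset.sum_add_distrib,
      Finset.sum_neg_distrib]
    rw [Equiv.sum_comp π.symm fun i => (galG hG n s χ : ParG G (ZMod n)).1 (Additive.ofMul (g i)),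
      Equiv.sum_comp π.symm fun i => (galG hG n s χ : ParG G (ZMod n)).1 (Additive.ofMul (c i)),
      Equiv.sum_comp π.symm fun i =>
        (galG hG n s χ : ParG G (ZMod n)).1 (Additive.ofMul (c (e i))),
      Equiv.sum_comp e fun i => (galG hG n s χ : ParG G (ZMod n)).1 (Additive.ofMul (c i))]
    abel

/-- `σ (g v) = g^a σ v`, and (co)restriction: transfers along elements of `SL(2,ℤ)`. -/
theorem galG_coset (hG : IsLevel M G) (hG' : IsLevel M G') (s : GQ) {g g' : ι → SL(2, ℤ)}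
    (hgg : ∀ i, ConjEq M (cycM M s) (g i) (g' i)) {χ : ParG G (ZMod n)} {χ' : ParG G' (ZMod n)}
    (h : IsTransfer G G' (fun i => (g i : Matrix (Fin 2) (Fin 2) ℤ))
      (χ : Additive G →+ ZMod n) (χ' : Additive G' →+ ZMod n)) :
    IsTransfer G G' (fun i => (g' i : Matrix (Fin 2) (Fin 2) ℤ))
      ((galG hG n s χ : ParG G (ZMod n)) : Additive G →+ ZMod n)
      ((galG hG' n s χ' : ParG G' (ZMod n)) : Additive G' →+ ZMod n) := by
  refine galG_transfer hG hG' (dvd_refl M) s (fun i => by simp [(g i).det_coe])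
    (fun i => ⟨g i, g' i, 1, 1, 0, 0, one_pos, one_pos, by simp, fun hd => by
      rw [cycM_castHom hd s]; exact hgg i, by simp, ?_, ?_⟩) (fun γ => ?_) h
  · rw [show !![((1 : ℕ) : ℤ), 0; 0, ((1 : ℕ) : ℤ)] = 1 from by
      ext i j; fin_cases i <;> fin_cases j <;> simp, mul_one]
  · rw [show !![((1 : ℕ) : ℤ), 0; 0, ((1 : ℕ) : ℤ)] = 1 from by
      ext i j; fin_cases i <;> fin_cases j <;> simp, mul_one]
  · obtain ⟨γ₀, hγ₀⟩ := exists_conjEq_symm (cycM M s) (γ : SL(2, ℤ))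
    obtain ⟨e, c, heq, -⟩ := h ⟨γ₀, (hG'.conj_iff hγ₀).mpr γ.2⟩
    have hc : ∀ i, g i * γ₀ * (g (e i))⁻¹ = (c i : SL(2, ℤ)) := fun i => by
      rw [mul_inv_eq_iff_eq_mul]
      exact Subtype.ext (heq i)
    refine ⟨e, fun i => ⟨g' i * γ * (g' (e i))⁻¹,
      hG.conj_mem _ _ _ (((hgg i).mul hγ₀).mul (hgg (e i)).inv) (by rw [hc]; exact (c i).2)⟩,
      fun i => ?_⟩
    show (g' i : Matrix (Fin 2) (Fin 2) ℤ) * ((γ : SL(2, ℤ)) : Matrix (Fin 2) (Fin 2) ℤ) =
      ((g' i * γ * (g' (e i))⁻¹ : SL(2, ℤ)) : Matrix (Fin 2) (Fin 2) ℤ) *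
        (g' (e i) : Matrix (Fin 2) (Fin 2) ℤ)
    rw [← Matrix.SpecialLinearGroup.coe_mul, ← Matrix.SpecialLinearGroup.coe_mul,
      inv_mul_cancel_right]

/-- Pullback along an element of `SL(2,ℤ)`: `σ (g v) = g^a σ v`. -/
theorem galG_pull (hG : IsLevel M G) (hG' : IsLevel M G') (s : GQ) {g g' : SL(2, ℤ)}
    (hgg : ConjEq M (cycM M s) g g') {χ : ParG G (ZMod n)} {χ' : ParG G' (ZMod n)}
    (h : IsTransfer G G' (fun _ : Unit => (g : Matrix (Fin 2) (Fin 2) ℤ))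
      (χ : Additive G →+ ZMod n) (χ' : Additive G' →+ ZMod n)) :
    IsTransfer G G' (fun _ : Unit => (g' : Matrix (Fin 2) (Fin 2) ℤ))
      ((galG hG n s χ : ParG G (ZMod n)) : Additive G →+ ZMod n)
      ((galG hG' n s χ' : ParG G' (ZMod n)) : Additive G' →+ ZMod n) :=
  galG_coset hG hG' s (g := fun _ : Unit => g) (g' := fun _ : Unit => g') (fun _ => hgg) h

omit [NeZero M] [NeZero n] in
theorem isTransfer_restrict (hle : G' ≤ G) {A : Type} [AddCommGroup A] (χ : Additive G →+ A) :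
    IsTransfer G G' (fun _ : Unit => (1 : Matrix (Fin 2) (Fin 2) ℤ)) χ
      (χ.comp (Subgroup.inclusion hle).toAdditive) := fun γ =>
  ⟨Equiv.refl _, fun _ => Subgroup.inclusion hle γ, fun _ => by simp, by simp⟩

/-- Restriction commutes with Galois. -/
theorem galG_restrict (hG : IsLevel M G) (hG' : IsLevel M G') (hle : G' ≤ G) (s : GQ)
    {χ : ParG G (ZMod n)} {χ' : ParG G' (ZMod n)}
    (h : (χ' : Additive G' →+ ZMod n) =
      (χ : Additive G →+ ZMod n).comp (Subgroup.inclusion hle).toAdditive) :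
    ((galG hG' n s χ' : ParG G' (ZMod n)) : Additive G' →+ ZMod n) =
      ((galG hG n s χ : ParG G (ZMod n)) : Additive G →+ ZMod n).comp
        (Subgroup.inclusion hle).toAdditive := by
  have h1 := isTransfer_restrict hle (χ : Additive G →+ ZMod n)
  rw [← h] at h1
  have h2 := galG_pull hG hG' s (g := 1) (g' := 1) (ConjEq.one_one _) (χ := χ) (χ' := χ')
    (by simpa using h1)
  refine AddMonoidHom.ext fun x => ?_
  obtain ⟨γ, rfl⟩ := Additive.ofMul.surjective x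
  obtain ⟨e, g, heq, hsum⟩ := h2 γ
  rw [hsum, Fintype.sum_unique, show g default = Subgroup.inclusion hle γ from
    Subtype.ext (Subtype.ext (by simpa using (heq default).symm))]
  rfl

theorem det_heckeRepG (M ℓ : ℕ) (R : SL(2, ℤ)) (i : Option (Fin ℓ)) :
    (heckeRepG M ℓ R i).det = (ℓ : ℤ) := by
  cases i <;> simp [heckeRepG, Matrix.det_mul, R.det_coe, Matrix.det_fin_two_of]

omit [NeZero M] in
theorem conjEq_diamond {ℓ : ℕ} {R : SL(2, ℤ)} (hR : IsDiamond M ℓ R) (a : (ZMod M)ˣ) :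
    ConjEq M a R R := by
  obtain ⟨-, h01, h10, -⟩ := hR
  rw [conjEq_iff, h01, h10]
  simp

/-- The permutation `b ↦ a b` of residues modulo `ℓ`. -/
def mulPerm {ℓ : ℕ} [NeZero ℓ] (a : (ZMod ℓ)ˣ) : Equiv.Perm (Fin ℓ) :=
  ((ZMod.finEquiv ℓ).toEquiv.trans a.mulLeft).trans (ZMod.finEquiv ℓ).toEquiv.symm

theorem mulPerm_spec {ℓ : ℕ} [NeZero ℓ] (a : (ZMod ℓ)ˣ) (b : Fin ℓ) :
    ((mulPerm a b : ℕ) : ZMod ℓ) = (a : ZMod ℓ) * (b : ℕ) := by
  have h : ∀ x : Fin ℓ, ((x : ℕ) : ZMod ℓ) = ZMod.finEquiv ℓ x := by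
    intro x
    obtain ⟨m, rfl⟩ := Nat.exists_eq_succ_of_ne_zero (NeZero.ne ℓ)
    exact Fin.cast_val_eq_self x
  rw [h, h]
  simp [mulPerm]

/-- `T_ℓ` commutes with Galois. -/
theorem galG_hecke (hG : IsLevel M G) (hG' : IsLevel M G') {ℓ : ℕ} [NeZero ℓ] {R : SL(2, ℤ)}
    (hR : IsDiamond M ℓ R) (s : GQ) {χ : ParG G (ZMod n)} {χ' : ParG G' (ZMod n)}
    (h : IsTransfer G G' (heckeRepG M ℓ R) (χ : Additive G →+ ZMod n)
      (χ' : Additive G' →+ ZMod n)) :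
    IsTransfer G G' (heckeRepG M ℓ R) ((galG hG n s χ : ParG G (ZMod n)) : Additive G →+ ZMod n)
      ((galG hG' n s χ' : ParG G' (ZMod n)) : Additive G' →+ ZMod n) := by
  have : NeZero (M * ℓ) := ⟨mul_ne_zero (NeZero.ne M) (NeZero.ne ℓ)⟩
  set π := mulPerm (cycM ℓ s)
  refine galG_transfer_perm hG hG' (K := M * ℓ) (dvd_mul_right M ℓ) s
    (β' := fun i => heckeRepG M ℓ R (π.optionCongr i))
    (fun i => by rw [det_heckeRepG]; exact_mod_cast NeZero.pos ℓ) (fun i => ?_)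
    π.optionCongr (fun _ => 1) (fun i => by simp) h
  cases i with
  | none =>
    exact ⟨R, R, ℓ, 1, 0, 0, NeZero.pos ℓ, one_pos, by simp, fun _ => conjEq_diamond hR _,
      by simp, by simp [heckeRepG], by simp [heckeRepG]⟩
  | some b =>
    refine ⟨1, 1, 1, ℓ, (b : ℤ) * M, (π b : ℤ) * M, one_pos, NeZero.pos ℓ, dvd_refl _,
      fun _ => ConjEq.one_one _, ?_, by simp [heckeRepG], by simp [heckeRepG]⟩
    obtain ⟨x, hx⟩ := ZMod.intCast_surjective (cycM (M * ℓ) s : ZMod (M * ℓ))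
    have h1 := mulPerm_spec (cycM ℓ s) b
    have hu : (cycM ℓ s : ZMod ℓ) = (x : ZMod ℓ) := by
      rw [← cycM_castHom (dvd_mul_left ℓ M) s, Units.coe_map, RingHom.toMonoidHom_eq_coe,
        MonoidHom.coe_coe, ← hx, map_intCast]
    rw [hu] at h1
    obtain ⟨t, ht⟩ : (ℓ : ℤ) ∣ ((π b : ℕ) : ℤ) - x * ((b : ℕ) : ℤ) := by
      rw [← ZMod.intCast_zmod_eq_zero_iff_dvd]
      push_cast
      rw [show π = mulPerm (cycM ℓ s) from rfl, h1, sub_self]
    rw [← hx, ← Int.cast_mul, ZMod.intCast_eq_intCast_iff_dvd_sub]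
    exact ⟨-t, by push_cast; linear_combination (-(M : ℤ)) * ht⟩

/-- `U_q` commutes with Galois. -/
theorem galG_U (hG : IsLevel M G) (hG' : IsLevel M G') {q : ℕ} [NeZero q]
    (hT : ModularGroup.T ∈ G) (s : GQ) {χ : ParG G (ZMod n)} {χ' : ParG G' (ZMod n)}
    (h : IsTransfer G G' (fun b : Fin q => !![(1 : ℤ), (b : ℤ); 0, (q : ℤ)])
      (χ : Additive G →+ ZMod n) (χ' : Additive G' →+ ZMod n)) :
    IsTransfer G G' (fun b : Fin q => !![(1 : ℤ), (b : ℤ); 0, (q : ℤ)])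
      ((galG hG n s χ : ParG G (ZMod n)) : Additive G →+ ZMod n)
      ((galG hG' n s χ' : ParG G' (ZMod n)) : Additive G' →+ ZMod n) := by
  have : NeZero (M * q) := ⟨mul_ne_zero (NeZero.ne M) (NeZero.ne q)⟩
  set π := mulPerm (cycM q s)
  obtain ⟨x, hx⟩ := ZMod.intCast_surjective (cycM (M * q) s : ZMod (M * q))
  have hdiv : ∀ b : Fin q, (q : ℤ) ∣ x * (b : ℤ) - (π b : ℤ) := fun b => by
    have h1 := mulPerm_spec (cycM q s) b
    have hu : (cycM q s : ZMod q) = (x : ZMod q) := by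
      rw [← cycM_castHom (dvd_mul_left q M) s, Units.coe_map, RingHom.toMonoidHom_eq_coe,
        MonoidHom.coe_coe, ← hx, map_intCast]
    rw [hu] at h1
    rw [← ZMod.intCast_zmod_eq_zero_iff_dvd]
    push_cast
    rw [show π = mulPerm (cycM q s) from rfl, h1, sub_self]
  choose t ht using hdiv
  refine galG_transfer_perm hG hG' (K := M * q) (dvd_mul_right M q) s
    (β' := fun b : Fin q => !![(1 : ℤ), x * (b : ℤ); 0, (q : ℤ)])
    (fun b => by rw [Matrix.det_fin_two_of]; simp [NeZero.pos q])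
    (fun b => ⟨1, 1, 1, q, (b : ℤ), x * b, one_pos, NeZero.pos q, dvd_refl _,
      fun _ => ConjEq.one_one _, by push_cast; rw [hx], by simp, by simp⟩)
    π (fun b => ⟨ModularGroup.T ^ t b, G.zpow_mem hT _⟩) (fun b => ?_) h
  rw [ModularGroup.coe_T_zpow]
  ext i j
  fin_cases i <;> fin_cases j <;> simp [Matrix.mul_apply, Fin.sum_univ_two]
  linear_combination ht b

/-- Atkin-Lehner matrices `g·diag(α, δ)` commute with Galois. -/
theorem galG_W (hG : IsLevel M G) (hG' : IsLevel M G') {α δ : ℕ} (hα : 0 < α) (hδ : 0 < δ)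
    (g : SL(2, ℤ)) (s : GQ)
    (hg : ∀ g', ConjEq M (cycM M s) g g' → g' * g⁻¹ ∈ G)
    {χ : ParG G (ZMod n)} {χ' : ParG G' (ZMod n)}
    (h : IsTransfer G G'
      (fun _ : Unit => (g : Matrix (Fin 2) (Fin 2) ℤ) * !![(α : ℤ), 0; 0, (δ : ℤ)])
      (χ : Additive G →+ ZMod n) (χ' : Additive G' →+ ZMod n)) :
    IsTransfer G G'
      (fun _ : Unit => (g : Matrix (Fin 2) (Fin 2) ℤ) * !![(α : ℤ), 0; 0, (δ : ℤ)])
      ((galG hG n s χ : ParG G (ZMod n)) : Additive G →+ ZMod n)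
      ((galG hG' n s χ' : ParG G' (ZMod n)) : Additive G' →+ ZMod n) := by
  have : NeZero (M * δ) := ⟨mul_ne_zero (NeZero.ne M) hδ.ne'⟩
  obtain ⟨g', hg'⟩ := exists_conjEq (cycM M s) g
  refine galG_transfer_perm hG hG' (K := M * δ) (dvd_mul_right M δ) s
    (β' := fun _ => (g' : Matrix (Fin 2) (Fin 2) ℤ) * !![(α : ℤ), 0; 0, (δ : ℤ)])
    (fun _ => by rw [det_upper_decomp]; positivity)
    (fun _ => ⟨g, g', α, δ, 0, 0, hα, hδ, dvd_refl _, fun hd => by
      rw [cycM_castHom hd s]; exact hg', by simp, rfl, rfl⟩)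
    (Equiv.refl _) (fun _ => ⟨g' * g⁻¹, hg g' hg'⟩) (fun _ => ?_) h
  show _ = ((g' * g⁻¹ : SL(2, ℤ)) : Matrix (Fin 2) (Fin 2) ℤ) * _
  rw [← mul_assoc, ← Matrix.SpecialLinearGroup.coe_mul, inv_mul_cancel_right]

end Fermat.Agent.GalRep.Level
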