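/-
Integral normalisation of modular functions of level `Γ(M)` with algebraic series.
-/
import Fermat.Agent.GalRep.Level.ConjFun
import Fermat.Agent.GalRep.KummerIntegral

set_option autoImplicit false

noncomputable section

namespace Fermat.Agent.GalRep.Level

open UpperHalfPlane CongruenceSubgroup
open scoped MatrixGroups Manifold

local notation "ℚb" => AlgebraicClosure ℚ

/-! ## Descent of linear relations from `ℂ` to `ℚ̄` -/

theorem exists_retraction {d : ℂ} (hd : d ≠ 0) :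
    ∃ π : ℂ →+ ℚb, (∀ x c, π (qbarToC x * c) = x * π c) ∧ π d = 1 := by
  let : Algebra ℚb ℂ := qbarToC.toAlgebra
  obtain ⟨g, hg⟩ := LinearMap.exists_leftInverse_of_injective (LinearMap.toSpanSingleton ℚb ℂ d)
    (LinearMap.ker_eq_bot.mpr (smul_left_injective _ hd))
  refine ⟨g.toAddMonoidHom, fun x c => ?_, ?_⟩
  · show g (qbarToC x * c) = x * g c
    rw [show qbarToC x * c = x • c from rfl, map_smul, smul_eq_mul]
  · simpa using LinearMap.congr_fun hg (1 : ℚb)

/-- Coefficientwise image under an additive map. -/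
def piSer (π : ℂ →+ ℚb) : LaurentSeries ℂ →+ LaurentSeries ℚb where
  toFun f := f.map π
  map_zero' := by ext; simp
  map_add' f g := by ext; simp

@[simp] theorem piSer_coeff (π : ℂ →+ ℚb) (f : LaurentSeries ℂ) (m : ℤ) :
    (piSer π f).coeff m = π (f.coeff m) := rfl

theorem piSer_mul {π : ℂ →+ ℚb} (hπ : ∀ x c, π (qbarToC x * c) = x * π c)
    (a : LaurentSeries ℚb) (f : LaurentSeries ℂ) :
    piSer π (seriesToC a * f) = a * piSer π f := by
  ext m
  rw [piSer_coeff, HahnSeries.coeff_mul, map_sum,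
    HahnSeries.coeff_mul_right' f.isPWO_support fun k hk h0 => hk (by simp [h0])]
  refine Finset.sum_congr ?_ fun ij _ => hπ _ _
  have hs : (seriesToC a).support = a.support := by
    ext k
    simp [seriesToC, map_eq_zero_iff _ qbarToC_injective]
  simp only [hs]

theorem piSer_C {π : ℂ →+ ℚb} (c : ℂ) : piSer π (HahnSeries.C c) = HahnSeries.C (π c) := by
  ext m
  rw [piSer_coeff]
  rcases eq_or_ne m 0 with rfl | hm <;> simp [*]

theorem piSer_aeval_mem {π : ℂ →+ ℚb} (hπ : ∀ x c, π (qbarToC x * c) = x * π c)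
    (T : Subring (LaurentSeries ℚb)) (hC : ∀ x, HahnSeries.C x ∈ T)
    {J : LaurentSeries ℚb} (hJ : J ∈ T) (p : Polynomial ℂ) :
    piSer π (Polynomial.aeval (seriesToC J) p) ∈ T := by
  induction p using Polynomial.induction_on' with
  | add p q hp hq => rw [map_add, map_add]; exact T.add_mem hp hq
  | monomial k c =>
    rw [Polynomial.aeval_monomial, mul_comm, show seriesToC J ^ k = seriesToC (J ^ k) by
      rw [seriesToC_eq_lmap, seriesToC_eq_lmap, map_pow], piSer_mul hπ,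
      show algebraMap ℂ (LaurentSeries ℂ) c = HahnSeries.C c by simp [HahnSeries.algebraMap_apply'],
      piSer_C]
    exact T.mul_mem (T.pow_mem hJ k) (hC _)

theorem piSer_biEval_mem {π : ℂ →+ ℚb} (hπ : ∀ x c, π (qbarToC x * c) = x * π c)
    (T : Subring (LaurentSeries ℚb)) (hC : ∀ x, HahnSeries.C x ∈ T)
    {J R : LaurentSeries ℚb} (hJ : J ∈ T) (hR : R ∈ T) (P : Polynomial (Polynomial ℂ)) :
    piSer π (biEval (seriesToC J) (seriesToC R) P) ∈ T := by
  induction P using Polynomial.induction_on' with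
  | add p q hp hq => rw [map_add, map_add]; exact T.add_mem hp hq
  | monomial k a =>
    simp only [biEval, Polynomial.coe_eval₂RingHom, Polynomial.eval₂_monomial,
      AlgHom.toRingHom_eq_coe, RingHom.coe_coe]
    rw [mul_comm, show seriesToC R ^ k = seriesToC (R ^ k) by
      rw [seriesToC_eq_lmap, seriesToC_eq_lmap, map_pow], piSer_mul hπ]
    exact T.mul_mem (T.pow_mem hR k) (piSer_aeval_mem hπ T hC hJ a)

/-! ## Bounded series -/

variable {A : ValuationSubring (AlgebraicClosure ℚ)}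

theorem exists_mem_scale {g : LaurentSeries ℚb}
    (h : ∃ c, c ≠ 0 ∧ HahnSeries.C c * g ∈ intSeriesA A) :
    ∃ c, c ≠ 0 ∧ c ∈ A ∧ HahnSeries.C c * g ∈ intSeriesA A := by
  obtain ⟨c, hc, hg⟩ := h
  rcases A.mem_or_inv_mem c with hA | hA
  · exact ⟨c, hc, hA, hg⟩
  · refine ⟨1, one_ne_zero, A.one_mem, ?_⟩
    have := (intSeriesA A).mul_mem (C_mem_intSeriesA hA) hg
    rwa [← mul_assoc, ← map_mul, inv_mul_cancel₀ hc] at this

/-- Series with bounded denominators. -/
def bdA (A : ValuationSubring (AlgebraicClosure ℚ)) : Subring (LaurentSeries ℚb) where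
  carrier := {g | ∃ c, c ≠ 0 ∧ HahnSeries.C c * g ∈ intSeriesA A}
  one_mem' := ⟨1, one_ne_zero, by simp [one_mem]⟩
  zero_mem' := ⟨1, one_ne_zero, by simp [zero_mem]⟩
  neg_mem' := fun {g} ⟨c, hc, h⟩ => ⟨c, hc, by rw [mul_neg]; exact neg_mem h⟩
  mul_mem' := fun {f g} ⟨c, hc, h⟩ ⟨d, hd, h'⟩ => ⟨c * d, mul_ne_zero hc hd, by
    rw [map_mul, mul_mul_mul_comm]; exact mul_mem h h'⟩
  add_mem' := fun {f g} hf hg => by
    obtain ⟨c, hc, hcA, h⟩ := exists_mem_scale hf
    obtain ⟨d, hd, hdA, h'⟩ := exists_mem_scale hg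
    refine ⟨c * d, mul_ne_zero hc hd, ?_⟩
    rw [map_mul, mul_add, show HahnSeries.C c * HahnSeries.C d * f =
      HahnSeries.C d * (HahnSeries.C c * f) by ring, mul_assoc]
    exact add_mem (mul_mem (C_mem_intSeriesA hdA) h) (mul_mem (C_mem_intSeriesA hcA) h')

/-- Series with coefficients in some number field. -/
def nfSeries : Subring (LaurentSeries ℚb) where
  carrier := {g | ∃ L : IntermediateField ℚ ℚb, FiniteDimensional ℚ L ∧
    g ∈ (lmap (L.val : L →+* ℚb)).fieldRange}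
  one_mem' := ⟨⊥, inferInstance, one_mem _⟩
  zero_mem' := ⟨⊥, inferInstance, zero_mem _⟩
  neg_mem' := fun {g} ⟨L, hL, h⟩ => ⟨L, hL, neg_mem h⟩
  mul_mem' := fun {f g} ⟨L, hL, h⟩ ⟨L', hL', h'⟩ => by
    refine ⟨L ⊔ L', inferInstance, mul_mem ?_ ?_⟩
    · obtain ⟨a, rfl⟩ := h
      exact ⟨lmap (IntermediateField.inclusion (le_sup_left : L ≤ L ⊔ L') : L →+* ↥(L ⊔ L')) a,
        by rw [lmap_lmap]; rfl⟩
    · obtain ⟨a, rfl⟩ := h'
      exact ⟨lmap (IntermediateField.inclusion (le_sup_right : L' ≤ L ⊔ L') : L' →+* ↥(L ⊔ L')) a,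
        by rw [lmap_lmap]; rfl⟩
  add_mem' := fun {f g} ⟨L, hL, h⟩ ⟨L', hL', h'⟩ => by
    refine ⟨L ⊔ L', inferInstance, add_mem ?_ ?_⟩
    · obtain ⟨a, rfl⟩ := h
      exact ⟨lmap (IntermediateField.inclusion (le_sup_left : L ≤ L ⊔ L') : L →+* ↥(L ⊔ L')) a,
        by rw [lmap_lmap]; rfl⟩
    · obtain ⟨a, rfl⟩ := h'
      exact ⟨lmap (IntermediateField.inclusion (le_sup_right : L' ≤ L ⊔ L') : L' →+* ↥(L ⊔ L')) a,
        by rw [lmap_lmap]; rfl⟩

/-- Bounded series with coefficients in a number field. -/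
def goodA (A : ValuationSubring (AlgebraicClosure ℚ)) : Subring (LaurentSeries ℚb) :=
  bdA A ⊓ nfSeries

theorem C_mem_goodA (x : ℚb) : (HahnSeries.C x : LaurentSeries ℚb) ∈ goodA A := by
  refine ⟨?_, ?_⟩
  · rcases A.mem_or_inv_mem x with h | h
    · exact ⟨1, one_ne_zero, by rw [map_one, one_mul]; exact C_mem_intSeriesA h⟩
    · rcases eq_or_ne x 0 with rfl | hx
      · exact ⟨1, one_ne_zero, by rw [map_zero, mul_zero]; exact zero_mem _⟩
      · exact ⟨x⁻¹, inv_ne_zero hx, by rw [← map_mul, inv_mul_cancel₀ hx, map_one]; exact one_mem _⟩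
  · exact ⟨IntermediateField.adjoin ℚ {x}, IntermediateField.finiteDimensional_adjoin fun y _ =>
      (Algebra.IsAlgebraic.isAlgebraic y).isIntegral,
      ⟨HahnSeries.C ⟨x, IntermediateField.subset_adjoin ℚ _ rfl⟩, lmap_C _ _⟩⟩

theorem expand_mem_goodA {a : ℕ} (ha : a ≠ 0) {f : LaurentSeries ℚb} (hf : f ∈ goodA A) :
    expand a ha f ∈ goodA A := by
  obtain ⟨⟨c, hc, h⟩, L, hL, ⟨g, rfl⟩⟩ := hf
  refine ⟨⟨c, hc, ?_⟩, L, hL, ⟨expand a ha g, lmap_expand _ _ _ _⟩⟩
  have hCx : expand a ha (HahnSeries.C c : LaurentSeries ℚb) = HahnSeries.C c := by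
    ext m
    by_cases hm : (a : ℤ) ∣ m
    · obtain ⟨j, rfl⟩ := hm
      rw [expand_coeff_mul]
      rcases eq_or_ne j 0 with rfl | hj <;> simp [*]
    · rw [expand_coeff_of_not_dvd _ _ _ _ hm]
      have : m ≠ 0 := fun h0 => hm (h0 ▸ dvd_zero _)
      simp [this]
  rw [← hCx, ← map_mul]
  exact expand_mem_intSeriesA ha h

theorem intCast_series_mem_goodA (g : LaurentSeries ℤ) :
    lmap (Int.castRingHom ℚb) g ∈ goodA A := by
  refine ⟨⟨1, one_ne_zero, ?_⟩, ⊥, inferInstance,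
    ⟨lmap (Int.castRingHom (⊥ : IntermediateField ℚ ℚb)) g, ?_⟩⟩
  · rw [map_one, one_mul]
    exact ⟨lmap (Int.castRingHom A) g, by rw [lmap_lmap]; congr 1⟩
  · rw [lmap_lmap]; exact congrArg (fun φ => lmap φ g) (RingHom.ext_int _ _)

theorem lmap_ofPowerSeries_eq {R S : Type*} [CommRing R] [CommRing S] (φ : R →+* S)
    (P : PowerSeries R) : lmap φ (HahnSeries.ofPowerSeries ℤ R P) =
      HahnSeries.ofPowerSeries ℤ S (PowerSeries.map φ P) := by
  ext m
  rw [lmap_coeff, HahnSeries.ofPowerSeries_apply, HahnSeries.ofPowerSeries_apply]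
  by_cases hm : ∃ k : ℕ, (k : ℤ) = m
  · obtain ⟨k, rfl⟩ := hm
    rw [← HahnSeries.ofPowerSeries_apply, ← HahnSeries.ofPowerSeries_apply,
      HahnSeries.ofPowerSeries_apply_coeff, HahnSeries.ofPowerSeries_apply_coeff,
      PowerSeries.coeff_map]
  · rw [HahnSeries.embDomain_of_notMem_range, HahnSeries.embDomain_of_notMem_range, map_zero]
    all_goals (rintro ⟨k, hk⟩; exact hm ⟨k, hk⟩)

theorem hasQSeries_of_qExp {f : ℍ → ℂ} {P : PowerSeries ℂ} (h : MCurve.QExp 1 f P) :
    HasQSeries 1 f (HahnSeries.ofPowerSeries ℤ ℂ P) := by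
  rw [hasQSeries_iff]
  refine .of_forall fun τ => ?_
  refine (Nat.cast_injective.hasSum_iff fun m hm => ?_).mp ?_
  · rw [HahnSeries.ofPowerSeries_apply, HahnSeries.embDomain_of_notMem_range, zero_mul]
    rintro ⟨k, hk⟩; exact hm ⟨k, hk⟩
  · simpa [Function.comp_def, qq_eq_qParam, HahnSeries.ofPowerSeries_apply_coeff] using h τ

theorem exists_intSeries_wtTwo : ∃ g : LaurentSeries ℤ, HasQSeries 1 wtTwo
    (HahnSeries.C (1728 : ℂ)⁻¹ * lmap (Int.castRingHom ℂ) g) := by
  obtain ⟨Q, hQ⟩ : Hecke.qExp (Hecke.eis4 * Hecke.eis6) ∈ Hecke.intSeries := by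
    rw [map_mul]; exact Hecke.intSeries.mul_mem Hecke.eis4_int Hecke.eis6_int
  refine ⟨HahnSeries.single (-1 : ℤ) 1 * HahnSeries.ofPowerSeries ℤ ℤ
    (Q * ModularCurve.dedekindEtaUnitInv), ?_⟩
  rw [map_mul, lmap_ofPowerSeries_eq, map_mul, hQ, map_mul,
    show lmap (Int.castRingHom ℂ) (HahnSeries.single (-1 : ℤ) 1) = HahnSeries.single (-1 : ℤ) 1 by
      ext m; rcases eq_or_ne m (-1) with rfl | hm <;> simp [*]]
  refine (((HasQSeries.single 1 (-1) 1).mul ((hasQSeries_qExp _).mul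
    (hasQSeries_of_qExp MCurve.qExp_etaInv))).smul (1728 : ℂ)⁻¹).congr (.of_forall fun τ => ?_)
  simp only [Pi.mul_apply, one_mul]
  show (1728 : ℂ)⁻¹ * (qq 1 τ ^ (-1 : ℤ) * (ModularForm.E₄ τ * ModularForm.E₆ τ *
    (MCurve.etaFn (Function.Periodic.qParam 1 (τ : ℂ)) ^ 24)⁻¹)) = wtTwo τ
  have hq : Function.Periodic.qParam 1 (τ : ℂ) = qq 1 τ := by rw [qq_eq_qParam]; simp
  rw [wtTwo, MCurve.discriminant_eq_qParam_mul, hq]
  field_simp

/-! ## The generator has good series -/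

variable {M : ℕ} [NeZero M]

/-- Functions whose series is good. -/
def goodMF (A : ValuationSubring (AlgebraicClosure ℚ)) (M : ℕ) [NeZero M] : Subring (MF M) :=
  ((goodA A).map (lmap qbarToC)).comap (serAlg M : MF M →+* LaurentSeries ℂ)

variable {ℓ : ℕ}

theorem pSer_mem_goodA {z : ℚb} (hz : z ^ M = 1) (u : ℤ × ℤ) :
    HahnSeries.ofPowerSeries ℤ ℚb (Model.pSer M z u) ∈ goodA A := by
  have hz0 : z ≠ 0 := fun h => by simp [h, zero_pow (NeZero.ne M)] at hz
  have hA : ∀ k : ℤ, z ^ k ∈ A := fun k => by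
    refine (A.valuation_le_one_iff _).mp ?_
    have h1 : A.valuation z = 1 := by
      refine (pow_eq_one_iff.mp (?_ : A.valuation z ^ M = 1)).resolve_right (NeZero.ne M)
      rw [← map_pow, hz, map_one]
    rw [map_zpow₀, h1, one_zpow]
  set x0 := PowerSeries.coeff 0 (Model.pSer M z u) with hx0
  set R := Model.pSer M z u - PowerSeries.C x0
  have hint : ∀ n, PowerSeries.coeff n R ∈ A := fun n => by
    rcases eq_or_ne n 0 with rfl | hn
    · simp [R, hx0, A.zero_mem]
    · simp only [R, map_sub, PowerSeries.coeff_C, hn, if_false, sub_zero, Model.pSer,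
        PowerSeries.coeff_mk]
      refine A.toSubring.sum_mem fun k _ => A.mul_mem _ _ (natCast_mem A.toSubring k) ?_
      refine A.add_mem _ _ ?_ ?_ <;> split_ifs <;> first | exact hA _ | exact A.zero_mem
  have hRint : HahnSeries.ofPowerSeries ℤ ℚb R ∈ intSeriesA A :=
    ⟨HahnSeries.ofPowerSeries ℤ A (PowerSeries.mk fun n => ⟨_, hint n⟩), by
      rw [lmap_ofPowerSeries_eq]; congr 1; ext n; simp⟩
  have : FiniteDimensional ℚ (IntermediateField.adjoin ℚ ({z} : Set ℚb)) :=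
    IntermediateField.finiteDimensional_adjoin fun y _ =>
      (Algebra.IsAlgebraic.isAlgebraic y).isIntegral
  set L := IntermediateField.adjoin ℚ ({z} : Set ℚb)
  have hfull : HahnSeries.ofPowerSeries ℤ ℚb (Model.pSer M z u) ∈ nfSeries := by
    refine ⟨L, inferInstance, HahnSeries.ofPowerSeries ℤ L
      (Model.pSer M (⟨z, IntermediateField.subset_adjoin ℚ _ rfl⟩ : L) u), ?_⟩
    rw [lmap_ofPowerSeries_eq, pSer_map]
    rfl
  refine ⟨?_, hfull⟩
  rw [show Model.pSer M z u = R + PowerSeries.C x0 by simp [R], map_add, HahnSeries.ofPowerSeries_C]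
  exact (bdA A).add_mem ⟨1, one_ne_zero, by rw [map_one, one_mul]; exact hRint⟩ (C_mem_goodA x0).1

theorem fricke_mem_goodMF (u : ℤ × ℤ) (hu : Model.NZ M u) : fricke u hu ∈ goodMF A M := by
  obtain ⟨g, hg⟩ := exists_intSeries_wtTwo
  obtain ⟨z, hz⟩ := exists_qbarToC_eq (x := Model.zetaC M)
    ⟨Polynomial.X ^ M - 1, (Polynomial.monic_X_pow_sub_C 1 (NeZero.ne M)).ne_zero, by
      simp [zetaC_pow]⟩
  have hzM : z ^ M = 1 := qbarToC_injective (by rw [map_pow, hz, zetaC_pow, map_one])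
  refine ⟨expand M (NeZero.ne M) (HahnSeries.C (1728 : ℚb)⁻¹ * lmap (Int.castRingHom ℚb) g) *
    ∑ v ∈ nzV M, HahnSeries.ofPowerSeries ℤ ℚb (Model.pSer M z u - Model.pSer M z (liftV v)),
    (goodA A).mul_mem (expand_mem_goodA _ ((goodA A).mul_mem (C_mem_goodA _)
      (intCast_series_mem_goodA g))) ((goodA A).sum_mem fun v _ => by
        rw [map_sub]; exact (goodA A).sub_mem (pSer_mem_goodA hzM u) (pSer_mem_goodA hzM _)), ?_⟩
  refine Eq.trans ?_ ((hasQSeries_serHom (fricke u hu)).unique (NeZero.pos M)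
    (hasQSeries_fU hu hg)).symm
  simp only [map_mul, map_sum, map_sub, lmap_expand, lmap_lmap, lmap_ofPowerSeries_eq,
    pSer_map, hz, map_inv₀, map_ofNat]
  rw [RingHom.ext_int (qbarToC.comp (Int.castRingHom ℚb)) (Int.castRingHom ℂ)]

/-! ## Normalisation -/

theorem serAlg_jMF_eq :
    serAlg M (jMF (Gamma M)) = seriesToC (expand M (NeZero.ne M) (ModularCurve.jqModC ℚb)) := by
  rw [serAlg_jMF, jqN_eq, seriesToC_eq_lmap, lmap_expand, lmap_jqModC, jq_eq_jqModC]

theorem exists_mf_normalisation (hℓ : ℓ.Prime) (hA : A.LiesOverPrime ℓ) (φ : MF M)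
    {g : LaurentSeries ℚb} (hg : seriesToC g = serAlg M φ) (hg0 : g ≠ 0) :
    ∃ c : ℚb, c ≠ 0 ∧ HahnSeries.C c * g ∈ intSeriesA A ∧
      ∃ m, (HahnSeries.C c * g).coeff m ∉ A.nonunits := by
  classical
  obtain ⟨r, hr, -, hrmem⟩ := exists_gen M
  obtain ⟨R, hRT, hR⟩ := hrmem (goodMF A M) fricke_mem_goodMF
  set J : LaurentSeries ℚb := expand M (NeZero.ne M) (ModularCurve.jqModC ℚb)
  have hJT : J ∈ goodA A := expand_mem_goodA _ (by
    rw [show ModularCurve.jqModC ℚb = lmap (Int.castRingHom ℚb) (ModularCurve.jqModC ℤ) from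
      (lmap_jqModC _).symm]
    exact intCast_series_mem_goodA _)
  have hJ : serAlg M (jMF (Gamma M)) = seriesToC J := serAlg_jMF_eq
  replace hR : serAlg M r = seriesToC R := hR.symm
  set D := biEval (jMF (Gamma M)) r (Polynomial.derivative (minP r))
  have hD0 : serAlg M D ≠ 0 := fun h => biEval_minP_deriv_ne_zero r
    (serAlg_injective M (h.trans (map_zero _).symm))
  obtain ⟨π, hπ, hπd⟩ := exists_retraction
    (d := (serAlg M D).coeff (serAlg M D).order) (HahnSeries.coeff_order_eq_zero.not.mpr hD0)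
  set W := piSer π (serAlg M D)
  have hW0 : W ≠ 0 := fun h => by
    have := congrArg (fun f : LaurentSeries ℚb => f.coeff (serAlg M D).order) h
    simp [W, hπd] at this
  have hWT : W ∈ goodA A := by
    show piSer π (serAlg M D) ∈ goodA A
    rw [map_biEval, hJ, hR]
    exact piSer_biEval_mem hπ _ C_mem_goodA hJT hRT _
  have hk : ∀ k : ℕ, W * g ^ k ∈ goodA A := fun k => by
    obtain ⟨P, hP⟩ := exists_interpM hr (φ ^ k)
    have h1 : seriesToC (g ^ k) * serAlg M D = biEval (seriesToC J) (seriesToC R) P := by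
      rw [seriesToC_eq_lmap, map_pow, ← seriesToC_eq_lmap, hg, ← map_pow, ← map_mul, hP, map_biEval,
        hJ, hR]
    rw [mul_comm, show g ^ k * W = piSer π (seriesToC (g ^ k) * serAlg M D) from
      (piSer_mul hπ _ _).symm, h1]
    exact piSer_biEval_mem hπ _ C_mem_goodA hJT hRT _
  -- a number field containing the coefficients of `g`
  obtain ⟨L, hL, hcoefL⟩ : ∃ L : IntermediateField ℚ ℚb, FiniteDimensional ℚ L ∧
      ∀ m, g.coeff m ∈ L := by
    have h1 : W * g ∈ goodA A := by simpa using hk 1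
    obtain ⟨-, L, hL, hgL⟩ := h1
    obtain ⟨-, L', hL', hWL⟩ := hWT
    have hsup : ∀ {L₁ : IntermediateField ℚ ℚb}, L₁ ≤ L ⊔ L' → ∀ {f : LaurentSeries ℚb},
        f ∈ (lmap (L₁.val : L₁ →+* ℚb)).fieldRange →
        f ∈ (lmap ((L ⊔ L').val : ↥(L ⊔ L') →+* ℚb)).fieldRange := by
      rintro L₁ hle f ⟨a, rfl⟩
      exact ⟨lmap (IntermediateField.inclusion hle : L₁ →+* ↥(L ⊔ L')) a, by rw [lmap_lmap]; rfl⟩
    obtain ⟨g', hg'⟩ := div_mem (hsup le_sup_left hgL) (hsup le_sup_right hWL)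
    rw [mul_div_cancel_left₀ g hW0] at hg'
    exact ⟨L ⊔ L', inferInstance, fun m => by rw [← hg']; exact (g'.coeff m).2⟩
  -- the monic relation
  obtain ⟨π₁, hπ₁, hπ1⟩ := exists_retraction (d := (1 : ℂ)) one_ne_zero
  set μ := (charP φ).natDegree
  set a : ℕ → LaurentSeries ℚb :=
    fun i => piSer π₁ (Polynomial.aeval (seriesToC J) ((charP φ).coeff i))
  have hrel : g ^ μ = -∑ i ∈ Finset.range μ, a i * g ^ i := by
    have h0 : biEval (seriesToC J) (seriesToC g) (charP φ) = 0 := by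
      rw [hg, ← hJ]
      exact (biEval_charP_eq_zero_iff (serAlg M) φ _).mpr ⟨1, by rw [shift_one]⟩
    rw [biEval, Polynomial.coe_eval₂RingHom, Polynomial.eval₂_eq_sum_range] at h0
    have h1 := congrArg (piSer π₁) h0
    rw [map_sum, map_zero, Finset.sum_range_succ] at h1
    have hterm : ∀ i, piSer π₁ ((Polynomial.aeval (seriesToC J)).toRingHom ((charP φ).coeff i) *
        seriesToC g ^ i) = a i * g ^ i := fun i => by
      rw [mul_comm, show seriesToC g ^ i = seriesToC (g ^ i) by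
        rw [seriesToC_eq_lmap, seriesToC_eq_lmap, map_pow], piSer_mul hπ₁, mul_comm]
      rfl
    simp only [hterm] at h1
    have hone : a μ = 1 := by
      simp only [a, μ, (charP_monic φ).coeff_natDegree, map_one]
      rw [← map_one (HahnSeries.C : ℂ →+* LaurentSeries ℂ), piSer_C, hπ1, map_one]
    rw [hone, one_mul] at h1
    exact eq_neg_of_add_eq_zero_right h1
  choose ca hca0 hcaA hca using fun i => exists_mem_scale
    (piSer_aeval_mem hπ₁ (goodA A) C_mem_goodA hJT ((charP φ).coeff i)).1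
  choose cw hcw0 hcwA hcw using fun k => exists_mem_scale (hk k).1
  set c := ∏ i ∈ Finset.range μ, ca i
  set w := ∏ k ∈ Finset.range (μ + 1), cw k
  have hc0 : c ≠ 0 := Finset.prod_ne_zero_iff.mpr fun i _ => hca0 i
  have hw0 : w ≠ 0 := Finset.prod_ne_zero_iff.mpr fun i _ => hcw0 i
  have hcA : c ∈ A := A.toSubring.prod_mem fun i _ => hcaA i
  have hci : ∀ i < μ, HahnSeries.C c * a i ∈ intSeriesA A := fun i hi => by
    rw [show c = (∏ j ∈ (Finset.range μ).erase i, ca j) * ca i from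
      (Finset.prod_erase_mul _ _ (Finset.mem_range.mpr hi)).symm, map_mul, mul_assoc]
    exact mul_mem (C_mem_intSeriesA (A.toSubring.prod_mem fun j _ => hcaA j)) (hca i)
  have hμ : 0 < μ := by
    show 0 < (charP φ).natDegree
    rw [natDegree_charP]
    exact Nat.card_pos
  have hint : ∀ k : ℕ, HahnSeries.C w * W * (HahnSeries.C c * g) ^ k ∈ intSeriesA A := by
    intro k
    induction k using Nat.strong_induction_on with
    | _ k ih =>
    rcases lt_or_ge k μ with hkμ | hkμ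
    · rw [show w = (∏ j ∈ (Finset.range (μ + 1)).erase k, cw j) * cw k from
        (Finset.prod_erase_mul _ _ (Finset.mem_range.mpr (by omega))).symm, map_mul, mul_pow,
        show ∀ x y z u v : LaurentSeries ℚb, x * y * z * (u * v) = (x * u) * (y * (z * v)) from
          fun x y z u v => by ring]
      exact mul_mem (mul_mem (C_mem_intSeriesA (A.toSubring.prod_mem fun j _ => hcwA j))
        ((intSeriesA A).pow_mem (C_mem_intSeriesA hcA) _)) (hcw k)
    · rw [show HahnSeries.C w * W * (HahnSeries.C c * g) ^ k = HahnSeries.C w * W *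
          (HahnSeries.C c * g) ^ (k - μ) * (HahnSeries.C c ^ μ * g ^ μ) by
        rw [← mul_pow (HahnSeries.C c) g μ, mul_assoc (HahnSeries.C w * W), ← pow_add,
          Nat.sub_add_cancel hkμ], hrel, mul_neg, mul_neg, Finset.mul_sum, Finset.mul_sum]
      refine neg_mem (sum_mem fun i hi => ?_)
      have hi' := Finset.mem_range.mp hi
      obtain ⟨d, hd⟩ : ∃ d, μ = i + 1 + d := ⟨μ - i - 1, by omega⟩
      rw [show HahnSeries.C w * W * (HahnSeries.C c * g) ^ (k - μ) *
          (HahnSeries.C c ^ μ * (a i * g ^ i)) = (HahnSeries.C c ^ d * (HahnSeries.C c * a i)) *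
            (HahnSeries.C w * W * (HahnSeries.C c * g) ^ (k - μ + i)) by
        rw [pow_add (HahnSeries.C c * g) (k - μ) i, hd, mul_pow (HahnSeries.C c) g i]
        ring]
      exact mul_mem (mul_mem (pow_mem (C_mem_intSeriesA hcA) _) (hci i hi')) (ih _ (by omega))
  have := hL
  exact exists_normalisation hℓ hA L hg0 hcoefL hc0 (mem_intSeriesA_of_pow hℓ hA
    (mul_ne_zero ((map_ne_zero_iff _ HahnSeries.C_injective).mpr hw0) hW0) hint)

end Fermat.Agent.GalRep.Level
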