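/-
The congruence relation and unramifiedness on congruence levels, from injectivity of reduction.
-/
import Fermat.Agent.GalRep.Level.Hecke
import Fermat.Agent.GalRep.Level.Normal
import Fermat.Agent.GalRep.KummerCongr

set_option autoImplicit false

noncomputable section

namespace Fermat.Agent.GalRep.Level

open UpperHalfPlane CongruenceSubgroup
open Fermat.Agent.Galois (GQ)
open scoped MatrixGroups Manifold

local notation "ℚb" => AlgebraicClosure ℚ

variable {M : ℕ} [NeZero M] {G : Subgroup SL(2, ℤ)} {n : ℕ} [NeZero n]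
variable {A : ValuationSubring (AlgebraicClosure ℚ)} {ℓ : ℕ}

/-- An `n`-th root of an algebraic series is algebraic. -/
theorem exists_series_of_pow {f : LaurentSeries ℂ} (hf : f ≠ 0) {g : LaurentSeries ℚb}
    (hg : seriesToC g = f ^ n) : ∃ f' : LaurentSeries ℚb, seriesToC f' = f := by
  refine exists_seriesToC_eq fun m => isAlgebraic_of_fixed fun σ hσ => ?_
  have hfix : lmap σ.toRingHom (f ^ n) = f ^ n := by
    rw [← hg]; ext k; exact hσ _
  rw [map_pow] at hfix
  obtain ⟨ω, -, hω⟩ := exists_root_unity_of_pow_eq (n := n) hf hfix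
  set x := f.coeff f.order
  have hx0 : x ≠ 0 := HahnSeries.coeff_order_eq_zero.not.mpr hf
  have hxn : x ^ n = qbarToC (g.coeff (n • f.order)) := by
    show _ = (seriesToC g).coeff (n • f.order)
    rw [hg, ← HahnSeries.order_pow, ← HahnSeries.leadingCoeff_eq]
    have hl : ∀ k : ℕ, (f ^ k).leadingCoeff = f.leadingCoeff ^ k := fun k => by
      induction k with
      | zero => simp
      | succ k ih => rw [pow_succ, HahnSeries.leadingCoeff_mul, ih, pow_succ]
    rw [hl, HahnSeries.leadingCoeff_eq]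
  obtain ⟨y, hy⟩ := IsAlgClosed.exists_pow_nat_eq (g.coeff (n • f.order)) (NeZero.pos n)
  have hy0 : qbarToC y ≠ 0 := fun h0 => hx0 <| (pow_eq_zero_iff (NeZero.ne n)).mp <| by
    rw [hxn, ← hy, map_pow, h0, zero_pow (NeZero.ne n)]
  obtain ⟨i, -, hi⟩ := (Complex.isPrimitiveRoot_exp n (NeZero.ne n)).eq_pow_of_pow_eq_one
    (show (x / qbarToC y) ^ n = 1 by rw [div_pow, hxn, ← map_pow, hy, div_self]
                                     rw [← hy, map_pow]; exact pow_ne_zero _ hy0)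
  obtain ⟨z, hz⟩ := exists_qbarToC_eq (x := Complex.exp (2 * Real.pi * Complex.I / n))
    ⟨Polynomial.X ^ n - 1, (Polynomial.monic_X_pow_sub_C 1 (NeZero.ne n)).ne_zero, by
      simp [(Complex.isPrimitiveRoot_exp n (NeZero.ne n)).pow_eq_one]⟩
  have hσx : σ x = x := by
    rw [show x = qbarToC (z ^ i * y) by rw [map_mul, map_pow, hz, hi, div_mul_cancel₀ _ hy0]]
    exact hσ _
  have hω1 : ω = 1 := by
    have h := congrArg (fun s : LaurentSeries ℂ => s.coeff f.order) hω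
    simp only [lmap_coeff, HahnSeries.C_mul_eq_smul, HahnSeries.coeff_smul, smul_eq_mul] at h
    rw [show σ.toRingHom (f.coeff f.order) = x from hσx] at h
    exact (mul_eq_right₀ hx0).mp h.symm
  rw [hω1, map_one, one_mul] at hω
  exact congrArg (fun s : LaurentSeries ℂ => s.coeff m) hω

omit [NeZero M] in
theorem seriesToC_mul_pow {F E : ℍ → ℂ} {f e : LaurentSeries ℚb} (hF : HasQSeries M F (seriesToC f))
    (hE : HasQSeries M E (seriesToC e)) (k : ℕ) :
    HasQSeries M (F * E ^ k) (seriesToC (f * e ^ k)) := by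
  rw [seriesToC_eq_lmap, map_mul, map_pow]; exact hF.mul (hE.pow k)

omit [NeZero M] in
theorem seriesToC_pow {F : ℍ → ℂ} {f : LaurentSeries ℚb} (hF : HasQSeries M F (seriesToC f))
    (k : ℕ) : HasQSeries M (F ^ k) (seriesToC (f ^ k)) := by
  rw [seriesToC_eq_lmap, map_pow]; exact hF.pow k

omit [NeZero M] in
/-- Scaling a series of a function. -/
theorem seriesToC_smul {F : ℍ → ℂ} {f : LaurentSeries ℚb} (hF : HasQSeries M F (seriesToC f))
    (r : ℚb) : HasQSeries M (fun τ => qbarToC r * F τ) (seriesToC (HahnSeries.C r * f)) := by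
  rw [seriesToC_eq_lmap, map_mul, lmap_C]; exact hF.smul _

/-- Every class has a representative whose `n`-th power is integral with a unit coefficient. -/
theorem exists_integral_repG (hℓ : ℓ.Prime) (hA : A.LiesOverPrime ℓ) (hG : IsLevel M G)
    (χ : ParG G (ZMod n)) :
    ∃ (h : ℍ → ℂ) (hq : LaurentSeries ℚb), IsRepG G n χ h ∧ HasQSeries M h (seriesToC hq) ∧
      hq ^ n ∈ intSeriesA A ∧ ∃ m, (hq ^ n).coeff m ∉ A.nonunits := by
  obtain ⟨F, f, hF, hf⟩ := exists_algebraic_repG hG χ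
  have hf0 : f ≠ 0 := fun h0 => hF.series_ne_zero hG hf (by rw [h0, seriesToC_eq_lmap, map_zero])
  obtain ⟨c, hc0, hint, hunit⟩ := exists_mf_normalisation hℓ hA (powMF hG hF) (g := f ^ n)
    ((hasQSeries_serHom (powMF hG hF)).unique (NeZero.pos M) (seriesToC_pow hf n)).symm
    (pow_ne_zero _ hf0)
  obtain ⟨r, hr⟩ := IsAlgClosed.exists_pow_nat_eq c (NeZero.pos n)
  have hr0 : r ≠ 0 := fun h0 => hc0 (by rw [← hr, h0, zero_pow (NeZero.ne n)])
  have hpow : (HahnSeries.C r * f) ^ n = HahnSeries.C c * f ^ n := by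
    rw [mul_pow, ← map_pow, hr]
  exact ⟨fun τ => qbarToC r * F τ, HahnSeries.C r * f, hF.const_mul ((map_ne_zero _).mpr hr0),
    seriesToC_smul hf r, hpow.symm ▸ hint, hpow.symm ▸ hunit⟩

omit [NeZero M] in
theorem rep_comp_of_transfer {χ ψ : ParG G (ZMod n)} {F : ℍ → ℂ} (hF : IsRepG G n χ F)
    {R : SL(2, ℤ)}
    (h : IsTransfer G G (fun _ : Unit => (R : Matrix (Fin 2) (Fin 2) ℤ))
      (χ : Additive G →+ ZMod n) (ψ : Additive G →+ ZMod n)) :
    IsRepG G n ψ (fun τ => F (R • τ)) where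
  holo := mdifferentiable_comp_smul hF.holo R
  ne_zero h0 := hF.ne_zero (funext fun τ => by simpa using congrFun h0 (R⁻¹ • τ))
  equivariant γ τ := by
    obtain ⟨e, g, heq, hsum⟩ := h γ
    have e1 : R * (γ : SL(2, ℤ)) = (g () : SL(2, ℤ)) * R := Subtype.ext (heq ())
    rw [← mul_smul, e1, mul_smul, hF.equivariant, hsum, Fintype.sum_unique]
  cusps δ := by
    obtain ⟨w, f, hw, hf⟩ := hF.cusps (R * δ)
    exact ⟨w, f, hw, by simpa [mul_smul] using hf⟩

/-- The translate of an algebraic representative by a diamond has an algebraic series. -/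
theorem exists_series_diamond (hG : IsLevel M G) {R : SL(2, ℤ)} (hR : IsDiamond M ℓ R)
    {χ : ParG G (ZMod n)} {F : ℍ → ℂ} (hF : IsRepG G n χ F) {f : LaurentSeries ℚb}
    (hf : HasQSeries M F (seriesToC f)) :
    ∃ h : LaurentSeries ℚb, h ≠ 0 ∧ HasQSeries M (fun τ => F (R • τ)) (seriesToC h) := by
  obtain ⟨h, hh, hh0⟩ := hF.exists_series hG R
  set φ := powMF hG hF
  have hser : serAlg M (shift M R φ) = h ^ n := serAlg_shift_eq (hh.pow n)
  have hfix : ∀ σ : ℂ ≃+* ℂ, (∀ y, σ (qbarToC y) = qbarToC y) →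
      lmap σ.toRingHom (h ^ n) = h ^ n := by
    intro σ hσ
    obtain ⟨φ', hφ'⟩ := exists_conjF σ φ
    have e : φ' = φ := by
      refine serAlg_injective M ?_
      have h1 := hφ' 1 1 (ConjEq.one_one _)
      rw [shift_one, shift_one] at h1
      rw [h1, show serAlg M φ = seriesToC (f ^ n) from
        (hasQSeries_serHom φ).unique (NeZero.pos M) (seriesToC_pow hf n)]
      ext k; exact hσ _
    rw [← hser, ← hφ' R R (conjEq_diamond hR _), e]
  obtain ⟨g, hg⟩ := exists_seriesToC_eq fun m => isAlgebraic_of_fixed fun σ hσ =>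
    congrArg (fun s : LaurentSeries ℂ => s.coeff m) (hfix σ hσ)
  obtain ⟨h', rfl⟩ := exists_series_of_pow hh0 hg
  exact ⟨h', fun h0 => hh0 (by rw [h0, seriesToC_eq_lmap, map_zero]), hh⟩

omit [NeZero M] in
theorem hasQSeries_comp_of_eq (hM : 0 < M) {F : ℍ → ℂ} (g : SL(2, ℤ)) {α δ : ℕ} (hα : 0 < α)
    (hδ : 0 < δ) (b : ℤ) {β : Matrix (Fin 2) (Fin 2) ℤ} (hβ : 0 < β.det)
    (e : β = (g : Matrix (Fin 2) (Fin 2) ℤ) * !![(α : ℤ), b; 0, (δ : ℤ)])
    {h : LaurentSeries ℂ} (hh : HasQSeries M (fun τ => F (g • τ)) h) {k : ℕ} (hk : k ≠ 0) :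
    HasQSeries (M * δ * k) (fun τ => F (posMat β hβ • τ))
      (expand k hk (expand α hα.ne' (twist (Units.mk0
        (Complex.exp (2 * Real.pi * Complex.I * b / (δ * M : ℕ))) (Complex.exp_ne_zero _)) h))) := by
  subst e
  exact hasQSeries_comp_upper hM g hα hδ b hβ hh hk

/-- The series of the transfer. -/
theorem hasQSeries_heckeG [NeZero ℓ] {F : ℍ → ℂ} {R : SL(2, ℤ)} {f h : LaurentSeries ℂ}
    (hf : HasQSeries M F f) (hh : HasQSeries M (fun τ => F (R • τ)) h) (z : ℂˣ)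
    (hz : (z : ℂ) = Complex.exp (2 * Real.pi * Complex.I / ℓ))
    (hd : ∀ i, 0 < (heckeRepG M ℓ R i).det) :
    HasQSeries (M * ℓ) (transferProd (heckeRepG M ℓ R) hd F)
      (expand ℓ (NeZero.ne ℓ) (expand ℓ (NeZero.ne ℓ) h) * ∏ b : Fin ℓ, twist (z ^ (b : ℕ)) f) := by
  rw [transferProd, Fintype.prod_option]
  refine HasQSeries.mul ?_ (HasQSeries.prod _ fun b _ => ?_)
  · have h1 := hasQSeries_comp_of_eq (NeZero.pos M) R (NeZero.pos ℓ) one_pos 0 (hd none)
      (by simp [heckeRepG]) hh (NeZero.ne ℓ)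
    rw [mul_one] at h1
    convert h1 using 3
    rw [show Units.mk0 (Complex.exp (2 * Real.pi * Complex.I * ((0 : ℤ) : ℂ) / (1 * M : ℕ)))
      (Complex.exp_ne_zero _) = 1 from Units.ext (by simp), twist_one]
  · have h1 := hasQSeries_comp_of_eq (NeZero.pos M) (F := F) 1 one_pos (NeZero.pos ℓ)
      ((b : ℤ) * M) (hd (some b)) (by simp [heckeRepG]) (h := f) (by simpa only [one_smul] using hf)
      one_ne_zero
    rw [expand_one, expand_one, mul_one] at h1
    rw [show z ^ (b : ℕ) = Units.mk0 (Complex.exp (2 * Real.pi * Complex.I * (((b : ℤ) * M : ℤ) : ℂ) /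
      (ℓ * M : ℕ))) (Complex.exp_ne_zero _) from Units.ext ?_]
    · exact h1
    · rw [Units.val_pow_eq_pow_val, hz, Units.val_mk0, ← Complex.exp_nat_mul]
      congr 1
      have h1 : (M : ℂ) ≠ 0 := Nat.cast_ne_zero.mpr (NeZero.ne M)
      have h2 : (ℓ : ℂ) ≠ 0 := Nat.cast_ne_zero.mpr (NeZero.ne ℓ)
      push_cast
      field_simp

omit [NeZero M] in
theorem eq_sub_of_pred_nsmul (x y : ParG G (ZMod n)) : x + (n - 1) • y = x - y := by
  have h : y + (n - 1) • y = 0 := by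
    rw [← succ_nsmul', show n - 1 + 1 = n by have := NeZero.pos n; omega]
    exact Subtype.ext (AddMonoidHom.ext fun z => by simp)
  rw [eq_neg_of_add_eq_zero_right h, ← sub_eq_add_neg]

theorem ne_zero_of_hasRed {f : LaurentSeries ℚb}
    {F : LaurentSeries (IsLocalRing.ResidueField A)} (h : HasRed A f F) {m : ℤ}
    (hm : f.coeff m ∉ A.nonunits) : F ≠ 0 := by
  intro h0
  obtain ⟨h1, h2⟩ := h m
  refine hm (ValuationSubring.coe_mem_nonunits_iff.mpr
    ((IsLocalRing.residue_eq_zero_iff (R := A) ⟨_, h1⟩).mp ?_))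
  rw [h2, h0, HahnSeries.coeff_zero]

set_option maxHeartbeats 1000000 in
/-- Unramifiedness and the congruence relation, up to a constant independent of `n`. -/
theorem galG_congruence (hG : IsLevel M G) (hred : KummerReductionG M G) (hℓ : ℓ.Prime)
    (hℓM : ¬ ℓ ∣ M) :
    ∃ D : ℕ, 0 < D ∧ ∀ (n : ℕ) [NeZero n], ¬ ℓ ∣ n →
      ∀ A : ValuationSubring (AlgebraicClosure ℚ), A.LiesOverPrime ℓ →
        (∀ σ ∈ A.inertiaSubgroupIn ℚ, ∀ χ, D • (galG hG n σ χ - χ) = 0) ∧
        ∀ σ : GQ, A.IsFrobeniusAt σ ℓ → ∀ R : SL(2, ℤ), IsDiamond M ℓ R →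
          ∀ χ χ' ψ : ParG G (ZMod n),
          IsTransfer G G (heckeRepG M ℓ R)
            ((galG hG n σ χ : ParG G (ZMod n)) : Additive G →+ ZMod n)
            (χ' : Additive G →+ ZMod n) →
          IsTransfer G G (fun _ : Unit => (R : Matrix (Fin 2) (Fin 2) ℤ))
            (χ : Additive G →+ ZMod n) (ψ : Additive G →+ ZMod n) →
          D • (galG hG n σ (galG hG n σ χ) - χ' + ℓ • ψ) = 0 := by
  obtain ⟨D, hD, hmain⟩ := hred ℓ hℓ hℓM
  refine ⟨D, hD, fun n _ hn A hA => ?_⟩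
  have : Fact ℓ.Prime := ⟨hℓ⟩
  have : NeZero ℓ := ⟨hℓ.ne_zero⟩
  have := charP_residue hℓ hA
  constructor
  · intro σ hσ χ
    obtain ⟨⟨σ', hσ'⟩, hker, rfl⟩ := hσ
    obtain ⟨h0, f0, hh0, hf0, hint, m, hm⟩ := exists_integral_repG hℓ hA hG χ
    obtain ⟨Φ, hΦ⟩ := exists_hasRed hint
    obtain ⟨h1, hh1, hf1⟩ := galG_spec hG σ' hh0 hf0
    have hred1 : HasRed A (seriesConj σ' f0 ^ n) Φ := by
      have h := hΦ.conj hσ' (ρ := RingHom.id _) fun x => by
        have := MonoidHom.mem_ker.mp hker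
        exact RingEquiv.congr_fun this x
      rw [seriesConj_eq_lmap, map_pow, ← seriesConj_eq_lmap] at h
      rwa [show lmap (RingHom.id (IsLocalRing.ResidueField A)) Φ = Φ by ext; rfl] at h
    have hH := hh1.mul (hh0.pow (n - 1))
    have hred2 : HasRed A ((seriesConj σ' f0 * f0 ^ (n - 1)) ^ n) (Φ ^ n) := by
      rw [mul_pow, ← pow_mul, mul_comm (n - 1), pow_mul]
      have := hred1.mul (hΦ.pow (n - 1))
      rwa [← pow_succ', Nat.sub_add_cancel (NeZero.pos n)] at this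
    have key := hmain n hn A hA _ _ _ _ _ hH (seriesToC_mul_pow hf1 hf0 (n - 1)) hh0.isModFun_pow
      (seriesToC_pow hf0 n) hred2.integral hΦ.integral ⟨m, hm⟩ (hred2.congr (hΦ.pow n))
    rwa [eq_sub_of_pred_nsmul] at key
  · intro σ hσ R hR χ χ' ψ hT hP
    obtain ⟨hdec, hfrob⟩ := hσ
    obtain ⟨h0, f0, hh0, hf0, hint, m, hm⟩ := exists_integral_repG hℓ hA hG χ
    obtain ⟨Φ, hΦ⟩ := exists_hasRed hint
    -- the translate by `R`
    obtain ⟨hq, hq0, hqs⟩ := exists_series_diamond hG hR hh0 hf0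
    have hR0 := rep_comp_of_transfer hh0 hP
    obtain ⟨c, hc0, hcint, m', hm'⟩ := exists_mf_normalisation hℓ hA (powMF hG hR0) (g := hq ^ n)
      ((hasQSeries_serHom (powMF hG hR0)).unique (NeZero.pos M) (seriesToC_pow hqs n)).symm
      (pow_ne_zero _ hq0)
    obtain ⟨r, hr⟩ := IsAlgClosed.exists_pow_nat_eq c (NeZero.pos n)
    have hr0 : r ≠ 0 := fun h0 => hc0 (by rw [← hr, h0, zero_pow (NeZero.ne n)])
    set η : LaurentSeries ℚb := HahnSeries.C r * hq
    have hηn : η ^ n = HahnSeries.C c * hq ^ n := by rw [mul_pow, ← map_pow, hr]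
    obtain ⟨Ψ, hΨ⟩ : ∃ Ψ, HasRed A (η ^ n) Ψ := exists_hasRed (hηn ▸ hcint)
    have hG0 := hR0.const_mul (c := qbarToC r) ((map_ne_zero _).mpr hr0)
    have hG0s := seriesToC_smul hqs r
    -- the two conjugates
    obtain ⟨h1, hh1, hf1', hrel, -⟩ := autG_spec hG (liftAut σ) hh0 hf0
    have hf1 : HasQSeries M h1 (seriesToC (seriesConj σ f0)) := by
      rwa [lmap_seriesToC (liftAut_spec σ)] at hf1'
    rw [← galG_eq_autG] at hh1
    obtain ⟨h2, hh2, hf2⟩ := galG_spec hG σ hh1 hf1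
    set Fr := frobenius (IsLocalRing.ResidueField A) ℓ with hFr
    have hconj : ∀ {f : LaurentSeries ℚb} {F : LaurentSeries (IsLocalRing.ResidueField A)},
        HasRed A (f ^ n) F → HasRed A (seriesConj σ f ^ n) (lmap Fr F) := fun {f F} h => by
      have h' := h.conj hdec (ρ := Fr) fun x => by rw [hfrob, hFr, frobenius_def]
      rwa [seriesConj_eq_lmap, map_pow, ← seriesConj_eq_lmap] at h'
    -- the transfer
    obtain ⟨k, hk, hk0⟩ := hh1.exists_series hG R
    have hek := hrel R R _ _ (conjEq_diamond hR _) hqs hk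
    rw [lmap_seriesToC (liftAut_spec σ)] at hek
    have hσq : seriesToC (seriesConj σ hq) ≠ 0 := fun h => hq0 (by
      have := seriesToC_injective (h.trans (show (0 : LaurentSeries ℂ) = seriesToC 0 by
        rw [seriesToC_eq_lmap, map_zero]))
      rw [seriesConj_eq_lmap] at this
      exact lmap_injective (φ := σ.toRingEquiv.toRingHom) σ.toRingEquiv.injective
        (this.trans (map_zero _).symm))
    obtain ⟨ω, hωn, rfl⟩ := exists_root_unity_of_pow_eq (n := n) hσq hek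
    have hω0 : ω ≠ 0 := fun h0 => by simp [h0, zero_pow (NeZero.ne n)] at hωn
    obtain ⟨z, hz⟩ := exists_qbarToC_eq (x := Complex.exp (2 * Real.pi * Complex.I / ℓ))
      ⟨Polynomial.X ^ ℓ - 1, (Polynomial.monic_X_pow_sub_C 1 (NeZero.ne ℓ)).ne_zero, by
        simp [(Complex.isPrimitiveRoot_exp ℓ (NeZero.ne ℓ)).pow_eq_one]⟩
    have hzℓ : z ^ ℓ = 1 := qbarToC_injective (by
      rw [map_pow, hz, (Complex.isPrimitiveRoot_exp ℓ (NeZero.ne ℓ)).pow_eq_one, map_one])
    set zu : ℚbˣ := Units.mk0 z fun h => by simp [h, zero_pow (NeZero.ne ℓ)] at hzℓ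
    have hzu : zu ^ ℓ = 1 := Units.ext (by simpa [zu] using hzℓ)
    set S : LaurentSeries ℚb :=
      expand ℓ (NeZero.ne ℓ) (expand ℓ (NeZero.ne ℓ) (seriesConj σ η)) *
        ∏ b : Fin ℓ, twist (zu ^ (b : ℕ)) (seriesConj σ f0) with hS
    have hd : ∀ i, 0 < (heckeRepG M ℓ R i).det := fun i => by
      rw [det_heckeRepG]; exact_mod_cast hℓ.pos
    have hprod := hasQSeries_heckeG hf1 hk (Units.map ((qbarToC : ℚb →+* ℂ) : ℚb →* ℂ) zu)
      (by simp [zu, hz]) hd
    set v : ℂ := qbarToC (σ r) * ω⁻¹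
    have hv0 : v ≠ 0 := mul_ne_zero ((map_ne_zero _).mpr ((map_ne_zero σ).mpr hr0)) (inv_ne_zero hω0)
    have hTh := (transferProd_rep hd hh1 hT).const_mul hv0
    obtain ⟨uC, huC, -⟩ := hTh.exists_series_infty hG
    have hexp : expand ℓ (NeZero.ne ℓ) uC = seriesToC S := by
      refine (huC.refine_width (NeZero.pos M) ℓ (NeZero.ne ℓ)).unique
        (Nat.mul_pos (NeZero.pos M) hℓ.pos) ?_
      convert hprod.smul v using 1
      have hC : ∀ x : ℂ, expand ℓ (NeZero.ne ℓ) (HahnSeries.C x) = HahnSeries.C x := fun x => by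
        ext i
        by_cases hi : (ℓ : ℤ) ∣ i
        · obtain ⟨j, rfl⟩ := hi
          rw [expand_coeff_mul]
          rcases eq_or_ne j 0 with rfl | hj <;> simp [NeZero.ne ℓ, *]
        · rw [expand_coeff_of_not_dvd _ _ _ _ hi]
          have : i ≠ 0 := fun h0 => hi (h0 ▸ dvd_zero _)
          simp [this]
      have hη : seriesToC (seriesConj σ η) =
          HahnSeries.C (qbarToC (σ r)) * seriesToC (seriesConj σ hq) := by
        simp only [η, seriesConj_eq_lmap, seriesToC_eq_lmap, map_mul, lmap_C]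
        rfl
      simp only [hS, seriesToC_eq_lmap, map_mul, map_prod, lmap_expand, lmap_twist, map_pow]
      simp only [← seriesToC_eq_lmap]
      rw [hη]
      simp only [map_mul, hC, v]
      have e : HahnSeries.C ω⁻¹ * HahnSeries.C ω = (1 : LaurentSeries ℂ) := by
        rw [← map_mul, inv_mul_cancel₀ hω0, map_one]
      linear_combination (- HahnSeries.C (qbarToC (σ r)) *
        (expand ℓ (NeZero.ne ℓ) (expand ℓ (NeZero.ne ℓ) (seriesToC (seriesConj σ hq))) *
        ∏ b : Fin ℓ, twist (Units.map ((qbarToC : ℚb →+* ℂ) : ℚb →* ℂ) zu ^ (b : ℕ))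
          (seriesToC (seriesConj σ f0)))) * e
    obtain ⟨u, rfl⟩ : ∃ u, seriesToC u = uC := exists_seriesToC_eq fun j => by
      rw [← expand_coeff_mul ℓ (NeZero.ne ℓ) uC j, hexp]
      exact (Algebra.IsAlgebraic.isAlgebraic _).algHom qbarToC.toRatAlgHom
    have hu : expand ℓ (NeZero.ne ℓ) u = S :=
      seriesToC_injective (by rw [← hexp, seriesToC_eq_lmap, lmap_expand]; rfl)
    obtain ⟨U, hU⟩ : ∃ U : LaurentSeries (IsLocalRing.ResidueField A),
        U = lmap Fr (lmap Fr Φ) * Ψ ^ ℓ := ⟨_, rfl⟩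
    have hured : HasRed A (u ^ n) U := by
      refine HasRed.of_expand ℓ (NeZero.ne ℓ) ?_
      have hp := HasRed.prod (Finset.univ : Finset (Fin ℓ)) (b := fun _ => lmap Fr Φ) fun b _ =>
        (hconj hΦ).twist_root (ℓ := ℓ) (ω := zu ^ (b : ℕ))
          (by rw [← pow_mul, mul_comm, pow_mul, hzu, one_pow])
      rw [Finset.prod_const, Finset.card_univ, Fintype.card_fin] at hp
      have h := (((hconj hΨ).expand ℓ (NeZero.ne ℓ)).expand ℓ (NeZero.ne ℓ)).mul hp
      rw [map_pow, hu, hS, mul_pow, ← Finset.prod_pow, ← map_pow, ← map_pow]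
      simp only [← map_pow (twist _)]
      rw [pow_char_eq_expand (lmap Fr Φ)] at h
      rw [hU, pow_char_eq_expand Ψ, map_mul]
      convert h using 1
      exact mul_comm _ _
    have hU0 : U ≠ 0 := by
      rw [hU]
      have hi := lmap_injective (φ := Fr) Fr.injective
      exact mul_ne_zero (fun h => ne_zero_of_hasRed hΦ hm (hi (hi (by rw [h, map_zero, map_zero]))))
        (pow_ne_zero _ (ne_zero_of_hasRed hΨ (hηn ▸ hm')))
    have hH := (hh2.mul (hG0.pow ℓ)).mul (hTh.pow (n - 1))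
    have hser := seriesToC_mul_pow (seriesToC_mul_pow hf2 hG0s ℓ) huC (n - 1)
    have hred2 : HasRed A
        ((seriesConj σ (seriesConj σ f0) * η ^ ℓ * u ^ (n - 1)) ^ n) (U ^ n) := by
      rw [mul_pow, mul_pow, ← pow_mul, mul_comm ℓ, pow_mul, ← pow_mul u, mul_comm (n - 1), pow_mul]
      have := ((hconj (hconj hΦ)).mul (hΨ.pow ℓ)).mul (hured.pow (n - 1))
      rwa [← hU, ← pow_succ', Nat.sub_add_cancel (NeZero.pos n)] at this
    have key := hmain n hn A hA _ _ _ _ _ hH hser hTh.isModFun_pow (seriesToC_pow huC n)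
      hred2.integral hured.integral (hured.exists_unit hU0) (hred2.congr (hured.pow n))
    rwa [eq_sub_of_pred_nsmul, add_sub_right_comm] at key

/-- Inertia at a good prime acts trivially, up to a constant. -/
theorem galG_inertia (hG : IsLevel M G) (hred : KummerReductionG M G) (hℓ : ℓ.Prime)
    (hℓM : ¬ ℓ ∣ M) :
    ∃ D : ℕ, 0 < D ∧ ∀ (n : ℕ) [NeZero n], ¬ ℓ ∣ n →
      ∀ A : ValuationSubring (AlgebraicClosure ℚ), A.LiesOverPrime ℓ →
        ∀ σ ∈ A.inertiaSubgroupIn ℚ, ∀ χ, D • (galG hG n σ χ - χ) = 0 := by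
  obtain ⟨D, hD, h⟩ := galG_congruence hG hred hℓ hℓM
  exact ⟨D, hD, fun n _ hn A hA => (h n hn A hA).1⟩

/-- The congruence relation, up to a constant. -/
theorem galG_frobenius (hG : IsLevel M G) (hred : KummerReductionG M G) (hℓ : ℓ.Prime)
    (hℓM : ¬ ℓ ∣ M) :
    ∃ D : ℕ, 0 < D ∧ ∀ (n : ℕ) [NeZero n], ¬ ℓ ∣ n →
      ∀ A : ValuationSubring (AlgebraicClosure ℚ), A.LiesOverPrime ℓ →
        ∀ σ : GQ, A.IsFrobeniusAt σ ℓ → ∀ R : SL(2, ℤ), IsDiamond M ℓ R →
          ∀ χ χ' ψ : ParG G (ZMod n),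
          IsTransfer G G (heckeRepG M ℓ R)
            ((galG hG n σ χ : ParG G (ZMod n)) : Additive G →+ ZMod n)
            (χ' : Additive G →+ ZMod n) →
          IsTransfer G G (fun _ : Unit => (R : Matrix (Fin 2) (Fin 2) ℤ))
            (χ : Additive G →+ ZMod n) (ψ : Additive G →+ ZMod n) →
          D • (galG hG n σ (galG hG n σ χ) - χ' + ℓ • ψ) = 0 := by
  obtain ⟨D, hD, h⟩ := galG_congruence hG hred hℓ hℓM
  exact ⟨D, hD, fun n _ hn A hA => (h n hn A hA).2⟩

omit [NeZero M] in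
/-- Diamond matrices exist. -/
theorem exists_diamond [NeZero M] (hℓ : Nat.Coprime ℓ M) : ∃ R, IsDiamond M ℓ R := by
  set u := ZMod.unitOfCoprime ℓ hℓ with hu
  obtain ⟨R, hR⟩ := red_surjective M ⟨!![((u⁻¹ : (ZMod M)ˣ) : ZMod M), 0; 0, (u : ZMod M)], by
    simp [Matrix.det_fin_two_of]⟩
  have e : ∀ i j, (R i j : ZMod M) =
      !![((u⁻¹ : (ZMod M)ˣ) : ZMod M), 0; 0, (u : ZMod M)] i j := fun i j => by
    rw [← red_apply, hR]
  refine ⟨R, ?_, by simp [e], by simp [e], by simp [e, hu]⟩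
  rw [e, show (ℓ : ZMod M) = (u : ZMod M) by simp [hu]]
  simp

end Fermat.Agent.GalRep.Level
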